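import Fermat.Agent.DR.Nodal.Inj
import Fermat.Prelude.Def_AlgebraicCurve_BaseChangeGalois

set_option autoImplicit false
set_option linter.unusedSectionVars false

/-!
# Galois action: inertia is unipotent, Frobenius on the toric part
-/

noncomputable section

open AlgebraicCurve Fermat.Agent.RR Fermat.Agent.JRED WithZero

namespace Fermat.Agent.DR

variable {K F k F₁ F₂ : Type*} [Field K] [Field F] [Algebra K F] [Field k] [Field F₁] [Field F₂]
  [Algebra k F₁] [Algebra k F₂] [IsAlgClosed K] [IsAlgClosed k] [FunctionField K F]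
  [FunctionField k F₁] [FunctionField k F₂] {A : ValuationSubring K} {π : A →+* k}

section RootDiv

variable {X : NodalDatum K F k F₁ F₂ A π} {m : ℕ} {D D' : Divisor K F} {f f' : F}
  {u u' : F₁ × F₂}

theorem IsRootDiv.mul (H : IsRootDiv X m D f u) (H' : IsRootDiv X m D' f' u') :
    IsRootDiv X m (D + D') (f * f') (u * u') where
  pos := H.pos
  ne_zero := mul_ne_zero H.ne_zero H'.ne_zero
  div_eq := fun P => by
    rw [Finsupp.add_apply, mul_add, H.div_eq, H'.div_eq, P.ord_mul H.ne_zero H'.ne_zero]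
  red := H.red.mul H'.red
  ne₁ := mul_ne_zero H.ne₁ H'.ne₁
  ne₂ := mul_ne_zero H.ne₂ H'.ne₂

theorem IsRootDiv.sub (hπ : Function.Surjective π) (H : IsRootDiv X m D f u)
    (H' : IsRootDiv X m D' f' u') :
    IsRootDiv X m (D - D') (f * f'⁻¹) (u.1 / u'.1, u.2 / u'.2) := by
  have := H.mul (H'.inv hπ)
  rw [← sub_eq_add_neg] at this
  rw [div_eq_mul_inv, div_eq_mul_inv]
  exact this

/-- the root divisor attached to an `m`-th power of a normalised function -/
theorem IsRootDiv.of_pow (hm : 0 < m) {v : F} {w : F₁ × F₂} (hv : Red₂ X.R₁ X.R₂ v w)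
    (h1 : w.1 ≠ 0) (h2 : w.2 ≠ 0) (hD : ∀ P, D P = P.ord v) :
    IsRootDiv X m D (v ^ m) (w ^ m) where
  pos := hm
  ne_zero := pow_ne_zero _ (hv.ne_zero fun h => h1 (by rw [h]; rfl))
  div_eq := fun P => by rw [ord_pow, hD]
  red := hv.pow m
  ne₁ := pow_ne_zero _ h1
  ne₂ := pow_ne_zero _ h2

/-- Every `m`-torsion class has a normalised representative. -/
theorem exists_isRootDiv (X : NodalDatum K F k F₁ F₂ A π) (hm : 0 < m) {f₀ : F} (hf₀ : f₀ ≠ 0)
    (hD : ∀ P, (m : ℤ) * D P = P.ord f₀) :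
    ∃ v : F, v ≠ 0 ∧ ∃ (f : F) (u : F₁ × F₂), IsRootDiv X m (D + divOf v) f u := by
  obtain ⟨c₁, hc₁, u₁, hu₁, h₁⟩ := X.R₁.normalize f₀ hf₀
  obtain ⟨c₂, hc₂, u₂, hu₂, h₂⟩ := X.R₂.normalize f₀ hf₀
  obtain ⟨d, hd⟩ := IsAlgClosed.exists_pow_nat_eq (c₁ / c₂) hm
  have hd0 : d ≠ 0 := by
    rintro rfl
    rw [zero_pow hm.ne'] at hd
    exact div_ne_zero hc₁ hc₂ hd.symm
  obtain ⟨v, hv1, hv2⟩ := X.shift d hd0
  have hv0 : v ≠ 0 := RedDatum.ne_zero_of_red hv1 one_ne_zero
  have hc₁' : algebraMap K F c₁ ≠ 0 := by simpa using hc₁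
  refine ⟨v, hv0, algebraMap K F c₁ * f₀ * v ^ m, (u₁, u₂), hm, ?_, ?_, ?_, hu₁, hu₂⟩
  · exact mul_ne_zero (mul_ne_zero hc₁' hf₀) (pow_ne_zero _ hv0)
  · intro P
    rw [Finsupp.add_apply, divOf_apply, P.ord_mul (mul_ne_zero hc₁' hf₀) (pow_ne_zero _ hv0),
      P.ord_mul hc₁' hf₀, ord_algebraMap, ord_pow, mul_add, hD, zero_add]
  · constructor
    · have := X.R₁.mul h₁ (RedDatum.pow hv1 m)
      simpa using this
    · have := X.R₂.mul h₂ (RedDatum.pow hv2 m)
      rw [one_pow, mul_one] at this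
      convert this using 1
      rw [mul_pow, ← map_pow, hd, map_div₀]
      have hc₂' : algebraMap K F c₂ ≠ 0 := by simpa using hc₂
      field_simp

/-- Two classes in the toric part with the same gluing function (up to a constant) agree. -/
theorem isPrincipal_sub_of_gamma (hπ : Function.Surjective π) (hmk : (m : k) ≠ 0)
    (H : IsRootDiv X m D f (1, 1)) (H' : IsRootDiv X m D' f' (1, 1))
    {γ γ' : Place k F₁ × Place k F₂ → k} (hγ : IsGamma X hπ D γ) (hγ' : IsGamma X hπ D' γ')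
    {c : k} (hc : c ^ m = 1) (h : ∀ s ∈ X.nodes, γ s = c * γ' s) :
    Divisor.IsPrincipal (D - D') := by
  have hc0 : c ≠ 0 := by
    rintro rfl
    rw [zero_pow H.pos.ne'] at hc
    exact zero_ne_one hc
  -- a function reducing to `(1, c)`
  obtain ⟨v, hv⟩ := X.approx (1, algebraMap k F₂ c)
  have hc0' : algebraMap k F₂ c ≠ 0 := by simpa using hc0
  have hv0 : v ≠ 0 := RedDatum.ne_zero_of_red hv.1 one_ne_zero
  have H3 : IsRootDiv X m (divOf v) (v ^ m) ((1, algebraMap k F₂ c) ^ m) :=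
    IsRootDiv.of_pow H.pos hv one_ne_zero hc0' (fun P => divOf_apply v P)
  have hpow : ((1, algebraMap k F₂ c) : F₁ × F₂) ^ m = (1, 1) := by
    rw [Prod.pow_mk, one_pow, ← map_pow, hc, map_one]
  rw [hpow] at H3
  obtain ⟨γ₃, -, hγ₃⟩ := H3.exists_gamma hπ
  have H4 : IsRootDiv X m (D - D' - divOf v) (f * f'⁻¹ * (v ^ m)⁻¹) (1, 1) := by
    have := (H.sub hπ H').sub hπ H3
    simpa using this
  obtain ⟨γ₄, -, hγ₄⟩ := H4.exists_gamma hπ
  -- `D = (D - D' - div v) + (D' + div v)`
  have H5 : IsRootDiv X m (D' + divOf v) (f' * v ^ m) (1, 1) := by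
    have := H'.mul H3
    simpa using this
  obtain ⟨γ₅, -, hγ₅⟩ := H5.exists_gamma hπ
  have hone : ∀ s ∈ X.nodes, γ₄ s = 1 := by
    intro s hs
    have e3 : γ₃ s = c := hγ₃.of_principal hv (fun P => divOf_apply v P) hs
    have e5 : γ₅ s = γ' s * γ₃ s := hγ'.mul hγ₃ hγ₅ hs
    have hsum : D - D' - divOf v + (D' + divOf v) = D := by abel
    have e1 : γ s = γ₄ s * γ₅ s := by
      have hγ6 : IsGamma X hπ (D - D' - divOf v + (D' + divOf v)) γ := by rw [hsum]; exact hγ
      exact hγ₄.mul hγ₅ hγ6 hs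
    rw [h s hs, e5, e3] at e1
    have hne : γ' s * c ≠ 0 := by
      have : γ' s ≠ 0 := by
        intro h0
        obtain ⟨γ'', hγ''1, hγ''⟩ := H'.exists_gamma hπ
        have h1 := hγ''1 s hs
        rw [hγ''.unique hγ' hs, h0, zero_pow H.pos.ne'] at h1
        exact zero_ne_one h1
      exact mul_ne_zero this hc0
    have h2 : γ₄ s * (γ' s * c) = 1 * (γ' s * c) := by rw [← e1]; ring
    exact mul_right_cancel₀ hne h2
  have hfin := H4.isPrincipal_of_gamma_one hπ hmk (hγ₄.congr hone)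
  have h7 : D - D' = (D - D' - divOf v) + divOf v := by abel
  rw [h7]
  exact (Divisor.principal (K := K) (F := F)).add_mem hfin ⟨v, hv0, fun P => divOf_apply v P⟩

end RootDiv

section Compat

variable (X : NodalDatum K F k F₁ F₂ A π)

/-- Compatible semilinear automorphisms of `F`, `F₁`, `F₂`. -/
structure IsCompat (g : SemilinearAut K F) (g₁ : SemilinearAut k F₁)
    (g₂ : SemilinearAut k F₂) : Prop where
  red₁ : ∀ (w : F) (u : F₁), X.R₁.Red w u → X.R₁.Red (g • w) (g₁ • u)
  red₂ : ∀ (w : F) (u : F₂), X.R₂.Red w u → X.R₂.Red (g • w) (g₂ • u)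
  base : SemilinearAut.baseAut g₁ = SemilinearAut.baseAut g₂
  poles : g • polesOf (K := K) X.x = polesOf (K := K) X.x
  nodes : ∀ s ∈ X.nodes, (g₁ • s.1, g₂ • s.2) ∈ X.nodes

variable {X} {m : ℕ} {D D' : Divisor K F} {f f' : F} {u u' : F₁ × F₂}
  {g : SemilinearAut K F} {g₁ : SemilinearAut k F₁} {g₂ : SemilinearAut k F₂}

theorem IsCompat.red (C : IsCompat X g g₁ g₂) {w : F} {u : F₁ × F₂}
    (h : Red₂ X.R₁ X.R₂ w u) : Red₂ X.R₁ X.R₂ (g • w) (g₁ • u.1, g₂ • u.2) :=
  ⟨C.red₁ _ _ h.1, C.red₂ _ _ h.2⟩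

theorem smul_div_eq {m : ℕ} {D : Divisor K F} {f : F} (g : SemilinearAut K F)
    (h : ∀ P, (m : ℤ) * D P = P.ord f) (P : Place K F) :
    (m : ℤ) * (g • D) P = P.ord (g • f) := by
  rw [SemilinearAut.divisor_smul_apply, h]
  have h1 := SemilinearAut.ord_smul g (g⁻¹ • P) f
  rw [smul_inv_smul] at h1
  exact h1.symm

theorem IsCompat.isRootDiv (C : IsCompat X g g₁ g₂) (H : IsRootDiv X m D f u) :
    IsRootDiv X m (g • D) (g • f) (g₁ • u.1, g₂ • u.2) where
  pos := H.pos
  ne_zero := by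
    have := H.ne_zero
    rw [SemilinearAut.smul_def]
    exact (map_ne_zero_iff _ (SemilinearAut.toRingAut g).injective).mpr this
  div_eq := smul_div_eq g H.div_eq
  red := C.red H.red
  ne₁ := by
    have := H.ne₁
    rw [SemilinearAut.smul_def]
    exact (map_ne_zero_iff _ (SemilinearAut.toRingAut g₁).injective).mpr this
  ne₂ := by
    have := H.ne₂
    rw [SemilinearAut.smul_def]
    exact (map_ne_zero_iff _ (SemilinearAut.toRingAut g₂).injective).mpr this

theorem val_smul {E : Type*} [Field E] [Algebra k E] (g : SemilinearAut k E) {P : Place k E}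
    {w : E} {c : k} (h : Val P w c) : Val (g • P) (g • w) (SemilinearAut.baseAut g c) := by
  unfold Val at *
  rw [adicValuation_lt_one_iff] at h ⊢
  rw [← SemilinearAut.smul_algebraMap, ← smul_sub]
  rcases h with h | h
  · left
    rw [h, smul_zero]
  · right
    rwa [SemilinearAut.ord_smul]

theorem smul_mem_riemannRochSpace {D : Divisor K F} {h : F} (g : SemilinearAut K F)
    (hh : h ∈ riemannRochSpace D) : g • h ∈ riemannRochSpace (g • D) := by
  rw [mem_riemannRochSpace_iff] at hh ⊢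
  intro P
  rcases hh (g⁻¹ • P) with h1 | h1
  · left; rw [h1, smul_zero]
  · right
    rw [SemilinearAut.divisor_smul_apply]
    have h2 := SemilinearAut.ord_smul g (g⁻¹ • P) h
    rw [smul_inv_smul] at h2
    rw [h2]
    exact h1

/-- Equivariance of the gluing function. -/
theorem IsCompat.gamma (C : IsCompat X g g₁ g₂) {hπ : Function.Surjective π}
    {γ γ' : Place k F₁ × Place k F₂ → k} (hγ : IsGamma X hπ D γ)
    (hγ' : IsGamma X hπ (g • D) γ') {s : Place k F₁ × Place k F₂} (hs : s ∈ X.nodes) :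
    γ' (g₁ • s.1, g₂ • s.2) = SemilinearAut.baseAut g₂ (γ s) := by
  obtain ⟨n, w, hw⟩ := hγ.exists_one
  have hv := hγ.val_of_one hw hs
  obtain ⟨h, hh, hr⟩ := hw
  have h1 : ((1 : F₁), g₂ • w) ∈ redL X hπ (g • D) n := by
    refine ⟨g • h, ?_, ?_⟩
    · have := smul_mem_riemannRochSpace g hh
      rwa [smul_sub, smul_comm g n (polesOf (K := K) X.x), C.poles] at this
    · have := C.red hr
      rwa [smul_one] at this
  exact (hγ'.val_of_one h1 (C.nodes s hs)).unique (val_smul g₂ hv)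

end Compat

section Inertia

variable {X : NodalDatum K F k F₁ F₂ A π} {m : ℕ}

/-- For an "inertial" automorphism `g`, `(g - 1) D` is in the toric part. -/
theorem IsCompat.inertial_sub {g : SemilinearAut K F} (hπ : Function.Surjective π)
    (C : IsCompat X g 1 1) {D : Divisor K F} {f : F} {u : F₁ × F₂}
    (H : IsRootDiv X m D f u) : IsRootDiv X m (g • D - D) (g • f * f⁻¹) (1, 1) := by
  have h1 := (C.isRootDiv H).sub hπ H
  simp only [one_smul] at h1
  rwa [div_self H.ne₁, div_self H.ne₂] at h1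

/-- Inertial automorphisms act trivially on the toric part. -/
theorem IsCompat.inertial_torus {g : SemilinearAut K F} (hπ : Function.Surjective π)
    (hmk : (m : k) ≠ 0) (C : IsCompat X g 1 1) {D : Divisor K F} {f : F}
    (H : IsRootDiv X m D f (1, 1)) : Divisor.IsPrincipal (g • D - D) := by
  have H' := C.isRootDiv H
  simp only [smul_one] at H'
  obtain ⟨γ, -, hγ⟩ := H.exists_gamma hπ
  obtain ⟨γ', -, hγ'⟩ := H'.exists_gamma hπ
  refine isPrincipal_sub_of_gamma hπ hmk H' H hγ' hγ (c := 1) (one_pow m) fun s hs => ?_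
  have := C.gamma hγ hγ' hs
  simpa using this

/-- **Unipotence of inertia** on the `m`-torsion of `Pic⁰`, `m` prime to the residue
characteristic. -/
theorem IsCompat.inertia_unipotent {g : SemilinearAut K F} (hπ : Function.Surjective π)
    (hmk : (m : k) ≠ 0) (C : IsCompat X g 1 1) {x : Pic0 K F} (hx : m • x = 0) :
    g • (g • x - x) = g • x - x := by
  have hm : 0 < m := by
    rcases Nat.eq_zero_or_pos m with h | h
    · subst h
      simp at hmk
    · exact h
  obtain ⟨D₀, rfl⟩ := Pic0.mk_surjective x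
  have hprin : Divisor.IsPrincipal (m • (D₀ : Divisor K F)) := by
    have h1 : Pic0.mk (m • D₀) = 0 := by rw [← hx]; rfl
    have h2 := (QuotientAddGroup.eq_zero_iff _).mp h1
    exact h2
  obtain ⟨f₀, hf₀, hdiv⟩ := hprin
  obtain ⟨v, hv0, f, u, H⟩ := exists_isRootDiv X hm hf₀ (D := (D₀ : Divisor K F)) (fun P => by
    rw [← hdiv, Finsupp.smul_apply, nsmul_eq_mul])
  set D : Divisor K F := (D₀ : Divisor K F) + divOf v with hD
  have h1 := C.inertial_torus hπ hmk (C.inertial_sub hπ H)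
  -- translate back to classes
  rw [← sub_eq_zero]
  have h2 : g • (g • Pic0.mk D₀ - Pic0.mk D₀) - (g • Pic0.mk D₀ - Pic0.mk D₀) =
      Pic0.mk (SemilinearAut.degZeroSMulHom g (SemilinearAut.degZeroSMulHom g D₀ - D₀) -
        (SemilinearAut.degZeroSMulHom g D₀ - D₀)) := rfl
  rw [h2]
  refine (QuotientAddGroup.eq_zero_iff _).mpr ?_
  show Divisor.IsPrincipal (g • (g • (D₀ : Divisor K F) - (D₀ : Divisor K F)) -
    (g • (D₀ : Divisor K F) - (D₀ : Divisor K F)))
  have hprinv : ∀ g' : SemilinearAut K F, g' • divOf (K := K) v ∈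
      Divisor.principal (K := K) (F := F) := fun g' =>
    SemilinearAut.smul_mem_principal g' ⟨v, hv0, fun P => divOf_apply v P⟩
  have h3 : g • (g • (D₀ : Divisor K F) - (D₀ : Divisor K F)) -
      (g • (D₀ : Divisor K F) - (D₀ : Divisor K F)) =
      (g • (g • D - D) - (g • D - D)) -
        (g • (g • divOf v - divOf v) - (g • divOf v - divOf v)) := by
    rw [hD]
    simp only [smul_add, smul_sub]
    abel
  rw [h3]
  refine (Divisor.principal (K := K) (F := F)).sub_mem h1 ?_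
  refine (Divisor.principal (K := K) (F := F)).sub_mem ?_ ?_
  · rw [smul_sub, smul_smul]
    exact (Divisor.principal (K := K) (F := F)).sub_mem (hprinv _) (hprinv _)
  · refine (Divisor.principal (K := K) (F := F)).sub_mem (hprinv _) ?_
    have := hprinv 1
    rwa [one_smul] at this

end Inertia

end Fermat.Agent.DR
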