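import Fermat.Agent.DR.Nodal.Spec

set_option autoImplicit false
set_option linter.unusedSectionVars false

/-!
# Semilinear automorphisms exchanging the two components

For the modular nodal datum the automorphism `φ ∘ w_q` exchanges the two components and fixes all
nodes; it acts on the toric part as `-q`.
-/

noncomputable section

open AlgebraicCurve Fermat.Agent.RR Fermat.Agent.JRED WithZero

namespace Fermat.Agent.DR

variable {K F k E : Type*} [Field K] [Field F] [Algebra K F] [Field k] [Field E]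
  [Algebra k E] [IsAlgClosed K] [IsAlgClosed k] [FunctionField K F]
  [FunctionField k E] {A : ValuationSubring K} {π : A →+* k}

/-- A semilinear automorphism `g` of `F` exchanging the two components (with residual maps
`g₁, g₂`). -/
structure IsSwap (X : NodalDatum K F k E E A π) (g : SemilinearAut K F)
    (g₁ g₂ : SemilinearAut k E) : Prop where
  red₁ : ∀ (w : F) (u : E), X.R₁.Red w u → X.R₂.Red (g • w) (g₁ • u)
  red₂ : ∀ (w : F) (u : E), X.R₂.Red w u → X.R₁.Red (g • w) (g₂ • u)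
  base : SemilinearAut.baseAut g₁ = SemilinearAut.baseAut g₂
  poles : ∃ c : ℕ, ∀ P, (g • polesOf (K := K) X.x) P ≤ (c • polesOf (K := K) X.x) P
  nodes : ∀ s ∈ X.nodes, (g₂ • s.2, g₁ • s.1) ∈ X.nodes

variable {X : NodalDatum K F k E E A π} {m : ℕ} {D : Divisor K F} {f : F} {u : E × E}
  {g : SemilinearAut K F} {g₁ g₂ : SemilinearAut k E}

theorem IsSwap.red (C : IsSwap X g g₁ g₂) {w : F} {u : E × E}
    (h : Red₂ X.R₁ X.R₂ w u) : Red₂ X.R₁ X.R₂ (g • w) (g₂ • u.2, g₁ • u.1) :=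
  ⟨C.red₂ _ _ h.2, C.red₁ _ _ h.1⟩

theorem IsSwap.isRootDiv (C : IsSwap X g g₁ g₂) (H : IsRootDiv X m D f u) :
    IsRootDiv X m (g • D) (g • f) (g₂ • u.2, g₁ • u.1) where
  pos := H.pos
  ne_zero := by
    have := H.ne_zero
    rw [SemilinearAut.smul_def]
    exact (map_ne_zero_iff _ (SemilinearAut.toRingAut g).injective).mpr this
  div_eq := smul_div_eq g H.div_eq
  red := C.red H.red
  ne₁ := by
    have := H.ne₂
    rw [SemilinearAut.smul_def]
    exact (map_ne_zero_iff _ (SemilinearAut.toRingAut g₂).injective).mpr this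
  ne₂ := by
    have := H.ne₁
    rw [SemilinearAut.smul_def]
    exact (map_ne_zero_iff _ (SemilinearAut.toRingAut g₁).injective).mpr this

theorem IsSwap.spec (C : IsSwap X g g₁ g₂) {x : Pic0 K F} {y₁ y₂ : Pic0 k E}
    (h : Spec X m x y₁ y₂) : Spec X m (g • x) (g₂ • y₂) (g₁ • y₁) := by
  obtain ⟨D, f, u, D₁, D₂, rfl, rfl, rfl, H, h1, h2⟩ := h
  exact ⟨SemilinearAut.degZeroSMulHom g D, g • f, (g₂ • u.2, g₁ • u.1),
    SemilinearAut.degZeroSMulHom g₂ D₂, SemilinearAut.degZeroSMulHom g₁ D₁, rfl, rfl, rfl,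
    C.isRootDiv H, smul_div_eq g₂ h2, smul_div_eq g₁ h1⟩

theorem IsSwap.inTorus (C : IsSwap X g g₁ g₂) {x : Pic0 K F}
    (h : InTorus X m x) : InTorus X m (g • x) := by
  rw [inTorus_iff] at *
  have := C.spec h
  rwa [smul_zero (A := Pic0 k E) g₁, smul_zero (A := Pic0 k E) g₂] at this

/-- The gluing function under a swap. -/
theorem IsSwap.gamma (C : IsSwap X g g₁ g₂) {hπ : Function.Surjective π}
    {γ γ' : Place k E × Place k E → k} (hγ : IsGamma X hπ D γ)
    (hγ' : IsGamma X hπ (g • D) γ') {s : Place k E × Place k E} (hs : s ∈ X.nodes) :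
    γ' (g₂ • s.2, g₁ • s.1) * SemilinearAut.baseAut g₂ (γ s) = 1 := by
  obtain ⟨n, w, hw⟩ := hγ.exists_one
  have hv := hγ.val_of_one hw hs
  obtain ⟨h, hh, hr⟩ := hw
  obtain ⟨c, hc⟩ := C.poles
  obtain ⟨N, hN⟩ := hγ'.eq_glued
  have h1 : (g₂ • w, (1 : E)) ∈ redL X hπ (g • D) (n * c) := by
    refine ⟨g • h, ?_, ?_⟩
    · have h2 := smul_mem_riemannRochSpace g hh
      rw [smul_sub, smul_comm g n (polesOf (K := K) X.x)] at h2
      refine riemannRochSpace_mono ?_ h2
      apply sub_le_sub_right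
      intro P
      rw [Finsupp.smul_apply, mul_nsmul', Finsupp.smul_apply, nsmul_eq_mul, nsmul_eq_mul]
      exact mul_le_mul_of_nonneg_left (hc P) (by positivity)
    · have := C.red hr
      rwa [smul_one] at this
  have h3 := redL_mono hπ (g • D) (le_max_left (n * c) N) h1
  obtain ⟨a, ha, hb⟩ := ((hN _ (le_max_right _ _) _).mp h3).node _ (C.nodes s hs)
  have ha' : a = SemilinearAut.baseAut g₂ (γ s) := ha.unique (val_smul g₂ hv)
  have hb' : γ' (g₂ • s.2, g₁ • s.1) * a = 1 := hb.unique Val.one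
  rw [← ha', hb']

/-- A swap fixing the nodes and acting as `c ↦ c ^ N` on constants acts as `-N` on the toric
part. -/
theorem IsSwap.smul_torus (hπ : Function.Surjective π) (hmk : (m : k) ≠ 0)
    (C : IsSwap X g g₁ g₂)
    (hfix₁ : ∀ s ∈ X.nodes, g₂ • s.2 = s.1) (hfix₂ : ∀ s ∈ X.nodes, g₁ • s.1 = s.2) {N : ℕ}
    (hN : ∀ c : k, SemilinearAut.baseAut g₂ c = c ^ N) {x : Pic0 K F} (h : InTorus X m x) :
    g • x = -(N • x) := by
  obtain ⟨D, f, rfl, H⟩ := h
  have H' := C.isRootDiv H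
  simp only [smul_one] at H'
  have HN := H.nsmul N
  have h1 : ((1, 1) : E × E) ^ N = (1, 1) := by simp
  rw [h1] at HN
  obtain ⟨γ, -, hγ⟩ := H.exists_gamma hπ
  obtain ⟨γ', -, hγ'⟩ := H'.exists_gamma hπ
  obtain ⟨γN, -, hγN⟩ := HN.exists_gamma hπ
  have HS := H'.mul HN
  have h2 : ((1, 1) : E × E) * (1, 1) = (1, 1) := by simp
  rw [h2] at HS
  obtain ⟨γS, -, hγS⟩ := HS.exists_gamma hπ
  have hone : ∀ s ∈ X.nodes, γS s = 1 := by
    intro s hs
    have e1 := C.gamma hγ hγ' hs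
    rw [hfix₁ s hs, hfix₂ s hs, hN] at e1
    rw [hγ'.mul hγN hγS hs, H.gamma_nsmul hγ N γN hγN s hs]
    exact e1
  have h3 := HS.isPrincipal_of_gamma_one hπ hmk (hγS.congr hone)
  have h4 : g • Pic0.mk D = Pic0.mk (SemilinearAut.degZeroSMulHom g D) := rfl
  have h5 : N • Pic0.mk D = Pic0.mk (N • D) := rfl
  have h6 : Pic0.mk (SemilinearAut.degZeroSMulHom g D) + Pic0.mk (N • D) =
    Pic0.mk (SemilinearAut.degZeroSMulHom g D + N • D) := rfl
  rw [eq_neg_iff_add_eq_zero, h4, h5, h6, pic0_mk_eq_zero_iff]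
  exact h3

/-- A root divisor whose reductions have orders divisible by `m` everywhere specialises. -/
theorem IsRootDiv.exists_spec {F₁ F₂ : Type*} [Field F₁] [Field F₂] [Algebra k F₁] [Algebra k F₂]
    [FunctionField k F₁] [FunctionField k F₂] {X : NodalDatum K F k F₁ F₂ A π}
    {D : Divisor.degZero (K := K) (F := F)} {u : F₁ × F₂}
    (H : IsRootDiv X m (D : Divisor K F) f u) (h1 : ∀ P : Place k F₁, (m : ℤ) ∣ P.ord u.1)
    (h2 : ∀ P : Place k F₂, (m : ℤ) ∣ P.ord u.2) :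
    ∃ y₁ y₂, Spec X m (Pic0.mk D) y₁ y₂ := by
  obtain ⟨D₁, hD₁⟩ := exists_div_eq H.pos h1
  obtain ⟨D₂, hD₂⟩ := exists_div_eq H.pos h2
  exact ⟨_, _, D, f, u, D₁, D₂, rfl, rfl, rfl, H, hD₁, hD₂⟩

/-- If a normalised representative of `x` has first reduction of order divisible by `m` at the
nodes, `x` specialises. -/
theorem IsRootDiv.exists_spec_of_nodes {F₁ F₂ : Type*} [Field F₁] [Field F₂] [Algebra k F₁]
    [Algebra k F₂] [FunctionField k F₁] [FunctionField k F₂] {X : NodalDatum K F k F₁ F₂ A π}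
    (hπ : Function.Surjective π) {D : Divisor.degZero (K := K) (F := F)} {u : F₁ × F₂}
    (H : IsRootDiv X m (D : Divisor K F) f u)
    (h1 : ∀ s ∈ X.nodes, (m : ℤ) ∣ s.1.ord u.1) :
    ∃ y₁ y₂, Spec X m (Pic0.mk D) y₁ y₂ := by
  classical
  obtain ⟨p1, p2, p3⟩ := H.parity hπ
  refine H.exists_spec (fun P => ?_) (fun P => ?_)
  · by_cases hP : ∃ s ∈ X.nodes, s.1 = P
    · obtain ⟨s, hs, rfl⟩ := hP
      exact h1 s hs
    · push Not at hP
      exact p1 P hP
  · by_cases hP : ∃ s ∈ X.nodes, s.2 = P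
    · obtain ⟨s, hs, rfl⟩ := hP
      exact (p3 s hs).mp (h1 s hs)
    · push Not at hP
      exact p2 P hP

end Fermat.Agent.DR
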