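import Fermat.Agent.RR.Corollaries
import Fermat.Agent.JRED.RedDatum

set_option autoImplicit false

/-!
# Two-component semistable reduction data

`K ⊇ A → k` a valuation ring with residue map, `F / K` a function field with TWO reduction data
`R₁ : F ⇝ F₁`, `R₂ : F ⇝ F₂` (Gauss valuations) above `A`, and a finite set of nodes (pairs of
places of `F₁`, `F₂`) along which reductions of functions with poles only at the poles of `x` are
glued.
-/

noncomputable section

open AlgebraicCurve Fermat.Agent.RR Fermat.Agent.JRED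

namespace Fermat.Agent.DR

section Defs

variable {K F k F₁ F₂ : Type*} [Field K] [Field F] [Algebra K F] [Field k] [Field F₁] [Field F₂]
  [Algebra k F₁] [Algebra k F₂] {A : ValuationSubring K} {π : A →+* k}

/-- `u` takes the value `c` at the place `P` -/
def Val (P : Place k F₁) (u : F₁) (c : k) : Prop := P.adicValuation (u - algebraMap k F₁ c) < 1

/-- simultaneous reduction -/
def Red₂ (R₁ : RedDatum K F k F₁ A π) (R₂ : RedDatum K F k F₂ A π) (w : F) (u : F₁ × F₂) : Prop :=
  R₁.Red w u.1 ∧ R₂.Red w u.2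

/-- `W` has a basis which reduces to a `k`-linearly independent family of `F₁ × F₂`. -/
def HasOrthoPair (R₁ : RedDatum K F k F₁ A π) (R₂ : RedDatum K F k F₂ A π)
    (W : Submodule K F) : Prop :=
  ∃ (n : ℕ) (b : Fin n → F) (u : Fin n → F₁ × F₂),
    (∀ i, Red₂ R₁ R₂ (b i) (u i)) ∧ LinearIndependent k u ∧ Submodule.span K (Set.range b) = W

end Defs

variable (K F k F₁ F₂ : Type*) [Field K] [Field F] [Algebra K F] [Field k] [Field F₁] [Field F₂]
  [Algebra k F₁] [Algebra k F₂]

/-- A two component nodal reduction of the function field `F / K`. -/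
structure NodalDatum [HasPrincipalDivisors K F] [HasPrincipalDivisors k F₁]
    [HasPrincipalDivisors k F₂] (A : ValuationSubring K) (π : A →+* k) where
  R₁ : RedDatum K F k F₁ A π
  R₂ : RedDatum K F k F₂ A π
  /-- orthonormal bases for the pair `(R₁, R₂)` (A0) -/
  ortho : ∀ W : Submodule K F, Module.Finite K W → HasOrthoPair R₁ R₂ W
  /-- weak approximation (A0) -/
  approx : ∀ u : F₁ × F₂, ∃ w : F, Red₂ R₁ R₂ w u
  /-- arbitrary relative normalisation (A0) -/
  shift : ∀ d : K, d ≠ 0 → ∃ w : F, R₁.Red w 1 ∧ R₂.Red (algebraMap K F d * w) 1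
  x : F
  x₁ : F₁
  x₂ : F₂
  red₁ : R₁.Red x x₁
  red₂ : R₂.Red x x₂
  transcendental₁ : Transcendental k x₁
  transcendental₂ : Transcendental k x₂
  /-- `deg (x)_∞ = deg (x₁)_∞ + deg (x₂)_∞` -/
  degree_eq : Divisor.degree (polesOf (K := K) x) =
    Divisor.degree (polesOf (K := k) x₁) + Divisor.degree (polesOf (K := k) x₂)
  /-- the nodes -/
  nodes : Finset (Place k F₁ × Place k F₂)
  nodes_nonempty : nodes.Nonempty
  injOn_fst : Set.InjOn Prod.fst (nodes : Set (Place k F₁ × Place k F₂))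
  injOn_snd : Set.InjOn Prod.snd (nodes : Set (Place k F₁ × Place k F₂))
  ord_x₁ : ∀ s ∈ nodes, s.1.ord x₁ = 0
  ord_x₂ : ∀ s ∈ nodes, s.2.ord x₂ = 0
  /-- pole bounds (A1) -/
  mem₁ : ∀ (n : ℕ) (h : F) (u : F₁ × F₂), h ∈ riemannRochSpace (n • polesOf (K := K) x) →
    Red₂ R₁ R₂ h u → u.1 ∈ riemannRochSpace (n • polesOf (K := k) x₁)
  mem₂ : ∀ (n : ℕ) (h : F) (u : F₁ × F₂), h ∈ riemannRochSpace (n • polesOf (K := K) x) →
    Red₂ R₁ R₂ h u → u.2 ∈ riemannRochSpace (n • polesOf (K := k) x₂)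
  /-- gluing at the nodes -/
  glue : ∀ (n : ℕ) (h : F) (u : F₁ × F₂), h ∈ riemannRochSpace (n • polesOf (K := K) x) →
    Red₂ R₁ R₂ h u → ∀ s ∈ nodes, ∃ c : k, Val s.1 u.1 c ∧ Val s.2 u.2 c
  /-- enough nodes (A2) -/
  genus_le : genusFF K F + 1 ≤ genusFF k F₁ + genusFF k F₂ + nodes.card

end Fermat.Agent.DR
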