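import Fermat.Agent.DR.Nodal.Galois

set_option autoImplicit false
set_option linter.unusedSectionVars false

/-!
# Specialisation of torsion classes to the two components

`Spec X m x y₁ y₂`: the `m`-torsion class `x` has a normalised representative whose reductions have
divisors `m D₁`, `m D₂` with classes `y₁`, `y₂`.
-/

noncomputable section

open AlgebraicCurve Fermat.Agent.RR Fermat.Agent.JRED WithZero

namespace Fermat.Agent.DR

variable {K F k F₁ F₂ : Type*} [Field K] [Field F] [Algebra K F] [Field k] [Field F₁] [Field F₂]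
  [Algebra k F₁] [Algebra k F₂] [IsAlgClosed K] [IsAlgClosed k] [FunctionField K F]
  [FunctionField k F₁] [FunctionField k F₂] {A : ValuationSubring K} {π : A →+* k}

section General

theorem pic0_mk_eq_zero_iff {K F : Type*} [Field K] [Field F] [Algebra K F]
    {D : Divisor.degZero (K := K) (F := F)} :
    Pic0.mk D = 0 ↔ Divisor.IsPrincipal (D : Divisor K F) :=
  QuotientAddGroup.eq_zero_iff _

theorem pic0_mk_eq_iff {K F : Type*} [Field K] [Field F] [Algebra K F]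
    {D D' : Divisor.degZero (K := K) (F := F)} :
    Pic0.mk D = Pic0.mk D' ↔ Divisor.IsPrincipal ((D : Divisor K F) - (D' : Divisor K F)) := by
  rw [← sub_eq_zero]
  have : Pic0.mk D - Pic0.mk D' = Pic0.mk (D - D') := rfl
  rw [this, pic0_mk_eq_zero_iff]
  rfl

theorem isPrincipal_divOf {K F : Type*} [Field K] [Field F] [Algebra K F]
    [HasPrincipalDivisors K F] {v : F} (hv : v ≠ 0) :
    Divisor.IsPrincipal (divOf (K := K) v) := ⟨v, hv, fun P => divOf_apply v P⟩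

/-- If `m ∣ ord_P u` for all `P` then `div u = m D` for a degree zero divisor `D`. -/
theorem exists_div_eq {k E : Type*} [Field k] [Field E] [Algebra k E] [HasPrincipalDivisors k E]
    {m : ℕ} (hm : 0 < m) {u : E} (h : ∀ P : Place k E, (m : ℤ) ∣ P.ord u) :
    ∃ D : Divisor.degZero (K := k) (F := E), ∀ P, (m : ℤ) * (D : Divisor k E) P = P.ord u := by
  let D₀ : Divisor k E := Finsupp.mapRange (fun a : ℤ => a / m) (by simp) (divOf u)
  have h1 : ∀ P, (m : ℤ) * D₀ P = P.ord u := by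
    intro P
    simp only [D₀, Finsupp.mapRange_apply, divOf_apply]
    exact Int.mul_ediv_cancel' (h P)
  have h2 : m • D₀ = divOf u := by
    ext P
    rw [Finsupp.smul_apply, nsmul_eq_mul, h1, divOf_apply]
  have h3 : Divisor.degree D₀ = 0 := by
    have h4 : (m : ℤ) * Divisor.degree D₀ = 0 := by
      rw [← nsmul_eq_mul, ← map_nsmul, h2, degree_divOf]
    rcases mul_eq_zero.mp h4 with h | h
    · omega
    · exact h
  exact ⟨⟨D₀, Divisor.mem_degZero.mpr h3⟩, h1⟩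

theorem eq_const_mul_pow {k E : Type*} [Field k] [Field E] [Algebra k E] [IsAlgClosed k]
    [FunctionField k E] {m : ℕ} (hm : 0 < m) {u w : E} (hu : u ≠ 0) (hw : w ≠ 0)
    (h : ∀ P : Place k E, P.ord u = m * P.ord w) : ∃ w' : E, w' ≠ 0 ∧ u = w' ^ m := by
  have h1 : divOf (K := k) u = divOf (w ^ m) := by
    ext P
    rw [divOf_apply, divOf_apply, ord_pow, h]
  obtain ⟨c, hc, hcu⟩ := (divOf_eq_iff hu (pow_ne_zero m hw)).mp h1
  obtain ⟨d, hd⟩ := IsAlgClosed.exists_pow_nat_eq c hm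
  refine ⟨d • w, ?_, ?_⟩
  · have hd0 : d ≠ 0 := by
      rintro rfl
      rw [zero_pow hm.ne'] at hd
      exact hc hd.symm
    exact smul_ne_zero hd0 hw
  · rw [hcu, smul_pow, hd]

end General

variable (X : NodalDatum K F k F₁ F₂ A π)

/-- The torsion class `x` specialises to `(y₁, y₂)`. -/
def Spec (m : ℕ) (x : Pic0 K F) (y₁ : Pic0 k F₁) (y₂ : Pic0 k F₂) : Prop :=
  ∃ (D : Divisor.degZero (K := K) (F := F)) (f : F) (u : F₁ × F₂)
    (D₁ : Divisor.degZero (K := k) (F := F₁)) (D₂ : Divisor.degZero (K := k) (F := F₂)),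
    Pic0.mk D = x ∧ Pic0.mk D₁ = y₁ ∧ Pic0.mk D₂ = y₂ ∧
      IsRootDiv X m (D : Divisor K F) f u ∧
      (∀ P, (m : ℤ) * (D₁ : Divisor k F₁) P = P.ord u.1) ∧
      (∀ P, (m : ℤ) * (D₂ : Divisor k F₂) P = P.ord u.2)

/-- The class `x` lies in the toric part. -/
def InTorus (m : ℕ) (x : Pic0 K F) : Prop :=
  ∃ (D : Divisor.degZero (K := K) (F := F)) (f : F), Pic0.mk D = x ∧
    IsRootDiv X m (D : Divisor K F) f (1, 1)

variable {X} {m : ℕ} {x x' : Pic0 K F} {y₁ y₁' : Pic0 k F₁} {y₂ y₂' : Pic0 k F₂}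

theorem Spec.add (h : Spec X m x y₁ y₂) (h' : Spec X m x' y₁' y₂') :
    Spec X m (x + x') (y₁ + y₁') (y₂ + y₂') := by
  obtain ⟨D, f, u, D₁, D₂, rfl, rfl, rfl, H, h1, h2⟩ := h
  obtain ⟨D', f', u', D₁', D₂', rfl, rfl, rfl, H', h1', h2'⟩ := h'
  refine ⟨D + D', f * f', u * u', D₁ + D₁', D₂ + D₂', rfl, rfl, rfl, H.mul H', ?_, ?_⟩
  · intro P
    show (m : ℤ) * ((D₁ : Divisor k F₁) P + (D₁' : Divisor k F₁) P) = _
    rw [mul_add, h1, h1', Prod.fst_mul, P.ord_mul H.ne₁ H'.ne₁]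
  · intro P
    show (m : ℤ) * ((D₂ : Divisor k F₂) P + (D₂' : Divisor k F₂) P) = _
    rw [mul_add, h2, h2', Prod.snd_mul, P.ord_mul H.ne₂ H'.ne₂]

theorem Spec.neg (hπ : Function.Surjective π) (h : Spec X m x y₁ y₂) :
    Spec X m (-x) (-y₁) (-y₂) := by
  obtain ⟨D, f, u, D₁, D₂, rfl, rfl, rfl, H, h1, h2⟩ := h
  refine ⟨-D, f⁻¹, (u.1⁻¹, u.2⁻¹), -D₁, -D₂, rfl, rfl, rfl, H.inv hπ, ?_, ?_⟩
  · intro P
    show (m : ℤ) * (-(D₁ : Divisor k F₁) P) = _
    rw [mul_neg, h1, P.ord_inv]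
  · intro P
    show (m : ℤ) * (-(D₂ : Divisor k F₂) P) = _
    rw [mul_neg, h2, P.ord_inv]

theorem Spec.sub (hπ : Function.Surjective π) (h : Spec X m x y₁ y₂)
    (h' : Spec X m x' y₁' y₂') : Spec X m (x - x') (y₁ - y₁') (y₂ - y₂') := by
  rw [sub_eq_add_neg, sub_eq_add_neg, sub_eq_add_neg]
  exact h.add (h'.neg hπ)

theorem Spec.zero (hm : 0 < m) : Spec X m 0 0 0 := by
  refine ⟨0, 1, 1, 0, 0, rfl, rfl, rfl, ⟨hm, one_ne_zero, fun P => ?_, Red₂.one, one_ne_zero,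
    one_ne_zero⟩, fun P => ?_, fun P => ?_⟩ <;> simp

theorem Spec.nsmul (hm : 0 < m) (h : Spec X m x y₁ y₂) (n : ℕ) :
    Spec X m (n • x) (n • y₁) (n • y₂) := by
  induction n with
  | zero => rw [zero_nsmul, zero_nsmul, zero_nsmul]; exact Spec.zero hm
  | succ n ih => rw [succ_nsmul, succ_nsmul, succ_nsmul]; exact ih.add h

theorem isPrincipal_of_red {k₀ E : Type*} [Field k₀] [Field E] [Algebra k₀ E] {π₀ : A →+* k₀}
    {R : RedDatum K F k₀ E A π₀} (hπ : Function.Surjective π₀) {m : ℕ} (hm : 0 < m)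
    {f v : F} {u : E} (hf : R.Red f u) (hu : u ≠ 0) (hv : v ≠ 0)
    (h : ∀ P : Place K F, P.ord f = m * P.ord v) {D : Divisor k₀ E}
    (hD : ∀ P, (m : ℤ) * D P = P.ord u) : Divisor.IsPrincipal D := by
  have hf0 : f ≠ 0 := RedDatum.ne_zero_of_red hf hu
  have h1 : divOf (K := K) f = divOf (v ^ m) := by
    ext P
    rw [divOf_apply, divOf_apply, ord_pow, h]
  obtain ⟨c, hc, hcf⟩ := (divOf_eq_iff hf0 (pow_ne_zero m hv)).mp h1
  obtain ⟨c₁, hc₁, w, hw, hcv⟩ := R.normalize v hv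
  have h2 := RedDatum.div hπ hf (RedDatum.pow hcv m) (pow_ne_zero m hw)
  have hc₁' : algebraMap K F c₁ ≠ 0 := by simpa using hc₁
  have h3 : f / (algebraMap K F c₁ * v) ^ m = algebraMap K F (c / c₁ ^ m) := by
    rw [hcf, Algebra.smul_def, mul_pow, map_div₀, map_pow]
    field_simp
  rw [h3] at h2
  have hA := RedDatum.mem_of_red_const hπ h2
  have h4 := R.unique (R.const ⟨_, hA⟩) h2
  have h5 : u = algebraMap k₀ E (π₀ ⟨_, hA⟩) * w ^ m := by
    rw [h4, div_mul_cancel₀ _ (pow_ne_zero m hw)]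
  have hne : algebraMap k₀ E (π₀ ⟨_, hA⟩) ≠ 0 := by
    intro h0
    rw [h0, zero_mul] at h5
    exact hu h5
  refine ⟨w, hw, fun P => ?_⟩
  have h6 : P.ord u = m * P.ord w := by
    rw [h5, P.ord_mul hne (pow_ne_zero m hw), ord_algebraMap, ord_pow, zero_add]
  have h7 := hD P
  rw [h6] at h7
  have hm' : (m : ℤ) ≠ 0 := by exact_mod_cast hm.ne'
  exact mul_left_cancel₀ hm' h7

theorem Spec.eq_zero (hπ : Function.Surjective π) (h : Spec X m 0 y₁ y₂) :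
    y₁ = 0 ∧ y₂ = 0 := by
  obtain ⟨D, f, u, D₁, D₂, hD, rfl, rfl, H, h1, h2⟩ := h
  obtain ⟨v, hv, hdiv⟩ := pic0_mk_eq_zero_iff.mp hD
  have h3 : ∀ P : Place K F, P.ord f = m * P.ord v := fun P => by rw [← H.div_eq, hdiv]
  rw [pic0_mk_eq_zero_iff, pic0_mk_eq_zero_iff]
  exact ⟨isPrincipal_of_red hπ H.pos H.red.1 H.ne₁ hv h3 h1,
    isPrincipal_of_red hπ H.pos H.red.2 H.ne₂ hv h3 h2⟩

/-- The specialisation is unique. -/
theorem Spec.unique (hπ : Function.Surjective π) (h : Spec X m x y₁ y₂)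
    (h' : Spec X m x y₁' y₂') : y₁ = y₁' ∧ y₂ = y₂' := by
  have h1 := h.sub hπ h'
  rw [sub_self] at h1
  have := h1.eq_zero hπ
  rwa [sub_eq_zero, sub_eq_zero] at this

/-- The kernel of the specialisation is the toric part. -/
theorem Spec.inTorus (h : Spec X m x 0 0) : InTorus X m x := by
  obtain ⟨D, f, u, D₁, D₂, rfl, hD₁, hD₂, H, h1, h2⟩ := h
  obtain ⟨w₁, hw₁, hdiv₁⟩ := pic0_mk_eq_zero_iff.mp hD₁
  obtain ⟨w₂, hw₂, hdiv₂⟩ := pic0_mk_eq_zero_iff.mp hD₂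
  obtain ⟨w₁', hw₁', hu₁⟩ := eq_const_mul_pow H.pos H.ne₁ hw₁ (fun P => by rw [← h1, hdiv₁])
  obtain ⟨w₂', hw₂', hu₂⟩ := eq_const_mul_pow H.pos H.ne₂ hw₂ (fun P => by rw [← h2, hdiv₂])
  obtain ⟨v, hv⟩ := X.approx (w₁'⁻¹, w₂'⁻¹)
  have hv0 : v ≠ 0 := RedDatum.ne_zero_of_red hv.1 (inv_ne_zero hw₁')
  have H' := H.mul (IsRootDiv.of_pow (D := divOf v) H.pos hv (inv_ne_zero hw₁')
    (inv_ne_zero hw₂') (fun P => divOf_apply v P))
  have h3 : u * (w₁'⁻¹, w₂'⁻¹) ^ m = (1, 1) := by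
    apply Prod.ext
    · simp only [Prod.fst_mul, Prod.pow_fst, hu₁, inv_pow]
      exact mul_inv_cancel₀ (pow_ne_zero m hw₁')
    · simp only [Prod.snd_mul, Prod.pow_snd, hu₂, inv_pow]
      exact mul_inv_cancel₀ (pow_ne_zero m hw₂')
  rw [h3] at H'
  have hdeg : divOf (K := K) v ∈ Divisor.degZero (K := K) (F := F) :=
    Divisor.mem_degZero.mpr (degree_divOf v)
  refine ⟨D + ⟨divOf v, hdeg⟩, _, ?_, H'⟩
  have h4 : Pic0.mk (D + ⟨divOf v, hdeg⟩) = Pic0.mk D + Pic0.mk ⟨divOf v, hdeg⟩ := rfl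
  have h5 : Pic0.mk (⟨divOf v, hdeg⟩ : Divisor.degZero (K := K) (F := F)) = 0 :=
    pic0_mk_eq_zero_iff.mpr (isPrincipal_divOf hv0)
  rw [h4, h5, add_zero]

theorem InTorus.spec (h : InTorus X m x) : Spec X m x 0 0 := by
  obtain ⟨D, f, rfl, H⟩ := h
  refine ⟨D, f, (1, 1), 0, 0, rfl, rfl, rfl, H, fun P => ?_, fun P => ?_⟩ <;> simp

theorem inTorus_iff : InTorus X m x ↔ Spec X m x 0 0 := ⟨InTorus.spec, Spec.inTorus⟩

theorem InTorus.add (h : InTorus X m x) (h' : InTorus X m x') : InTorus X m (x + x') := by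
  rw [inTorus_iff] at *
  simpa using h.add h'

theorem InTorus.neg (hπ : Function.Surjective π) (h : InTorus X m x) : InTorus X m (-x) := by
  rw [inTorus_iff] at *
  simpa using h.neg hπ

section Action

variable {g : SemilinearAut K F} {g₁ : SemilinearAut k F₁} {g₂ : SemilinearAut k F₂}

theorem Spec.smul (C : IsCompat X g g₁ g₂) (h : Spec X m x y₁ y₂) :
    Spec X m (g • x) (g₁ • y₁) (g₂ • y₂) := by
  obtain ⟨D, f, u, D₁, D₂, rfl, rfl, rfl, H, h1, h2⟩ := h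
  exact ⟨SemilinearAut.degZeroSMulHom g D, g • f, (g₁ • u.1, g₂ • u.2),
    SemilinearAut.degZeroSMulHom g₁ D₁, SemilinearAut.degZeroSMulHom g₂ D₂, rfl, rfl, rfl,
    C.isRootDiv H, smul_div_eq g₁ h1, smul_div_eq g₂ h2⟩

theorem InTorus.smul (C : IsCompat X g g₁ g₂) (h : InTorus X m x) : InTorus X m (g • x) := by
  rw [inTorus_iff] at *
  have := h.smul C
  rwa [smul_zero (A := Pic0 k F₁) g₁, smul_zero (A := Pic0 k F₂) g₂] at this

/-- Every `m`-torsion class has a normalised representative. -/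
theorem exists_rep (X : NodalDatum K F k F₁ F₂ A π) (hm : 0 < m) (hx : m • x = 0) :
    ∃ (D : Divisor.degZero (K := K) (F := F)) (f : F) (u : F₁ × F₂), Pic0.mk D = x ∧
      IsRootDiv X m (D : Divisor K F) f u := by
  obtain ⟨D₀, rfl⟩ := Pic0.mk_surjective x
  have hprin : Divisor.IsPrincipal (m • (D₀ : Divisor K F)) := by
    have h1 : Pic0.mk (m • D₀) = 0 := by rw [← hx]; rfl
    exact pic0_mk_eq_zero_iff.mp h1
  obtain ⟨f₀, hf₀, hdiv⟩ := hprin
  obtain ⟨v, hv0, f, u, H⟩ := exists_isRootDiv X hm hf₀ (D := (D₀ : Divisor K F)) (fun P => by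
    rw [← hdiv, Finsupp.smul_apply, nsmul_eq_mul])
  have hdeg : divOf (K := K) v ∈ Divisor.degZero (K := K) (F := F) :=
    Divisor.mem_degZero.mpr (degree_divOf v)
  refine ⟨D₀ + ⟨divOf v, hdeg⟩, f, u, ?_, H⟩
  have h4 : Pic0.mk (D₀ + ⟨divOf v, hdeg⟩) = Pic0.mk D₀ + Pic0.mk ⟨divOf v, hdeg⟩ := rfl
  have h5 : Pic0.mk (⟨divOf v, hdeg⟩ : Divisor.degZero (K := K) (F := F)) = 0 :=
    pic0_mk_eq_zero_iff.mpr (isPrincipal_divOf hv0)
  rw [h4, h5, add_zero]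

theorem dvd_ord_of_fix {E : Type*} [Field E] [Algebra k E] {S : Set (Place k E)} {u : E}
    (hu : u ≠ 0) (h : SemilinearAut k E) (hfix : ∀ P ∈ S, h • P = P)
    (hdvd : ∀ P ∉ S, (m : ℤ) ∣ P.ord u) (P : Place k E) : (m : ℤ) ∣ P.ord (h • u / u) := by
  have hu' : h • u ≠ 0 := by
    rw [SemilinearAut.smul_def]
    exact (map_ne_zero_iff _ (SemilinearAut.toRingAut h).injective).mpr hu
  rw [ord_div P hu' hu]
  have h1 := SemilinearAut.ord_smul h (h⁻¹ • P) u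
  rw [smul_inv_smul] at h1
  rw [h1]
  by_cases hP : P ∈ S
  · have h2 : h⁻¹ • P = P := by
      conv_lhs => rw [← hfix P hP]
      rw [inv_smul_smul]
    rw [h2, sub_self]
    exact dvd_zero _
  · have hP' : h⁻¹ • P ∉ S := by
      intro h3
      apply hP
      have := hfix _ h3
      rw [smul_inv_smul] at this
      rwa [this]
    exact dvd_sub (hdvd _ hP') (hdvd _ hP)

/-- If `g` fixes all nodes, `(g - 1) x` has a specialisation. -/
theorem IsCompat.exists_spec_sub (hπ : Function.Surjective π) (C : IsCompat X g g₁ g₂)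
    (hfix₁ : ∀ s ∈ X.nodes, g₁ • s.1 = s.1) (hfix₂ : ∀ s ∈ X.nodes, g₂ • s.2 = s.2)
    (hm : 0 < m) (hx : m • x = 0) : ∃ y₁ y₂, Spec X m (g • x - x) y₁ y₂ := by
  obtain ⟨D, f, u, rfl, H⟩ := exists_rep X hm hx
  obtain ⟨p1, p2, -⟩ := H.parity hπ
  have H' := (C.isRootDiv H).sub hπ H
  simp only at H'
  obtain ⟨D₁, hD₁⟩ := exists_div_eq hm (dvd_ord_of_fix (S := {P | ∃ s ∈ X.nodes, s.1 = P})
    H.ne₁ g₁ (by rintro _ ⟨s, hs, rfl⟩; exact hfix₁ s hs)
    (fun P hP => p1 P (fun s hs hsP => hP ⟨s, hs, hsP⟩)))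
  obtain ⟨D₂, hD₂⟩ := exists_div_eq hm (dvd_ord_of_fix (S := {P | ∃ s ∈ X.nodes, s.2 = P})
    H.ne₂ g₂ (by rintro _ ⟨s, hs, rfl⟩; exact hfix₂ s hs)
    (fun P hP => p2 P (fun s hs hsP => hP ⟨s, hs, hsP⟩)))
  exact ⟨_, _, SemilinearAut.degZeroSMulHom g D - D, _, _, D₁, D₂, rfl, rfl, rfl, H', hD₁, hD₂⟩

theorem IsRootDiv.nsmul {D : Divisor K F} {f : F} {u : F₁ × F₂} (H : IsRootDiv X m D f u)
    (n : ℕ) : IsRootDiv X m (n • D) (f ^ n) (u ^ n) where
  pos := H.pos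
  ne_zero := pow_ne_zero _ H.ne_zero
  div_eq := fun P => by
    rw [Finsupp.smul_apply, nsmul_eq_mul, ord_pow, ← H.div_eq]; ring
  red := H.red.pow n
  ne₁ := pow_ne_zero _ H.ne₁
  ne₂ := pow_ne_zero _ H.ne₂

theorem IsRootDiv.gamma_nsmul {hπ : Function.Surjective π} {D : Divisor K F} {f : F}
    (H : IsRootDiv X m D f (1, 1)) {γ : Place k F₁ × Place k F₂ → k} (hγ : IsGamma X hπ D γ)
    (n : ℕ) : ∀ (γ' : Place k F₁ × Place k F₂ → k), IsGamma X hπ (n • D) γ' →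
      ∀ s ∈ X.nodes, γ' s = γ s ^ n := by
  induction n with
  | zero =>
    intro γ' hγ' s hs
    rw [pow_zero]
    refine hγ'.of_principal (g := 1) (c := 1) ?_ (fun P => by simp) hs
    rw [map_one]
    exact Red₂.one
  | succ n ih =>
    intro γ' hγ' s hs
    have Hn := H.nsmul n
    have h1 : ((1, 1) : F₁ × F₂) ^ n = (1, 1) := by simp
    rw [h1] at Hn
    obtain ⟨γn, -, hγn⟩ := Hn.exists_gamma hπ
    have h2 : (n + 1) • D = n • D + D := succ_nsmul D n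
    rw [h2] at hγ'
    rw [hγn.mul hγ hγ' hs, ih γn hγn s hs, pow_succ]

/-- Frobenius-type automorphisms act as multiplication by `N` on the toric part. -/
theorem IsCompat.smul_torus (hπ : Function.Surjective π) (hmk : (m : k) ≠ 0)
    (C : IsCompat X g g₁ g₂)
    (hfix₁ : ∀ s ∈ X.nodes, g₁ • s.1 = s.1) (hfix₂ : ∀ s ∈ X.nodes, g₂ • s.2 = s.2) {N : ℕ}
    (hN : ∀ c : k, SemilinearAut.baseAut g₂ c = c ^ N) (h : InTorus X m x) :
    g • x = N • x := by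
  obtain ⟨D, f, rfl, H⟩ := h
  have H' := C.isRootDiv H
  simp only [smul_one] at H'
  have HN := H.nsmul N
  have h1 : ((1, 1) : F₁ × F₂) ^ N = (1, 1) := by simp
  rw [h1] at HN
  obtain ⟨γ, -, hγ⟩ := H.exists_gamma hπ
  obtain ⟨γ', -, hγ'⟩ := H'.exists_gamma hπ
  obtain ⟨γN, -, hγN⟩ := HN.exists_gamma hπ
  have h2 := isPrincipal_sub_of_gamma hπ hmk H' HN hγ' hγN (c := 1) (one_pow m) (fun s hs => by
    rw [one_mul, H.gamma_nsmul hγ N γN hγN s hs, ← hN, ← C.gamma hγ hγ' hs, hfix₁ s hs,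
      hfix₂ s hs])
  have h3 : g • Pic0.mk D = Pic0.mk (SemilinearAut.degZeroSMulHom g D) := rfl
  have h4 : N • Pic0.mk D = Pic0.mk (N • D) := rfl
  rw [h3, h4, pic0_mk_eq_iff]
  exact h2

/-- Abstract form of the structure used for `S35`. -/
theorem IsCompat.frob_sq (hπ : Function.Surjective π) (hmk : (m : k) ≠ 0)
    (C : IsCompat X g g₁ g₂)
    (hfix₁ : ∀ s ∈ X.nodes, g₁ • s.1 = s.1) (hfix₂ : ∀ s ∈ X.nodes, g₂ • s.2 = s.2) {N : ℕ}
    (hN : ∀ c : k, SemilinearAut.baseAut g₂ c = c ^ N) (hm : 0 < m)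
    (T : Pic0 K F →+ Pic0 K F)
    (hT : ∀ (x : Pic0 K F) (y₁ : Pic0 k F₁) (y₂ : Pic0 k F₂), Spec X m x y₁ y₂ →
      Spec X m (T x) 0 0) (hx : m • x = 0) :
    g • T (g • x - x) = N • T (g • x - x) := by
  obtain ⟨y₁, y₂, h⟩ := C.exists_spec_sub hπ hfix₁ hfix₂ hm hx
  exact C.smul_torus hπ hmk hfix₁ hfix₂ hN (hT _ _ _ h).inTorus

end Action

end Fermat.Agent.DR
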