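import Fermat.Agent.DR.Nodal.Datum

set_option autoImplicit false

/-!
# Basic lemmas for pairs of reduction data and values at places
-/

noncomputable section

open AlgebraicCurve Fermat.Agent.RR Fermat.Agent.JRED WithZero

namespace Fermat.Agent.DR

section Pair

variable {K F k F₁ F₂ : Type*} [Field K] [Field F] [Algebra K F] [Field k] [Field F₁] [Field F₂]
  [Algebra k F₁] [Algebra k F₂] {A : ValuationSubring K} {π : A →+* k}
  {R₁ : RedDatum K F k F₁ A π} {R₂ : RedDatum K F k F₂ A π}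

namespace Red₂

theorem zero : Red₂ R₁ R₂ 0 0 := ⟨R₁.zero, R₂.zero⟩

theorem one : Red₂ R₁ R₂ 1 1 := ⟨R₁.one, R₂.one⟩

theorem add {w w' : F} {u u' : F₁ × F₂} (h : Red₂ R₁ R₂ w u) (h' : Red₂ R₁ R₂ w' u') :
    Red₂ R₁ R₂ (w + w') (u + u') := ⟨R₁.add h.1 h'.1, R₂.add h.2 h'.2⟩

theorem mul {w w' : F} {u u' : F₁ × F₂} (h : Red₂ R₁ R₂ w u) (h' : Red₂ R₁ R₂ w' u') :
    Red₂ R₁ R₂ (w * w') (u * u') := ⟨R₁.mul h.1 h'.1, R₂.mul h.2 h'.2⟩

theorem neg {w : F} {u : F₁ × F₂} (h : Red₂ R₁ R₂ w u) : Red₂ R₁ R₂ (-w) (-u) :=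
  ⟨RedDatum.neg h.1, RedDatum.neg h.2⟩

theorem sub {w w' : F} {u u' : F₁ × F₂} (h : Red₂ R₁ R₂ w u) (h' : Red₂ R₁ R₂ w' u') :
    Red₂ R₁ R₂ (w - w') (u - u') := ⟨RedDatum.sub h.1 h'.1, RedDatum.sub h.2 h'.2⟩

theorem pow {w : F} {u : F₁ × F₂} (h : Red₂ R₁ R₂ w u) (n : ℕ) : Red₂ R₁ R₂ (w ^ n) (u ^ n) :=
  ⟨RedDatum.pow h.1 n, RedDatum.pow h.2 n⟩

theorem unique {w : F} {u u' : F₁ × F₂} (h : Red₂ R₁ R₂ w u) (h' : Red₂ R₁ R₂ w u') : u = u' :=
  Prod.ext (R₁.unique h.1 h'.1) (R₂.unique h.2 h'.2)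

theorem const (a : A) : Red₂ R₁ R₂ (algebraMap K F a) (algebraMap k (F₁ × F₂) (π a)) :=
  ⟨R₁.const a, R₂.const a⟩

theorem smul {a : K} (ha : a ∈ A) {w : F} {u : F₁ × F₂} (h : Red₂ R₁ R₂ w u) :
    Red₂ R₁ R₂ (a • w) (π ⟨a, ha⟩ • u) := by
  rw [Algebra.smul_def, Algebra.smul_def]
  exact mul (const ⟨a, ha⟩) h

theorem sum {ι : Type*} {s : Finset ι} {w : ι → F} {u : ι → F₁ × F₂}
    (h : ∀ i ∈ s, Red₂ R₁ R₂ (w i) (u i)) : Red₂ R₁ R₂ (∑ i ∈ s, w i) (∑ i ∈ s, u i) := by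
  constructor
  · rw [Prod.fst_sum]
    exact RedDatum.sum fun i hi => (h i hi).1
  · rw [Prod.snd_sum]
    exact RedDatum.sum fun i hi => (h i hi).2

theorem ne_zero {w : F} {u : F₁ × F₂} (h : Red₂ R₁ R₂ w u) (hu : u ≠ 0) : w ≠ 0 := by
  rintro rfl
  exact hu (unique h zero)

theorem inv (hπ : Function.Surjective π) {w : F} {u : F₁ × F₂} (h : Red₂ R₁ R₂ w u)
    (h1 : u.1 ≠ 0) (h2 : u.2 ≠ 0) : Red₂ R₁ R₂ w⁻¹ (u.1⁻¹, u.2⁻¹) :=
  ⟨RedDatum.inv hπ h.1 h1, RedDatum.inv hπ h.2 h2⟩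

theorem div (hπ : Function.Surjective π) {w w' : F} {u u' : F₁ × F₂} (h : Red₂ R₁ R₂ w u)
    (h' : Red₂ R₁ R₂ w' u') (h1 : u'.1 ≠ 0) (h2 : u'.2 ≠ 0) :
    Red₂ R₁ R₂ (w / w') (u.1 / u'.1, u.2 / u'.2) :=
  ⟨RedDatum.div hπ h.1 h'.1 h1, RedDatum.div hπ h.2 h'.2 h2⟩

/-- Every nonzero function can be normalised for the pair. -/
theorem normalize {w : F} (hw : w ≠ 0) :
    ∃ c : K, c ≠ 0 ∧ ∃ u : F₁ × F₂, u ≠ 0 ∧ Red₂ R₁ R₂ (c • w) u := by
  obtain ⟨c₁, hc₁, u₁, hu₁, h₁⟩ := R₁.normalize w hw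
  obtain ⟨c₂, hc₂, u₂, hu₂, h₂⟩ := R₂.normalize w hw
  rcases A.mem_or_inv_mem (c₁ * c₂⁻¹) with h | h
  · refine ⟨c₁, hc₁, (u₁, algebraMap k F₂ (π ⟨_, h⟩) * u₂), ?_, ?_⟩
    · intro h0
      exact hu₁ (congrArg Prod.fst h0)
    · refine ⟨by rw [Algebra.smul_def]; exact h₁, ?_⟩
      have := R₂.mul (R₂.const ⟨_, h⟩) h₂
      rw [Algebra.smul_def]
      convert this using 1
      rw [← mul_assoc, ← map_mul]
      congr 2
      simp only
      field_simp
  · refine ⟨c₂, hc₂, (algebraMap k F₁ (π ⟨_, h⟩) * u₁, u₂), ?_, ?_⟩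
    · intro h0
      exact hu₂ (congrArg Prod.snd h0)
    · refine ⟨?_, by rw [Algebra.smul_def]; exact h₂⟩
      have := R₁.mul (R₁.const ⟨_, h⟩) h₁
      rw [Algebra.smul_def]
      convert this using 1
      rw [← mul_assoc, ← map_mul]
      congr 2
      simp only
      field_simp

/-- If `c • w` is integral with nonzero reduction and `w` is integral then `c⁻¹ ∈ A`. -/
theorem inv_mem (hπ : Function.Surjective π) {c : K} {w : F} {u v : F₁ × F₂}
    (h : Red₂ R₁ R₂ (c • w) u) (hu : u ≠ 0) (h' : Red₂ R₁ R₂ w v) : c⁻¹ ∈ A := by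
  by_contra hcon
  have h1 := (A.mem_or_inv_mem c).resolve_right hcon
  have h2 : π ⟨c, h1⟩ = 0 := by
    apply res_eq_zero_of_not_isUnit hπ
    rw [isUnit_iff_exists_inv]
    rintro ⟨b, hb⟩
    apply hcon
    have hb' : c * (b : K) = 1 := congrArg Subtype.val hb
    rw [← eq_inv_of_mul_eq_one_right hb']
    exact b.2
  have h3 := smul (R₁ := R₁) (R₂ := R₂) h1 h'
  rw [h2, zero_smul] at h3
  exact hu (unique h h3)

end Red₂

section Ortho

variable {ι : Type*} {b : ι → F} {u : ι → F₁ × F₂}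

theorem ortho_red_sum (hb : ∀ i, Red₂ R₁ R₂ (b i) (u i)) (s : Finset ι) (c : ι → K)
    (hc : ∀ i, c i ∈ A) :
    Red₂ R₁ R₂ (∑ i ∈ s, c i • b i) (∑ i ∈ s, π ⟨c i, hc i⟩ • u i) :=
  Red₂.sum fun i _ => Red₂.smul (hc i) (hb i)

theorem ortho_coeff_mem (hπ : Function.Surjective π) (hb : ∀ i, Red₂ R₁ R₂ (b i) (u i))
    (hli : LinearIndependent k u) {s : Finset ι} {c : ι → K}
    {v : F₁ × F₂} (hv : Red₂ R₁ R₂ (∑ i ∈ s, c i • b i) v) : ∀ i ∈ s, c i ∈ A := by
  classical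
  by_contra hcon
  push Not at hcon
  obtain ⟨i₁, hi₁, hc₁⟩ := hcon
  obtain ⟨i₀, hi₀, hmax⟩ := s.exists_max_image (fun i => A.valuation (c i)) ⟨i₁, hi₁⟩
  have hc₀ : c i₀ ∉ A := by
    intro h0
    apply hc₁
    rw [← A.valuation_le_one_iff] at h0 ⊢
    exact (hmax i₁ hi₁).trans h0
  have hne : c i₀ ≠ 0 := fun h0 => hc₀ (h0 ▸ A.zero_mem)
  obtain ⟨hinv, hinv0⟩ := res_inv_eq_zero hπ hc₀
  have hratio : ∀ i ∈ s, (c i₀)⁻¹ * c i ∈ A := by
    intro i hi
    rw [← A.valuation_le_one_iff, map_mul, map_inv₀]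
    have hpos : A.valuation (c i₀) ≠ 0 := (Valuation.ne_zero_iff _).mpr hne
    calc (A.valuation (c i₀))⁻¹ * A.valuation (c i)
        ≤ (A.valuation (c i₀))⁻¹ * A.valuation (c i₀) := by gcongr; exact hmax i hi
      _ = 1 := inv_mul_cancel₀ hpos
  set d : ι → K := fun i => if i ∈ s then (c i₀)⁻¹ * c i else 0 with hd
  have hdA : ∀ i, d i ∈ A := by
    intro i
    by_cases hi : i ∈ s
    · simp only [hd, if_pos hi]; exact hratio i hi
    · simp only [hd, if_neg hi]; exact A.zero_mem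
  have h1 := Red₂.smul (R₁ := R₁) (R₂ := R₂) hinv hv
  rw [hinv0, zero_smul] at h1
  have h2 : (c i₀)⁻¹ • ∑ i ∈ s, c i • b i = ∑ i ∈ s, d i • b i := by
    rw [Finset.smul_sum]
    refine Finset.sum_congr rfl fun i hi => ?_
    simp only [hd, if_pos hi]
    rw [smul_smul]
  rw [h2] at h1
  have h3 := Red₂.unique h1 (ortho_red_sum hb s d hdA)
  have h4 := (linearIndependent_iff'.mp hli) s (fun i => π ⟨d i, hdA i⟩) h3.symm i₀ hi₀
  have h5 : (⟨d i₀, hdA i₀⟩ : A) = 1 := by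
    apply Subtype.ext
    simp only [hd, if_pos hi₀]
    exact inv_mul_cancel₀ hne
  rw [h5, map_one] at h4
  exact one_ne_zero h4

theorem ortho_linearIndependent (hπ : Function.Surjective π)
    (hb : ∀ i, Red₂ R₁ R₂ (b i) (u i)) (hli : LinearIndependent k u) :
    LinearIndependent K b := by
  classical
  rw [linearIndependent_iff']
  intro s c hc i hi
  by_contra hne
  set d : ι → K := fun j => if j ∈ s then (c i)⁻¹ * c j else 0 with hd
  have h3 : Red₂ R₁ R₂ (∑ j ∈ s, ((c i)⁻¹ * c j) • b j) 0 := by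
    have : ∑ j ∈ s, ((c i)⁻¹ * c j) • b j = 0 := by
      simp_rw [mul_smul]
      rw [← Finset.smul_sum, hc, smul_zero]
    rw [this]
    exact Red₂.zero
  have h4 := ortho_coeff_mem hπ hb hli h3
  have hdA : ∀ j, d j ∈ A := by
    intro j
    by_cases hj : j ∈ s
    · simp only [hd, if_pos hj]; exact h4 j hj
    · simp only [hd, if_neg hj]; exact A.zero_mem
  have h5 : ∑ j ∈ s, ((c i)⁻¹ * c j) • b j = ∑ j ∈ s, d j • b j :=
    Finset.sum_congr rfl fun j hj => by simp only [hd, if_pos hj]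
  rw [h5] at h3
  have h6 := Red₂.unique h3 (ortho_red_sum hb s d hdA)
  have h7 := (linearIndependent_iff'.mp hli) s (fun j => π ⟨d j, hdA j⟩) h6.symm i hi
  have h8 : (⟨d i, hdA i⟩ : A) = 1 := by
    apply Subtype.ext
    simp only [hd, if_pos hi]
    exact inv_mul_cancel₀ hne
  rw [h8, map_one] at h7
  exact one_ne_zero h7

end Ortho

/-- The reduction of a subspace of `F` in `F₁ × F₂`. -/
def redPair (R₁ : RedDatum K F k F₁ A π) (R₂ : RedDatum K F k F₂ A π)
    (hπ : Function.Surjective π) (W : Submodule K F) : Submodule k (F₁ × F₂) where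
  carrier := {u | ∃ w ∈ W, Red₂ R₁ R₂ w u}
  zero_mem' := ⟨0, W.zero_mem, Red₂.zero⟩
  add_mem' := by
    rintro u u' ⟨w, hw, h⟩ ⟨w', hw', h'⟩
    exact ⟨w + w', W.add_mem hw hw', Red₂.add h h'⟩
  smul_mem' := by
    rintro c u ⟨w, hw, h⟩
    obtain ⟨a, rfl⟩ := hπ c
    exact ⟨(a : K) • w, W.smul_mem _ hw, Red₂.smul a.2 h⟩

theorem mem_redPair {hπ : Function.Surjective π} {W : Submodule K F} {u : F₁ × F₂} :
    u ∈ redPair R₁ R₂ hπ W ↔ ∃ w ∈ W, Red₂ R₁ R₂ w u := Iff.rfl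

theorem redPair_mono {hπ : Function.Surjective π} {W W' : Submodule K F} (h : W ≤ W') :
    redPair R₁ R₂ hπ W ≤ redPair R₁ R₂ hπ W' := by
  rintro u ⟨w, hw, hu⟩
  exact ⟨w, h hw, hu⟩

theorem redPair_span (hπ : Function.Surjective π) {n : ℕ} {b : Fin n → F} {u : Fin n → F₁ × F₂}
    (hb : ∀ i, Red₂ R₁ R₂ (b i) (u i)) (hli : LinearIndependent k u) :
    redPair R₁ R₂ hπ (Submodule.span K (Set.range b)) = Submodule.span k (Set.range u) := by
  apply le_antisymm
  · rintro v ⟨w, hw, hv⟩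
    obtain ⟨c, rfl⟩ := (Submodule.mem_span_range_iff_exists_fun K).mp hw
    have hc := ortho_coeff_mem hπ hb hli hv
    have hcA : ∀ i, c i ∈ A := fun i => hc i (Finset.mem_univ i)
    rw [Red₂.unique hv (ortho_red_sum hb _ c hcA)]
    exact Submodule.sum_mem _ fun i _ =>
      Submodule.smul_mem _ _ (Submodule.subset_span ⟨i, rfl⟩)
  · rw [Submodule.span_le]
    rintro _ ⟨i, rfl⟩
    exact ⟨b i, Submodule.subset_span ⟨i, rfl⟩, hb i⟩

theorem HasOrthoPair.finrank_redPair (hπ : Function.Surjective π) {W : Submodule K F}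
    (h : HasOrthoPair R₁ R₂ W) :
    Module.finrank k (redPair R₁ R₂ hπ W) = Module.finrank K W := by
  obtain ⟨n, b, u, hb, hli, rfl⟩ := h
  rw [redPair_span hπ hb hli, finrank_span_eq_card hli,
    finrank_span_eq_card (ortho_linearIndependent hπ hb hli)]

theorem HasOrthoPair.finite_redPair (hπ : Function.Surjective π) {W : Submodule K F}
    (h : HasOrthoPair R₁ R₂ W) : Module.Finite k (redPair R₁ R₂ hπ W) := by
  obtain ⟨n, b, u, hb, hli, rfl⟩ := h
  rw [redPair_span hπ hb hli]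
  exact FiniteDimensional.span_of_finite k (Set.finite_range u)

end Pair

section Values

variable {k E : Type*} [Field k] [Field E] [Algebra k E] {P : Place k E}

theorem const_eq_zero_of_lt {c : k} (h : P.adicValuation (algebraMap k E c) < 1) : c = 0 := by
  by_contra hc
  have h1 : P.ord (algebraMap k E c) = 0 := ord_algebraMap P c
  have h2 : algebraMap k E c ≠ 0 := by simpa using hc
  rw [Place.ord, neg_eq_zero] at h1
  have h3 := P.adicValuation_ne_zero h2
  have h4 : P.adicValuation (algebraMap k E c) = exp (0 : ℤ) := by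
    rw [← h1, exp_log h3]
  rw [h4, exp_zero] at h
  exact lt_irrefl _ h

theorem adicValuation_lt_one_iff {u : E} : P.adicValuation u < 1 ↔ u = 0 ∨ 0 < P.ord u := by
  rcases eq_or_ne u 0 with rfl | hu
  · simp
  · have h3 := P.adicValuation_ne_zero hu
    rw [Place.ord, neg_pos, ← exp_zero, ← log_lt_iff_lt_exp h3]
    simp [hu]

theorem adicValuation_le_one_iff' {u : E} : P.adicValuation u ≤ 1 ↔ u = 0 ∨ 0 ≤ P.ord u := by
  rcases eq_or_ne u 0 with rfl | hu
  · simp
  · have h3 := P.adicValuation_ne_zero hu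
    rw [Place.ord, neg_nonneg, ← exp_zero, ← log_le_iff_le_exp h3]
    simp [hu]

theorem adicValuation_algebraMap_le (c : k) : P.adicValuation (algebraMap k E c) ≤ 1 := by
  rw [adicValuation_le_one_iff', ord_algebraMap]
  exact Or.inr le_rfl

namespace Val

theorem unique {u : E} {c c' : k} (h : Val P u c) (h' : Val P u c') : c = c' := by
  rw [← sub_eq_zero]
  apply const_eq_zero_of_lt (P := P)
  have : algebraMap k E (c - c') = (u - algebraMap k E c') - (u - algebraMap k E c) := by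
    rw [map_sub]; ring
  rw [this]
  exact P.adicValuation.map_sub_lt h' h

theorem add {u u' : E} {c c' : k} (h : Val P u c) (h' : Val P u' c') :
    Val P (u + u') (c + c') := by
  unfold Val at *
  have : u + u' - algebraMap k E (c + c') =
      (u - algebraMap k E c) + (u' - algebraMap k E c') := by
    rw [map_add]; ring
  rw [this]
  exact P.adicValuation.map_add_lt h h'

theorem neg {u : E} {c : k} (h : Val P u c) : Val P (-u) (-c) := by
  unfold Val at *
  have : -u - algebraMap k E (-c) = -(u - algebraMap k E c) := by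
    rw [map_neg]; ring
  rw [this, Valuation.map_neg]
  exact h

theorem sub {u u' : E} {c c' : k} (h : Val P u c) (h' : Val P u' c') :
    Val P (u - u') (c - c') := by
  rw [sub_eq_add_neg, sub_eq_add_neg]
  exact h.add h'.neg

theorem le_one {u : E} {c : k} (h : Val P u c) : P.adicValuation u ≤ 1 := by
  have : u = (u - algebraMap k E c) + algebraMap k E c := by ring
  rw [this]
  exact P.adicValuation.map_add_le (le_of_lt h) (adicValuation_algebraMap_le c)

theorem mul {u u' : E} {c c' : k} (h : Val P u c) (h' : Val P u' c') :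
    Val P (u * u') (c * c') := by
  have h1 := h'.le_one
  unfold Val at *
  have : u * u' - algebraMap k E (c * c') =
      (u - algebraMap k E c) * u' + algebraMap k E c * (u' - algebraMap k E c') := by
    rw [map_mul]; ring
  rw [this]
  apply P.adicValuation.map_add_lt
  · rw [map_mul]
    exact lt_of_le_of_lt (mul_le_mul' le_rfl h1) (by rw [mul_one]; exact h)
  · rw [map_mul]
    exact lt_of_le_of_lt (mul_le_mul' (adicValuation_algebraMap_le c) le_rfl)
      (by rw [one_mul]; exact h')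

theorem const (c : k) : Val P (algebraMap k E c) c := by
  unfold Val
  simp

theorem one : Val P (1 : E) (1 : k) := by
  simpa using const (P := P) (1 : k)

theorem zero : Val P (0 : E) (0 : k) := by
  simpa using const (P := P) (0 : k)

theorem smul {u : E} {c : k} (a : k) (h : Val P u c) : Val P (a • u) (a * c) := by
  rw [Algebra.smul_def]
  exact (const a).mul h

theorem pow {u : E} {c : k} (h : Val P u c) (n : ℕ) : Val P (u ^ n) (c ^ n) := by
  induction n with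
  | zero => simpa using one
  | succ n ih => rw [pow_succ, pow_succ]; exact ih.mul h

theorem zero_iff {u : E} : Val P u 0 ↔ u = 0 ∨ 0 < P.ord u := by
  unfold Val
  rw [map_zero, sub_zero, adicValuation_lt_one_iff]

theorem ord_nonneg {u : E} {c : k} (h : Val P u c) : 0 ≤ P.ord u := by
  rcases adicValuation_le_one_iff'.mp h.le_one with rfl | h
  · simp
  · exact h

theorem ord_eq_zero {u : E} {c : k} (h : Val P u c) (hc : c ≠ 0) : u ≠ 0 ∧ P.ord u = 0 := by
  have h0 : u ≠ 0 := by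
    rintro rfl
    exact hc (h.unique zero)
  refine ⟨h0, le_antisymm ?_ h.ord_nonneg⟩
  by_contra hcon
  exact hc (h.unique (zero_iff.mpr (Or.inr (not_le.mp hcon))))

theorem exists_of_le [IsAlgClosed k] [FunctionField k E] {u : E} (h : P.adicValuation u ≤ 1) :
    ∃ c : k, Val P u c := by
  have h1 : u ∈ P.toValuationSubring := by
    rw [mem_iff_ord]
    exact adicValuation_le_one_iff'.mp h
  obtain ⟨c, hc⟩ := exists_const_of_mem P h1
  exact ⟨c, adicValuation_lt_one_iff.mpr hc⟩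

theorem exists_of_ord [IsAlgClosed k] [FunctionField k E] {u : E} (h : 0 ≤ P.ord u) :
    ∃ c : k, Val P u c :=
  exists_of_le (adicValuation_le_one_iff'.mpr (Or.inr h))

end Val

end Values

end Fermat.Agent.DR
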