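import Fermat.Agent.DR.Nodal.Swap

set_option autoImplicit false
set_option linter.unusedSectionVars false

/-!
# Counting: the three graded pieces of `Pic⁰(F)[m]`

`#Pic⁰(F)[m] = m ^ (2 g)`, and the three graded pieces (orders at the nodes, specialisation to the
two components, gluing functions) have at most `m ^ (ν - 1)`, `m ^ (2 g₁ + 2 g₂)`, `m ^ (ν - 1)`
elements; as `g + 1 = g₁ + g₂ + ν` everything is an equality.
-/

noncomputable section

open AlgebraicCurve Fermat.Agent.RR Fermat.Agent.JRED WithZero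

namespace Fermat.Agent.DR

section Sets

/-- Counting through fibres. -/
theorem ncard_le_of_fiber {M B : Type*} [AddGroup M] (G : Set M) (f : M → B) (T : Set M)
    (hT : T.Finite) (hB : (f '' G).Finite)
    (h : ∀ x ∈ G, ∀ x' ∈ G, f x = f x' → x - x' ∈ T) :
    G.Finite ∧ G.ncard ≤ (f '' G).ncard * T.ncard := by
  classical
  have hσ : ∀ b ∈ f '' G, ∃ x ∈ G, f x = b := fun b hb => hb
  choose! σ hσ1 hσ2 using hσ
  let Φ : M → B × M := fun x => (f x, x - σ (f x))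
  have hmaps : Set.MapsTo Φ G ((f '' G) ×ˢ T) := by
    intro x hx
    have hb : f x ∈ f '' G := ⟨x, hx, rfl⟩
    exact ⟨hb, h x hx _ (hσ1 _ hb) (hσ2 _ hb).symm⟩
  have hinj : Set.InjOn Φ G := by
    intro x _ y _ hxy
    have h1 : f x = f y := congrArg Prod.fst hxy
    have h2 : x - σ (f x) = y - σ (f y) := congrArg Prod.snd hxy
    rw [h1] at h2
    exact sub_left_injective h2
  have hfin : ((f '' G) ×ˢ T).Finite := hB.prod hT
  refine ⟨Set.Finite.of_injOn hmaps hinj hfin, ?_⟩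
  rw [← Set.ncard_prod]
  exact Set.ncard_le_ncard_of_injOn Φ hmaps hinj hfin

theorem eq_of_mul_le {a b c A B C : ℕ} (ha : a ≤ A) (hb : b ≤ B) (hc : c ≤ C) (hA : 0 < A)
    (hB : 0 < B) (hC : 0 < C) (h : A * B * C ≤ a * b * c) : a = A ∧ b = B ∧ c = C := by
  have key : ∀ {a b c A B C : ℕ}, a ≤ A → b ≤ B → c ≤ C → 0 < B → 0 < C →
      A * B * C ≤ a * b * c → a = A := by
    intro a b c A B C ha hb hc hB hC h
    by_contra hne
    have hlt : a < A := lt_of_le_of_ne ha hne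
    have h1 : a * b * c ≤ a * B * C := Nat.mul_le_mul (Nat.mul_le_mul le_rfl hb) hc
    have h2 : a * (B * C) < A * (B * C) := Nat.mul_lt_mul_of_pos_right hlt (Nat.mul_pos hB hC)
    rw [← mul_assoc, ← mul_assoc] at h2
    omega
  refine ⟨key ha hb hc hB hC h, ?_, ?_⟩
  · refine key (a := b) (b := a) (c := c) hb ha hc hA hC ?_
    rw [mul_comm B A, mul_comm b a]; exact h
  · refine key (a := c) (b := a) (c := b) hc ha hb hA hB ?_
    have e1 : C * A * B = A * B * C := by ring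
    have e2 : c * a * b = a * b * c := by ring
    rw [e1, e2]; exact h

end Sets

variable {K F k F₁ F₂ : Type*} [Field K] [Field F] [Algebra K F] [Field k] [Field F₁] [Field F₂]
  [Algebra k F₁] [Algebra k F₂] [IsAlgClosed K] [IsAlgClosed k] [FunctionField K F]
  [FunctionField k F₁] [FunctionField k F₂] {A : ValuationSubring K} {π : A →+* k}

/-- **Genus formula** `g + 1 = g₁ + g₂ + ν`. -/
theorem genus_eq (X : NodalDatum K F k F₁ F₂ A π) (hπ : Function.Surjective π) :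
    genusFF K F + 1 = genusFF k F₁ + genusFF k F₂ + X.nodes.card := by
  refine le_antisymm X.genus_le ?_
  have H : IsRootDiv X 1 0 (1 : F) (1, 1) :=
    ⟨one_pos, one_ne_zero, fun P => by simp, Red₂.one, one_ne_zero, one_ne_zero⟩
  set E := polesOf (K := K) X.x with hE
  set E₁ := polesOf (K := k) X.x₁ with hE₁
  set E₂ := polesOf (K := k) X.x₂ with hE₂
  have he₁ : 1 ≤ Divisor.degree E₁ := polesOf_pos_of_transcendental X.transcendental₁
  have he₂ : 1 ≤ Divisor.degree E₂ := polesOf_pos_of_transcendental X.transcendental₂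
  have he : 1 ≤ Divisor.degree E := by rw [hE, X.degree_eq]; linarith
  obtain ⟨n₀, hn₀⟩ := exists_nsmul_gt he (2 * (genusFF K F : ℤ) - 2)
  obtain ⟨n₁, hn₁⟩ := exists_nsmul_gt he₁ (2 * (genusFF k F₁ : ℤ) - 2 + X.nodes.card)
  obtain ⟨n₂, hn₂⟩ := exists_nsmul_gt he₂ (2 * (genusFF k F₂ : ℤ) - 2 + X.nodes.card)
  set n := max n₀ (max n₁ n₂) with hn
  have hb₀ := hn₀ n (le_max_left _ _)
  have hb₁ := hn₁ n ((le_max_left _ _).trans (le_max_right _ _))
  have hb₂ := hn₂ n ((le_max_right _ _).trans (le_max_right _ _))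
  set V := redL X hπ 0 n with hV
  have hfinV : Module.Finite k V := (X.ortho _ inferInstance).finite_redPair hπ
  have hVrank : Module.finrank k V = Module.finrank K (riemannRochSpace (n • E - 0)) :=
    (X.ortho _ inferInstance).finrank_redPair hπ
  have hdeg : Divisor.degree (n • E - 0) = n * Divisor.degree E := by
    rw [sub_zero, map_nsmul, nsmul_eq_mul]
  have hRR := finrank_riemannRochSpace_eq (D := n • E - 0) (by rw [hdeg]; linarith)
  rw [hdeg, hE, X.degree_eq, ← hE, ← hVrank] at hRR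
  set L₁ := riemannRochSpace (n • E₁) with hL₁
  set L₂' := riemannRochSpace (n • E₂ - nodeDiv Prod.snd X.nodes) with hL₂'
  have hV₁ : V ≤ L₁.comap (LinearMap.fst k F₁ F₂) := fun v hv => H.mem_L₁ hπ hv
  have hker : V ⊓ (⊥ : Submodule k F₁).comap (LinearMap.fst k F₁ F₂) ≤
      Submodule.map (LinearMap.inr k F₁ F₂) L₂' := by
    rintro v ⟨hv, hv1⟩
    have hv1' : v.1 = 0 := hv1
    refine ⟨v.2, ?_, Prod.ext (by simp [hv1']) (by simp)⟩
    rw [SetLike.mem_coe, hL₂', mem_sub_nodeDiv₂ (H.mem_L₂ hπ hv)]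
    intro s hs
    rw [← H.val_zero_iff hπ hv hs, hv1']
    exact Val.zero
  have hk0 := finrank_add_le_inf V (LinearMap.fst k F₁ F₂) L₁ ⊥ bot_le hV₁
  have hk1 := Submodule.finrank_mono hker
  have hk2 := Submodule.finrank_map_le (LinearMap.inr k F₁ F₂) L₂'
  have hbot : Module.finrank k (⊥ : Submodule k F₁) = 0 := finrank_bot k F₁
  have hdegL₁ : Divisor.degree (n • E₁) = n * Divisor.degree E₁ := by
    rw [map_nsmul, nsmul_eq_mul]
  have hdegL₂' : Divisor.degree (n • E₂ - nodeDiv Prod.snd X.nodes) =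
      n * Divisor.degree E₂ - X.nodes.card := by
    rw [map_sub, map_nsmul, nsmul_eq_mul, degree_nodeDiv]
  have r₁ := finrank_riemannRochSpace_eq (D := n • E₁) (by rw [hdegL₁]; linarith)
  have r₂' := finrank_riemannRochSpace_eq (D := n • E₂ - nodeDiv Prod.snd X.nodes)
    (by rw [hdegL₂']; linarith)
  rw [hdegL₁] at r₁
  rw [hdegL₂'] at r₂'
  zify at hk0 hk1 hk2 hbot ⊢
  linarith

section Spec

variable {X : NodalDatum K F k F₁ F₂ A π} {m : ℕ} {x : Pic0 K F} {y₁ : Pic0 k F₁}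
  {y₂ : Pic0 k F₂}

theorem nsmul_mk_eq_zero {K F : Type*} [Field K] [Field F] [Algebra K F]
    {D : Divisor.degZero (K := K) (F := F)} {f : F} (hf : f ≠ 0) {m : ℕ}
    (h : ∀ P : Place K F, (m : ℤ) * (D : Divisor K F) P = P.ord f) : m • Pic0.mk D = 0 := by
  have h1 : m • Pic0.mk D = Pic0.mk (m • D) := rfl
  rw [h1, pic0_mk_eq_zero_iff]
  refine ⟨f, hf, fun P => ?_⟩
  rw [← h P]
  show (m • (D : Divisor K F)) P = _
  rw [Finsupp.smul_apply, nsmul_eq_mul]

theorem Spec.torsion (h : Spec X m x y₁ y₂) : m • x = 0 ∧ m • y₁ = 0 ∧ m • y₂ = 0 := by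
  obtain ⟨D, f, u, D₁, D₂, rfl, rfl, rfl, H, h1, h2⟩ := h
  exact ⟨nsmul_mk_eq_zero H.ne_zero H.div_eq, nsmul_mk_eq_zero H.ne₁ h1,
    nsmul_mk_eq_zero H.ne₂ h2⟩

theorem mem_torsion' {K F : Type*} [Field K] [Field F] [Algebra K F] {m : ℕ} {x : Pic0 K F} :
    x ∈ Pic0.torsion K F m ↔ m • x = 0 := by
  rw [Pic0.mem_torsion, natCast_zsmul]

/-- The sum of the orders at the nodes is divisible by `m`. -/
theorem IsRootDiv.sum_nodes (hπ : Function.Surjective π) {D : Divisor K F} {f : F}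
    {u : F₁ × F₂} (H : IsRootDiv X m D f u) :
    (m : ℤ) ∣ ∑ s ∈ X.nodes, s.1.ord u.1 := by
  classical
  obtain ⟨p1, -, -⟩ := H.parity hπ
  set B : Divisor k F₁ := ∑ s ∈ X.nodes, Finsupp.single s.1 (s.1.ord u.1) with hB
  have hBdeg : Divisor.degree B = ∑ s ∈ X.nodes, s.1.ord u.1 := by
    rw [hB, map_sum]
    simp [deg_eq_one]
  have hBP : ∀ P, (m : ℤ) ∣ ((divOf u.1 - B : Divisor k F₁) : Divisor k F₁) P := by
    intro P
    rw [Finsupp.sub_apply, divOf_apply]
    by_cases hP : ∃ s ∈ X.nodes, s.1 = P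
    · obtain ⟨s, hs, rfl⟩ := hP
      have : B s.1 = s.1.ord u.1 := by
        rw [hB, Finsupp.finsetSum_apply, Finset.sum_eq_single s]
        · rw [Finsupp.single_eq_same]
        · intro t ht hts
          rw [Finsupp.single_apply, if_neg]
          intro h
          exact hts (X.injOn_fst (Finset.mem_coe.mpr ht) (Finset.mem_coe.mpr hs) h)
        · intro h
          exact absurd hs h
      rw [this, sub_self]
      exact dvd_zero _
    · push Not at hP
      have : B P = 0 := by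
        rw [hB, Finsupp.finsetSum_apply]
        refine Finset.sum_eq_zero fun s hs => ?_
        rw [Finsupp.single_apply, if_neg (hP s hs)]
      rw [this, sub_zero]
      exact p1 P hP
  let C : Divisor k F₁ := Finsupp.mapRange (fun a : ℤ => a / m) (by simp) (divOf u.1 - B)
  have hC : m • C = divOf u.1 - B := by
    ext P
    rw [Finsupp.smul_apply, nsmul_eq_mul]
    simp only [C, Finsupp.mapRange_apply]
    exact Int.mul_ediv_cancel' (hBP P)
  have h1 : (m : ℤ) * Divisor.degree C = - ∑ s ∈ X.nodes, s.1.ord u.1 := by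
    rw [← nsmul_eq_mul, ← map_nsmul, hC, map_sub, degree_divOf, hBdeg, zero_sub]
  rw [← dvd_neg, ← h1]
  exact dvd_mul_right _ _

end Spec

section Main

variable (X : NodalDatum K F k F₁ F₂ A π) (m : ℕ)

/-- the order function of a root divisor at the nodes -/
def nodeOrd (u : F₁ × F₂) (s : X.nodes) : ZMod m := ((s.1.1.ord u.1 : ℤ) : ZMod m)

/-- `x` has a normalised representative with orders `r` (mod `m`) at the nodes -/
def ResRel (x : Pic0 K F) (r : X.nodes → ZMod m) : Prop :=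
  ∃ (D : Divisor.degZero (K := K) (F := F)) (f : F) (u : F₁ × F₂), Pic0.mk D = x ∧
    IsRootDiv X m (D : Divisor K F) f u ∧ ∀ s, nodeOrd X m u s = r s

/-- `x` is toric with gluing function `δ` up to a constant -/
def GamRel (hπ : Function.Surjective π) (s₀ : X.nodes) (x : Pic0 K F) (δ : X.nodes → k) : Prop :=
  ∃ (D : Divisor.degZero (K := K) (F := F)) (f : F) (γ : Place k F₁ × Place k F₂ → k),
    Pic0.mk D = x ∧ IsRootDiv X m (D : Divisor K F) f (1, 1) ∧ IsGamma X hπ (D : Divisor K F) γ ∧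
      γ s₀ ^ m = 1 ∧ ∀ s : X.nodes, γ s = γ s₀ * δ s

variable {X m}

theorem exists_resRel (hm : 0 < m) {x : Pic0 K F} (hx : m • x = 0) :
    ∃ r, ResRel X m x r := by
  obtain ⟨D, f, u, h1, h2⟩ := exists_rep X hm hx
  exact ⟨_, D, f, u, h1, h2, fun s => rfl⟩

theorem ResRel.sum_eq_zero (hπ : Function.Surjective π) {x : Pic0 K F} {r : X.nodes → ZMod m}
    (h : ResRel X m x r) : ∑ s, r s = 0 := by
  obtain ⟨D, f, u, -, H, hr⟩ := h
  have h1 := H.sum_nodes hπ
  rw [← ZMod.intCast_zmod_eq_zero_iff_dvd] at h1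
  rw [← Finset.sum_coe_sort X.nodes (fun s => s.1.ord u.1)] at h1
  push_cast at h1
  rw [← h1]
  exact Finset.sum_congr rfl fun s _ => (hr s).symm

theorem ResRel.sub_spec (hπ : Function.Surjective π) {x x' : Pic0 K F} {r : X.nodes → ZMod m}
    (h : ResRel X m x r) (h' : ResRel X m x' r) : ∃ y₁ y₂, Spec X m (x - x') y₁ y₂ := by
  obtain ⟨D, f, u, rfl, H, hr⟩ := h
  obtain ⟨D', f', u', rfl, H', hr'⟩ := h'
  have H2 := H.sub hπ H'
  have H3 : IsRootDiv X m ((D - D' : Divisor.degZero (K := K) (F := F)) : Divisor K F)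
      (f * f'⁻¹) (u.1 / u'.1, u.2 / u'.2) := H2
  refine H3.exists_spec_of_nodes hπ fun s hs => ?_
  rw [ord_div _ H.ne₁ H'.ne₁, ← ZMod.intCast_zmod_eq_zero_iff_dvd]
  have e1 := hr ⟨s, hs⟩
  have e2 := hr' ⟨s, hs⟩
  simp only [nodeOrd] at e1 e2
  push_cast
  rw [e1, e2, sub_self]

theorem ResRel.exists_spec {x : Pic0 K F}
    (h : ResRel X m x 0) (hπ : Function.Surjective π) : ∃ y₁ y₂, Spec X m x y₁ y₂ := by
  obtain ⟨D, f, u, rfl, H, hr⟩ := h
  refine H.exists_spec_of_nodes hπ fun s hs => ?_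
  rw [← ZMod.intCast_zmod_eq_zero_iff_dvd]
  exact hr ⟨s, hs⟩

theorem exists_gamRel (hπ : Function.Surjective π) (s₀ : X.nodes) {x : Pic0 K F}
    (hx : InTorus X m x) :
    ∃ δ : X.nodes → k, (∀ s, δ s ^ m = 1) ∧ δ s₀ = 1 ∧ GamRel X m hπ s₀ x δ := by
  obtain ⟨D, f, rfl, H⟩ := hx
  obtain ⟨γ, hγ1, hγ⟩ := H.exists_gamma hπ
  have hne : γ s₀ ≠ 0 := by
    intro h0
    have := hγ1 s₀ s₀.2
    rw [h0, zero_pow H.pos.ne'] at this
    exact zero_ne_one this
  refine ⟨fun s => γ s / γ s₀, fun s => ?_, div_self hne, D, f, γ, rfl, H, hγ, hγ1 s₀ s₀.2,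
    fun s => ?_⟩
  · rw [div_pow, hγ1 s s.2, hγ1 s₀ s₀.2, div_one]
  · rw [mul_div_cancel₀ _ hne]

theorem GamRel.eq (hmk : (m : k) ≠ 0) {hπ : Function.Surjective π} {s₀ : X.nodes}
    {x x' : Pic0 K F} {δ : X.nodes → k} (h : GamRel X m hπ s₀ x δ)
    (h' : GamRel X m hπ s₀ x' δ) : x = x' := by
  obtain ⟨D, f, γ, rfl, H, hγ, h1, h2⟩ := h
  obtain ⟨D', f', γ', rfl, H', hγ', h1', h2'⟩ := h'
  rw [pic0_mk_eq_iff]
  have hne' : γ' s₀ ≠ 0 := by
    intro h0
    rw [h0, zero_pow H.pos.ne'] at h1'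
    exact zero_ne_one h1'
  refine isPrincipal_sub_of_gamma hπ hmk H H' hγ hγ' (c := γ s₀ / γ' s₀) ?_ fun s hs => ?_
  · rw [div_pow, h1, h1', div_one]
  · have e1 := h2 ⟨s, hs⟩
    have e2 := h2' ⟨s, hs⟩
    simp only at e1 e2
    rw [e1, e2]
    field_simp

/-- the possible normalised gluing functions -/
def gamSet (X : NodalDatum K F k F₁ F₂ A π) (m : ℕ) (s₀ : X.nodes) : Set (X.nodes → k) :=
  {δ | (∀ s, δ s ^ m = 1) ∧ δ s₀ = 1}

theorem gamSet_finite_card (hm : 0 < m) (s₀ : X.nodes) :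
    (gamSet X m s₀).Finite ∧ (gamSet X m s₀).ncard ≤ m ^ (X.nodes.card - 1) := by
  classical
  let S : X.nodes → Finset k := fun s => if s = s₀ then {1} else Polynomial.nthRootsFinset m 1
  have h1 : gamSet X m s₀ ⊆ (Fintype.piFinset S : Set (X.nodes → k)) := by
    intro δ hδ
    rw [Finset.mem_coe, Fintype.mem_piFinset]
    intro s
    by_cases hs : s = s₀
    · subst hs
      simp only [S, if_true, Finset.mem_singleton]
      exact hδ.2
    · simp only [S, if_neg hs]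
      rw [Polynomial.mem_nthRootsFinset hm]
      exact hδ.1 s
  refine ⟨(Finset.finite_toSet _).subset h1, ?_⟩
  refine (Set.ncard_le_ncard h1 (Finset.finite_toSet _)).trans ?_
  rw [Set.ncard_coe_finset, Fintype.card_piFinset]
  rw [← Finset.mul_prod_erase Finset.univ _ (Finset.mem_univ s₀)]
  have h2 : (S s₀).card = 1 := by simp [S]
  rw [h2, one_mul]
  have h3 : ∀ s ∈ Finset.univ.erase s₀, (S s).card ≤ m := by
    intro s hs
    rw [Finset.mem_erase] at hs
    simp only [S, if_neg hs.1]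
    unfold Polynomial.nthRootsFinset
    exact (Multiset.toFinset_card_le _).trans (Polynomial.card_nthRoots m 1)
  refine (Finset.prod_le_pow_card _ _ m h3).trans ?_
  rw [Finset.card_erase_of_mem (Finset.mem_univ _), Finset.card_univ, Fintype.card_coe]

/-- the possible orders at the nodes -/
def resSet (X : NodalDatum K F k F₁ F₂ A π) (m : ℕ) : Set (X.nodes → ZMod m) :=
  {r | ∑ s, r s = 0}

theorem resSet_finite_card (hm : 0 < m) (s₀ : X.nodes) :
    (resSet X m).Finite ∧ (resSet X m).ncard ≤ m ^ (X.nodes.card - 1) := by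
  classical
  haveI : NeZero m := ⟨hm.ne'⟩
  let S : X.nodes → Finset (ZMod m) := fun s => if s = s₀ then {0} else Finset.univ
  let Φ : (X.nodes → ZMod m) → (X.nodes → ZMod m) := fun r s => if s = s₀ then 0 else r s
  refine ⟨Set.toFinite _, ?_⟩
  have h1 : Set.MapsTo Φ (resSet X m) (Fintype.piFinset S : Set (X.nodes → ZMod m)) := by
    intro r _
    rw [Finset.mem_coe, Fintype.mem_piFinset]
    intro s
    by_cases hs : s = s₀
    · simp [S, Φ, hs]
    · simp [S, Φ, hs]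
  have h2 : Set.InjOn Φ (resSet X m) := by
    intro r hr r' hr' h
    have h3 : ∀ s, s ≠ s₀ → r s = r' s := by
      intro s hs
      have := congrFun h s
      simpa [Φ, hs] using this
    have h4 : r s₀ = r' s₀ := by
      have e1 : r s₀ + ∑ s ∈ Finset.univ.erase s₀, r s = 0 := by
        rw [Finset.add_sum_erase _ _ (Finset.mem_univ _)]; exact hr
      have e2 : r' s₀ + ∑ s ∈ Finset.univ.erase s₀, r' s = 0 := by
        rw [Finset.add_sum_erase _ _ (Finset.mem_univ _)]; exact hr'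
      have e3 : ∑ s ∈ Finset.univ.erase s₀, r s = ∑ s ∈ Finset.univ.erase s₀, r' s :=
        Finset.sum_congr rfl fun s hs => h3 s (Finset.ne_of_mem_erase hs)
      rw [e3] at e1
      exact add_right_cancel (e1.trans e2.symm)
    funext s
    by_cases hs : s = s₀
    · rw [hs, h4]
    · exact h3 s hs
  refine (Set.ncard_le_ncard_of_injOn Φ h1 h2 (Finset.finite_toSet _)).trans ?_
  rw [Set.ncard_coe_finset, Fintype.card_piFinset]
  rw [← Finset.mul_prod_erase Finset.univ _ (Finset.mem_univ s₀)]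
  have h3 : (S s₀).card = 1 := by simp [S]
  rw [h3, one_mul]
  have h4 : ∀ s ∈ Finset.univ.erase s₀, (S s).card = m := by
    intro s hs
    rw [Finset.mem_erase] at hs
    simp only [S, if_neg hs.1]
    rw [Finset.card_univ, ZMod.card]
  rw [Finset.prod_congr rfl h4, Finset.prod_const, Finset.card_erase_of_mem (Finset.mem_univ _),
    Finset.card_univ, Fintype.card_coe]

/-- **All three graded pieces have the maximal size.** -/
theorem count_main (X : NodalDatum K F k F₁ F₂ A π) (hπ : Function.Surjective π)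
    (hmk : (m : k) ≠ 0)
    (hJ : m ^ (2 * genusFF K F) ≤ Nat.card (Pic0.torsion K F m))
    (h₁ : Nat.card (Pic0.torsion k F₁ m) = m ^ (2 * genusFF k F₁))
    (h₂ : Nat.card (Pic0.torsion k F₂ m) = m ^ (2 * genusFF k F₂)) (s₀ : X.nodes) :
    (∀ r ∈ resSet X m, ∃ x : Pic0 K F, m • x = 0 ∧ ResRel X m x r) ∧
    (∀ (y₁ : Pic0 k F₁) (y₂ : Pic0 k F₂), m • y₁ = 0 → m • y₂ = 0 → ∃ x, Spec X m x y₁ y₂) ∧
    (∀ δ ∈ gamSet X m s₀, ∃ x, InTorus X m x ∧ GamRel X m hπ s₀ x δ) := by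
  classical
  have hm : 0 < m := by
    rcases Nat.eq_zero_or_pos m with h | h
    · subst h
      simp at hmk
    · exact h
  -- the three sets
  set Jm : Set (Pic0 K F) := {x | m • x = 0} with hJm
  set Dm : Set (Pic0 K F) := {x | ∃ y₁ y₂, Spec X m x y₁ y₂} with hDm
  set Tm : Set (Pic0 K F) := {x | InTorus X m x} with hTm
  -- the three maps
  have hr : ∀ x ∈ Jm, ∃ r, ResRel X m x r := fun x hx => exists_resRel hm hx
  choose! rr hrr using hr
  have hs : ∀ x ∈ Dm, ∃ y : Pic0 k F₁ × Pic0 k F₂, Spec X m x y.1 y.2 := by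
    rintro x ⟨y₁, y₂, h⟩
    exact ⟨(y₁, y₂), h⟩
  choose! ss hss using hs
  have hg : ∀ x ∈ Tm, ∃ δ : X.nodes → k, (∀ s, δ s ^ m = 1) ∧ δ s₀ = 1 ∧
      GamRel X m hπ s₀ x δ := fun x hx => exists_gamRel hπ s₀ hx
  choose! gg hgg1 hgg2 hgg3 using hg
  -- targets
  obtain ⟨hRfin, hRcard⟩ := resSet_finite_card (X := X) hm s₀
  obtain ⟨hGfin, hGcard⟩ := gamSet_finite_card (X := X) hm s₀
  have hfin₁ : Finite (Pic0.torsion k F₁ m) :=
    Nat.finite_of_card_ne_zero (by rw [h₁]; exact (pow_pos hm _).ne')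
  have hfin₂ : Finite (Pic0.torsion k F₂ m) :=
    Nat.finite_of_card_ne_zero (by rw [h₂]; exact (pow_pos hm _).ne')
  set S₁ : Set (Pic0 k F₁) := (Pic0.torsion k F₁ m : Set (Pic0 k F₁)) with hS₁
  set S₂ : Set (Pic0 k F₂) := (Pic0.torsion k F₂ m : Set (Pic0 k F₂)) with hS₂
  have hS₁fin : S₁.Finite := Set.toFinite _
  have hS₂fin : S₂.Finite := Set.toFinite _
  have hS₁card : S₁.ncard = m ^ (2 * genusFF k F₁) := by rw [← h₁]; rfl
  have hS₂card : S₂.ncard = m ^ (2 * genusFF k F₂) := by rw [← h₂]; rfl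
  have hSfin : (S₁ ×ˢ S₂).Finite := hS₁fin.prod hS₂fin
  have hScard : (S₁ ×ˢ S₂).ncard = m ^ (2 * genusFF k F₁) * m ^ (2 * genusFF k F₂) := by
    rw [Set.ncard_prod, hS₁card, hS₂card]
  -- images
  have hrim : rr '' Jm ⊆ resSet X m := by
    rintro _ ⟨x, hx, rfl⟩
    exact (hrr x hx).sum_eq_zero hπ
  have hsim : ss '' Dm ⊆ S₁ ×ˢ S₂ := by
    rintro _ ⟨x, hx, rfl⟩
    obtain ⟨-, t1, t2⟩ := (hss x hx).torsion
    exact ⟨mem_torsion'.mpr t1, mem_torsion'.mpr t2⟩
  have hgim : gg '' Tm ⊆ gamSet X m s₀ := by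
    rintro _ ⟨x, hx, rfl⟩
    exact ⟨hgg1 x hx, hgg2 x hx⟩
  -- the torus
  have hginj : Set.InjOn gg Tm := by
    intro x hx x' hx' h
    have e1 := hgg3 x hx
    rw [h] at e1
    exact e1.eq hmk (hgg3 x' hx')
  have hTfin : Tm.Finite := Set.Finite.of_injOn (fun x hx => hgim ⟨x, hx, rfl⟩) hginj hGfin
  have hTcard : (gg '' Tm).ncard = Tm.ncard := hginj.ncard_image
  -- counting
  obtain ⟨hDfin, hDcard⟩ := ncard_le_of_fiber Dm ss Tm hTfin (hSfin.subset hsim)
    (fun x hx x' hx' h => by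
      have e1 := (hss x hx).sub hπ (hss x' hx')
      rw [h, sub_self, sub_self] at e1
      exact e1.inTorus)
  obtain ⟨hJfin, hJcard⟩ := ncard_le_of_fiber Jm rr Dm hDfin (hRfin.subset hrim)
    (fun x hx x' hx' h => by
      have e1 := hrr x hx
      rw [h] at e1
      exact e1.sub_spec hπ (hrr x' hx'))
  have hJ' : m ^ (2 * genusFF K F) ≤ Jm.ncard := by
    refine hJ.trans (le_of_eq ?_)
    have : (Jm : Set (Pic0 K F)) = (Pic0.torsion K F m : Set (Pic0 K F)) := by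
      ext x
      exact mem_torsion'.symm
    rw [this]
    rfl
  have hν : 1 ≤ X.nodes.card := Finset.card_pos.mpr X.nodes_nonempty
  have hgen := genus_eq X hπ
  have hpow : m ^ (2 * genusFF K F) = m ^ (X.nodes.card - 1) *
      (m ^ (2 * genusFF k F₁) * m ^ (2 * genusFF k F₂)) * m ^ (X.nodes.card - 1) := by
    rw [← pow_add, ← pow_add, ← pow_add]
    congr 1
    omega
  have hle : m ^ (X.nodes.card - 1) *
      (m ^ (2 * genusFF k F₁) * m ^ (2 * genusFF k F₂)) * m ^ (X.nodes.card - 1) ≤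
        (rr '' Jm).ncard * (ss '' Dm).ncard * (gg '' Tm).ncard := by
    rw [← hpow, hTcard, mul_assoc]
    exact hJ'.trans (hJcard.trans (Nat.mul_le_mul_left _ hDcard))
  have ha : (rr '' Jm).ncard ≤ m ^ (X.nodes.card - 1) :=
    (Set.ncard_le_ncard hrim hRfin).trans hRcard
  have hb : (ss '' Dm).ncard ≤ m ^ (2 * genusFF k F₁) * m ^ (2 * genusFF k F₂) := by
    rw [← hScard]
    exact Set.ncard_le_ncard hsim hSfin
  have hc : (gg '' Tm).ncard ≤ m ^ (X.nodes.card - 1) :=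
    (Set.ncard_le_ncard hgim hGfin).trans hGcard
  obtain ⟨ea, eb, ec⟩ := eq_of_mul_le ha hb hc (pow_pos hm _)
    (Nat.mul_pos (pow_pos hm _) (pow_pos hm _)) (pow_pos hm _) hle
  have fa : rr '' Jm = resSet X m :=
    Set.eq_of_subset_of_ncard_le hrim (by rw [ea]; exact hRcard) hRfin
  have fb : ss '' Dm = S₁ ×ˢ S₂ :=
    Set.eq_of_subset_of_ncard_le hsim (by rw [eb, hScard]) hSfin
  have fc : gg '' Tm = gamSet X m s₀ :=
    Set.eq_of_subset_of_ncard_le hgim (by rw [ec]; exact hGcard) hGfin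
  refine ⟨fun r hr => ?_, fun y₁ y₂ hy₁ hy₂ => ?_, fun δ hδ => ?_⟩
  · rw [← fa] at hr
    obtain ⟨x, hx, rfl⟩ := hr
    exact ⟨x, hx, hrr x hx⟩
  · have hy : (y₁, y₂) ∈ S₁ ×ˢ S₂ := ⟨mem_torsion'.mpr hy₁, mem_torsion'.mpr hy₂⟩
    rw [← fb] at hy
    obtain ⟨x, hx, hxy⟩ := hy
    have := hss x hx
    rw [hxy] at this
    exact ⟨x, this⟩
  · rw [← fc] at hδ
    obtain ⟨x, hx, rfl⟩ := hδ
    exact ⟨x, hx, hgg3 x hx⟩

/-- **(R1)** Specialisation of the `m`-torsion is onto. -/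
theorem exists_spec_of_torsion (X : NodalDatum K F k F₁ F₂ A π) (hπ : Function.Surjective π)
    (hmk : (m : k) ≠ 0)
    (hJ : m ^ (2 * genusFF K F) ≤ Nat.card (Pic0.torsion K F m))
    (h₁ : Nat.card (Pic0.torsion k F₁ m) = m ^ (2 * genusFF k F₁))
    (h₂ : Nat.card (Pic0.torsion k F₂ m) = m ^ (2 * genusFF k F₂))
    {y₁ : Pic0 k F₁} {y₂ : Pic0 k F₂} (hy₁ : m • y₁ = 0) (hy₂ : m • y₂ = 0) :
    ∃ x : Pic0 K F, m • x = 0 ∧ Spec X m x y₁ y₂ := by
  obtain ⟨s₀, hs₀⟩ := X.nodes_nonempty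
  obtain ⟨x, hx⟩ := (count_main X hπ hmk hJ h₁ h₂ ⟨s₀, hs₀⟩).2.1 y₁ y₂ hy₁ hy₂
  exact ⟨x, hx.torsion.1, hx⟩

/-- **(R2)** Every `μ_m`-valued function on the nodes is a gluing function. -/
theorem exists_gamma_eq (X : NodalDatum K F k F₁ F₂ A π) (hπ : Function.Surjective π)
    (hmk : (m : k) ≠ 0)
    (hJ : m ^ (2 * genusFF K F) ≤ Nat.card (Pic0.torsion K F m))
    (h₁ : Nat.card (Pic0.torsion k F₁ m) = m ^ (2 * genusFF k F₁))
    (h₂ : Nat.card (Pic0.torsion k F₂ m) = m ^ (2 * genusFF k F₂))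
    (δ : Place k F₁ × Place k F₂ → k) (hδ : ∀ s ∈ X.nodes, δ s ^ m = 1) :
    ∃ (D : Divisor.degZero (K := K) (F := F)) (f : F),
      IsRootDiv X m (D : Divisor K F) f (1, 1) ∧ IsGamma X hπ (D : Divisor K F) δ := by
  obtain ⟨s₀, hs₀⟩ := X.nodes_nonempty
  have hm : 0 < m := by
    rcases Nat.eq_zero_or_pos m with h | h
    · subst h
      simp at hmk
    · exact h
  have hne : ∀ s ∈ X.nodes, δ s ≠ 0 := by
    intro s hs h0
    have := hδ s hs
    rw [h0, zero_pow hm.ne'] at this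
    exact zero_ne_one this
  obtain ⟨x, -, D, f, γ, -, H, hγ, hγ1, hγ2⟩ :=
    (count_main X hπ hmk hJ h₁ h₂ ⟨s₀, hs₀⟩).2.2 (fun s => δ s / δ s₀)
      ⟨fun s => by rw [div_pow, hδ s s.2, hδ s₀ hs₀, div_one], div_self (hne s₀ hs₀)⟩
  simp only at hγ1 hγ2
  have hγne : γ s₀ ≠ 0 := by
    intro h0
    rw [h0, zero_pow hm.ne'] at hγ1
    exact zero_ne_one hγ1
  set c : k := δ s₀ / γ s₀ with hc
  have hc0 : c ≠ 0 := div_ne_zero (hne s₀ hs₀) hγne
  have hcm : c ^ m = 1 := by rw [hc, div_pow, hδ s₀ hs₀, hγ1, div_one]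
  -- a function reducing to `(1, c)`
  obtain ⟨v, hv⟩ := X.approx (1, algebraMap k F₂ c)
  have hc0' : algebraMap k F₂ c ≠ 0 := by simpa using hc0
  have hv0 : v ≠ 0 := RedDatum.ne_zero_of_red hv.1 one_ne_zero
  have H3 : IsRootDiv X m (divOf v) (v ^ m) ((1, algebraMap k F₂ c) ^ m) :=
    IsRootDiv.of_pow H.pos hv one_ne_zero hc0' (fun P => divOf_apply v P)
  have hpow : ((1, algebraMap k F₂ c) : F₁ × F₂) ^ m = (1, 1) := by
    rw [Prod.pow_mk, one_pow, ← map_pow, hcm, map_one]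
  rw [hpow] at H3
  obtain ⟨γ₃, -, hγ₃⟩ := H3.exists_gamma hπ
  have H4 : IsRootDiv X m ((D : Divisor K F) + divOf v) (f * v ^ m) (1, 1) := by
    have := H.mul H3
    simpa using this
  obtain ⟨γ₄, -, hγ₄⟩ := H4.exists_gamma hπ
  have hdeg : divOf (K := K) v ∈ Divisor.degZero (K := K) (F := F) :=
    Divisor.mem_degZero.mpr (degree_divOf v)
  refine ⟨D + ⟨divOf v, hdeg⟩, f * v ^ m, H4, ?_⟩
  refine IsGamma.congr (γ := γ₄) hγ₄ fun s hs => ?_
  have e3 : γ₃ s = c := hγ₃.of_principal hv (fun P => divOf_apply v P) hs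
  have hds := hne s₀ hs₀
  rw [hγ.mul hγ₃ hγ₄ hs, e3, hγ2 ⟨s, hs⟩, hc]
  field_simp

end Main

end Fermat.Agent.DR
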