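import Mathlib

set_option autoImplicit false

/-!
# Pivot lemma

Over a valuation ring `A` of `K`, a `K`-linear map `T : K^a → K^b` attains its minimum (for the
sup norm) on every residue class `x + 𝔪^a` (`x ∈ A^a`).
-/

noncomputable section

namespace Fermat.Agent.DR

variable {K : Type*} [Field K] (A : ValuationSubring K)

theorem val_sum_le {ι : Type*} (s : Finset ι) (f : ι → K) (c : K)
    (h : ∀ i ∈ s, A.valuation (f i) ≤ A.valuation c) :
    A.valuation (∑ i ∈ s, f i) ≤ A.valuation c := by
  classical
  induction s using Finset.induction_on with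
  | empty => simp
  | insert a s ha ih =>
    rw [Finset.sum_insert ha]
    exact (A.valuation.map_add _ _).trans (max_le (h a (Finset.mem_insert_self a s))
      (ih fun i hi => h i (Finset.mem_insert_of_mem hi)))

theorem val_sum_lt {ι : Type*} (s : Finset ι) (f : ι → K) (c : K) (hc : c ≠ 0)
    (h : ∀ i ∈ s, A.valuation (f i) < A.valuation c) :
    A.valuation (∑ i ∈ s, f i) < A.valuation c := by
  classical
  induction s using Finset.induction_on with
  | empty =>
    simp only [Finset.sum_empty, map_zero]
    exact lt_of_le_of_ne zero_le (Ne.symm ((Valuation.ne_zero_iff _).mpr hc))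
  | insert a s ha ih =>
    rw [Finset.sum_insert ha]
    exact lt_of_le_of_lt (A.valuation.map_add _ _) (max_lt (h a (Finset.mem_insert_self a s))
      (ih fun i hi => h i (Finset.mem_insert_of_mem hi)))

/-- The minimum of the sup norm of `T y` for `y` in a residue class. -/
theorem exists_min (b : ℕ) : ∀ (a : ℕ) (T : (Fin a → K) →ₗ[K] (Fin b → K)) (x : Fin a → K)
    (_ : ∀ i, x i ∈ A), ∃ y : Fin a → K, (∀ i, A.valuation (y i - x i) < 1) ∧
      ∃ t : K, (∀ j, A.valuation (T y j) ≤ A.valuation t) ∧
        (t ≠ 0 → ∀ y' : Fin a → K, (∀ i, A.valuation (y' i - x i) < 1) →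
          ∃ j, A.valuation t ≤ A.valuation (T y' j)) := by
  classical
  intro a
  induction a with
  | zero =>
    intro T x _
    refine ⟨x, fun i => i.elim0, 0, fun j => ?_, fun h => absurd rfl h⟩
    have : x = 0 := Subsingleton.elim _ _
    rw [this, map_zero]
    simp
  | succ a ih =>
    intro T x hx
    by_cases hT : T = 0
    · refine ⟨x, fun i => by simp, 0, fun j => by simp [hT], fun h => absurd rfl h⟩
    -- a pivot
    have hne : ∃ p : Fin b × Fin (a + 1), T (Pi.single p.2 1) p.1 ≠ 0 := by
      by_contra hcon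
      push Not at hcon
      apply hT
      apply LinearMap.pi_ext'
      intro i
      apply LinearMap.ext_ring
      ext j
      exact hcon (j, i)
    obtain ⟨p₀, hp₀⟩ := hne
    obtain ⟨p, -, hmax⟩ := (Finset.univ : Finset (Fin b × Fin (a + 1))).exists_max_image
      (fun p => A.valuation (T (Pi.single p.2 1) p.1)) ⟨p₀, Finset.mem_univ _⟩
    obtain ⟨j₀, i₀⟩ := p
    set c : K := T (Pi.single i₀ 1) j₀ with hc
    have hmax' : ∀ j i, A.valuation (T (Pi.single i 1) j) ≤ A.valuation c := fun j i =>
      hmax (j, i) (Finset.mem_univ _)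
    have hc0 : c ≠ 0 := by
      intro h0
      have h1 := hmax' p₀.1 p₀.2
      rw [h0, map_zero, le_zero_iff, Valuation.zero_iff] at h1
      exact hp₀ h1
    have hvc : A.valuation c ≠ 0 := (Valuation.ne_zero_iff _).mpr hc0
    have hTsum : ∀ (y : Fin (a + 1) → K) (j : Fin b),
        T y j = ∑ i, y i * T (Pi.single i 1) j := by
      intro y j
      conv_lhs => rw [← Finset.univ_sum_single y]
      rw [map_sum, Finset.sum_apply]
      refine Finset.sum_congr rfl fun i _ => ?_
      have : (Pi.single i (y i) : Fin (a + 1) → K) =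
          y i • (Pi.single i (1 : K) : Fin (a + 1) → K) := by
        ext l
        simp [Pi.single_apply]
      rw [this, map_smul]
      rfl
    have hTle : ∀ (y : Fin (a + 1) → K) (e : K), (∀ i, A.valuation (y i) ≤ A.valuation e) →
        ∀ j, A.valuation (T y j) ≤ A.valuation (e * c) := by
      intro y e hy j
      rw [hTsum]
      apply val_sum_le
      intro i _
      rw [map_mul, map_mul]
      exact mul_le_mul' (hy i) (hmax' j i)
    have hTlt : ∀ (y : Fin (a + 1) → K), (∀ i, A.valuation (y i) < 1) →
        ∀ j, A.valuation (T y j) < A.valuation c := by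
      intro y hy j
      rw [hTsum]
      apply val_sum_lt A _ _ _ hc0
      intro i _
      rw [map_mul]
      rcases eq_or_ne (A.valuation (T (Pi.single i 1) j)) 0 with h0 | h0
      · rw [h0, mul_zero]
        exact lt_of_le_of_ne zero_le (Ne.symm hvc)
      · calc A.valuation (y i) * A.valuation (T (Pi.single i 1) j)
            < 1 * A.valuation (T (Pi.single i 1) j) := by
              rw [mul_comm, mul_comm (1 : _)]
              exact (mul_lt_mul_iff_right₀ (lt_of_le_of_ne zero_le (Ne.symm h0))).mpr (hy i)
          _ ≤ A.valuation c := by rw [one_mul]; exact hmax' j i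
    -- the section of the hyperplane `T y j₀ = 0`
    let E₀ : (Fin a → K) →ₗ[K] (Fin (a + 1) → K) :=
      { toFun := fun z => i₀.insertNth (0 : K) z
        map_add' := by
          intro z z'
          ext l
          rcases Fin.eq_self_or_eq_succAbove i₀ l with rfl | ⟨m, rfl⟩
          · simp
          · simp
        map_smul' := by
          intro r z
          ext l
          rcases Fin.eq_self_or_eq_succAbove i₀ l with rfl | ⟨m, rfl⟩
          · simp
          · simp }
    let S : (Fin a → K) →ₗ[K] (Fin (a + 1) → K) :=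
      E₀ - (LinearMap.single K (fun _ : Fin (a + 1) => K) i₀) ∘ₗ
        (c⁻¹ • ((LinearMap.proj j₀ : (Fin b → K) →ₗ[K] K) ∘ₗ T ∘ₗ E₀))
    have hS : ∀ z, S z = E₀ z - Pi.single i₀ (c⁻¹ * T (E₀ z) j₀) := fun z => rfl
    have hSj : ∀ z, T (S z) j₀ = 0 := by
      intro z
      rw [hS, map_sub, Pi.sub_apply]
      have h1 : T (Pi.single i₀ (c⁻¹ * T (E₀ z) j₀)) j₀ = (c⁻¹ * T (E₀ z) j₀) * c := by
        have : (Pi.single i₀ (c⁻¹ * T (E₀ z) j₀) : Fin (a + 1) → K) =
            (c⁻¹ * T (E₀ z) j₀) • (Pi.single i₀ (1 : K) : Fin (a + 1) → K) := by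
          ext l
          simp [Pi.single_apply]
        rw [this, map_smul, Pi.smul_apply, smul_eq_mul]
      rw [h1]
      field_simp
      ring
    -- decomposition
    have hdec : ∀ y : Fin (a + 1) → K,
        y = S (fun m => y (i₀.succAbove m)) + Pi.single i₀ (c⁻¹ * T y j₀) := by
      intro y
      have h2 : y = E₀ (fun m => y (i₀.succAbove m)) + Pi.single i₀ (y i₀) := by
        ext l
        rcases Fin.eq_self_or_eq_succAbove i₀ l with rfl | ⟨m, rfl⟩
        · simp [E₀]
        · simp [E₀]
      have h3 : T y j₀ = T (E₀ (fun m => y (i₀.succAbove m))) j₀ + y i₀ * c := by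
        conv_lhs => rw [h2]
        rw [map_add, Pi.add_apply]
        have : (Pi.single i₀ (y i₀) : Fin (a + 1) → K) =
            (y i₀) • (Pi.single i₀ (1 : K) : Fin (a + 1) → K) := by
          ext l
          simp [Pi.single_apply]
        rw [this, map_smul, Pi.smul_apply, smul_eq_mul]
      conv_lhs => rw [h2]
      rw [hS, h3, sub_add, ← Pi.single_sub]
      rw [show c⁻¹ * T (E₀ fun m => y (i₀.succAbove m)) j₀ -
        c⁻¹ * (T (E₀ fun m => y (i₀.succAbove m)) j₀ + y i₀ * c) = - y i₀ by
          field_simp; ring]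
      rw [Pi.single_neg, sub_neg_eq_add]
    have hTdec : ∀ (y : Fin (a + 1) → K) (j : Fin b),
        T y j = (T ∘ₗ S) (fun m => y (i₀.succAbove m)) j +
          (c⁻¹ * T y j₀) * T (Pi.single i₀ 1) j := by
      intro y j
      conv_lhs => rw [hdec y]
      rw [map_add, Pi.add_apply]
      have : (Pi.single i₀ (c⁻¹ * T y j₀) : Fin (a + 1) → K) =
          (c⁻¹ * T y j₀) • (Pi.single i₀ (1 : K) : Fin (a + 1) → K) := by
        ext l
        simp [Pi.single_apply]
      rw [this, map_smul, Pi.smul_apply, smul_eq_mul]
      rfl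
    -- induction
    obtain ⟨z, hz, t, ht, htmin⟩ := ih (T ∘ₗ S) (fun m => x (i₀.succAbove m))
      (fun m => hx _)
    set ξx : K := c⁻¹ * T x j₀ with hξx
    have hξxA : A.valuation ξx ≤ 1 := by
      have h1 := hTle x 1 (fun i => by
        rw [map_one, A.valuation_le_one_iff]; exact hx i) j₀
      rw [one_mul] at h1
      rw [hξx, map_mul, map_inv₀]
      calc (A.valuation c)⁻¹ * A.valuation (T x j₀) ≤ (A.valuation c)⁻¹ * A.valuation c := by
            gcongr
        _ = 1 := inv_mul_cancel₀ hvc
    set ξ : K := if A.valuation ξx < 1 then 0 else ξx with hξ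
    have hξ1 : A.valuation (ξ - ξx) < 1 := by
      rw [hξ]
      split_ifs with h
      · rw [zero_sub, Valuation.map_neg]
        exact h
      · rw [sub_self, map_zero]
        exact zero_lt_one
    have hξ0 : ξ ≠ 0 → A.valuation ξx = 1 ∧ ξ = ξx := by
      intro h
      rw [hξ] at h ⊢
      split_ifs at h ⊢ with h'
      · exact absurd rfl h
      · exact ⟨le_antisymm hξxA (not_lt.mp h'), rfl⟩
    let y : Fin (a + 1) → K := S z + Pi.single i₀ ξ
    have hySz : (fun m => y (i₀.succAbove m)) = z := by
      ext m
      simp [y, hS, E₀]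
    have hyξ : c⁻¹ * T y j₀ = ξ := by
      have h1 : T y j₀ = ξ * c := by
        have h2 : y = S z + Pi.single i₀ ξ := rfl
        rw [h2, map_add, Pi.add_apply, hSj, zero_add]
        have : (Pi.single i₀ ξ : Fin (a + 1) → K) =
            ξ • (Pi.single i₀ (1 : K) : Fin (a + 1) → K) := by
          ext l
          simp [Pi.single_apply]
        rw [this, map_smul, Pi.smul_apply, smul_eq_mul]
      rw [h1]
      field_simp
    have hdiff : ∀ y' : Fin (a + 1) → K, (∀ i, A.valuation (y' i - x i) < 1) →
        A.valuation (c⁻¹ * T y' j₀ - ξx) < 1 := by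
      intro y' hy'
      have h1 := hTlt (y' - x) hy' j₀
      rw [hξx, ← mul_sub, map_mul, map_inv₀]
      rw [map_sub, Pi.sub_apply] at h1
      calc (A.valuation c)⁻¹ * A.valuation (T y' j₀ - T x j₀)
          < (A.valuation c)⁻¹ * A.valuation c := by
            exact (mul_lt_mul_iff_right₀ (lt_of_le_of_ne zero_le
              (Ne.symm (inv_ne_zero hvc)))).mpr h1
        _ = 1 := inv_mul_cancel₀ hvc
    refine ⟨y, ?_, if A.valuation (ξ * c) ≤ A.valuation t then t else ξ * c, ?_, ?_⟩
    · -- congruence
      have h1 : ∀ w : Fin a → K, (∀ m, A.valuation (w m) < 1) → ∀ i, A.valuation (S w i) < 1 := by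
        intro w hw i
        have hE : ∀ l, A.valuation (E₀ w l) < 1 := by
          intro l
          rcases Fin.eq_self_or_eq_succAbove i₀ l with rfl | ⟨m, rfl⟩
          · simp [E₀]
          · simpa [E₀] using hw m
        rw [hS, Pi.sub_apply]
        refine lt_of_le_of_lt (A.valuation.map_sub _ _) (max_lt (hE i) ?_)
        rw [Pi.single_apply]
        split_ifs
        · rw [map_mul, map_inv₀]
          calc (A.valuation c)⁻¹ * A.valuation (T (E₀ w) j₀)
              < (A.valuation c)⁻¹ * A.valuation c :=
                (mul_lt_mul_iff_right₀ (lt_of_le_of_ne zero_le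
                  (Ne.symm (inv_ne_zero hvc)))).mpr (hTlt _ hE j₀)
            _ = 1 := inv_mul_cancel₀ hvc
        · simp
      intro i
      have h2 : y - x = S (z - fun m => x (i₀.succAbove m)) + Pi.single i₀ (ξ - ξx) := by
        have h3 := hdec x
        rw [← hξx] at h3
        rw [map_sub, Pi.single_sub]
        conv_lhs => rw [h3]
        show S z + Pi.single i₀ ξ - _ = _
        abel
      have h4 : y i - x i = S (z - fun m => x (i₀.succAbove m)) i +
          (Pi.single i₀ (ξ - ξx) : Fin (a + 1) → K) i := by
        rw [← Pi.sub_apply, h2, Pi.add_apply]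
      rw [h4]
      refine lt_of_le_of_lt (A.valuation.map_add _ _) (max_lt (h1 _ (fun m => hz m) i) ?_)
      rw [Pi.single_apply]
      split_ifs
      · exact hξ1
      · simp
    · -- upper bound
      intro j
      rw [hTdec y j, hySz, hyξ]
      refine (A.valuation.map_add _ _).trans (max_le ?_ ?_)
      · refine (ht j).trans ?_
        split_ifs with h
        · exact le_rfl
        · exact (not_le.mp h).le
      · have h5 : A.valuation (ξ * T (Pi.single i₀ 1) j) ≤ A.valuation (ξ * c) := by
          rw [map_mul, map_mul]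
          gcongr
          exact hmax' j i₀
        refine h5.trans ?_
        split_ifs with h
        · exact h
        · exact le_rfl
    · -- lower bound
      intro ht0 y' hy'
      have hz' : ∀ m, A.valuation (y' (i₀.succAbove m) - x (i₀.succAbove m)) < 1 := fun m => hy' _
      have hT0 : A.valuation (T y' j₀) = A.valuation (c⁻¹ * T y' j₀) * A.valuation c := by
        rw [← map_mul]
        congr 1
        field_simp
      split_ifs with h
      · rw [if_pos h] at ht0
        obtain ⟨j, hj⟩ := htmin ht0 _ hz'
        by_cases h6 : A.valuation t ≤ A.valuation (T y' j₀)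
        · exact ⟨j₀, h6⟩
        · refine ⟨j, ?_⟩
          rw [hTdec y' j]
          have h7 : A.valuation ((c⁻¹ * T y' j₀) * T (Pi.single i₀ 1) j) <
              A.valuation ((T ∘ₗ S) (fun m => y' (i₀.succAbove m)) j) := by
            refine lt_of_le_of_lt ?_ (lt_of_lt_of_le (not_le.mp h6) hj)
            rw [hT0, map_mul]
            gcongr
            exact hmax' j i₀
          rw [A.valuation.map_add_eq_of_lt_left h7]
          exact hj
      · rw [if_neg h] at ht0
        have hξne : ξ ≠ 0 := fun h0 => ht0 (by rw [h0, zero_mul])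
        obtain ⟨h8, h9⟩ := hξ0 hξne
        refine ⟨j₀, ?_⟩
        rw [hT0, map_mul]
        gcongr
        rw [h9, h8]
        have h10 := hdiff y' hy'
        have h11 : A.valuation (c⁻¹ * T y' j₀) = 1 := by
          have h12 : c⁻¹ * T y' j₀ = ξx + (c⁻¹ * T y' j₀ - ξx) := by ring
          rw [h12, A.valuation.map_add_eq_of_lt_left (by rw [h8]; exact h10), h8]
        rw [h11]

end Fermat.Agent.DR
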