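import Fermat.Agent.DR.Nodal.Basic
import Fermat.Agent.DR.Nodal.Pivot

set_option autoImplicit false
set_option linter.unusedSectionVars false

/-!
# Orthonormal bases of subspaces and minimisation on residue classes
-/

noncomputable section

open AlgebraicCurve Fermat.Agent.RR Fermat.Agent.JRED WithZero

namespace Fermat.Agent.DR

section Min

variable {K : Type*} [Field K] (A : ValuationSubring K)

theorem exists_min_basis {ι κ W Y : Type*} [Fintype ι] [Fintype κ] [AddCommGroup W] [Module K W]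
    [AddCommGroup Y] [Module K Y] (bW : Module.Basis ι K W) (bY : Module.Basis κ K Y)
    (T : W →ₗ[K] Y) (w₀ : W) (hw₀ : ∀ i, bW.repr w₀ i ∈ A) :
    ∃ w : W, (∀ i, A.valuation (bW.repr w i - bW.repr w₀ i) < 1) ∧
      ∃ t : K, (∀ j, A.valuation (bY.repr (T w) j) ≤ A.valuation t) ∧
        (t ≠ 0 → ∀ w' : W, (∀ i, A.valuation (bW.repr w' i - bW.repr w₀ i) < 1) →
          ∃ j, A.valuation t ≤ A.valuation (bY.repr (T w') j)) := by
  classical
  let eι := Fintype.equivFin ι
  let eκ := Fintype.equivFin κ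
  let bW' := bW.reindex eι
  let bY' := bY.reindex eκ
  let T' : (Fin (Fintype.card ι) → K) →ₗ[K] (Fin (Fintype.card κ) → K) :=
    bY'.equivFun.toLinearMap ∘ₗ T ∘ₗ bW'.equivFun.symm.toLinearMap
  obtain ⟨y, hy, t, ht, hmin⟩ := exists_min A _ _ T' (bW'.equivFun w₀) (fun i => by
    simpa [bW'] using hw₀ (eι.symm i))
  have hrepr : ∀ w i, bW.repr w i = bW'.equivFun w (eι i) := fun w i => by simp [bW']
  refine ⟨bW'.equivFun.symm y, fun i => ?_, t, fun j => ?_, fun ht0 w' hw' => ?_⟩
  · rw [hrepr, hrepr, LinearEquiv.apply_symm_apply]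
    exact hy (eι i)
  · have h1 := ht (eκ j)
    simpa [T', bY'] using h1
  · obtain ⟨j, hj⟩ := hmin ht0 (bW'.equivFun w') (fun i => by
      simpa [bW'] using hw' (eι.symm i))
    refine ⟨eκ.symm j, ?_⟩
    have h1 : T' (bW'.equivFun w') j = bY.repr (T w') (eκ.symm j) := by
      simp only [T', LinearMap.comp_apply, LinearEquiv.coe_coe, LinearEquiv.symm_apply_apply]
      simp [bY']
    rw [← h1]
    exact hj

end Min

section OrthoBasis

variable {K F k F₁ F₂ : Type*} [Field K] [Field F] [Algebra K F] [Field k] [Field F₁] [Field F₂]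
  [Algebra k F₁] [Algebra k F₂] {A : ValuationSubring K} {π : A →+* k}

/-- An orthonormal basis of `W`. -/
structure OBasis (R₁ : RedDatum K F k F₁ A π) (R₂ : RedDatum K F k F₂ A π)
    (W : Submodule K F) where
  n : ℕ
  bas : Module.Basis (Fin n) K W
  u : Fin n → F₁ × F₂
  red : ∀ i, Red₂ R₁ R₂ (bas i : F) (u i)
  li : LinearIndependent k u

variable {R₁ : RedDatum K F k F₁ A π} {R₂ : RedDatum K F k F₂ A π} {W : Submodule K F}

theorem HasOrthoPair.nonempty (hπ : Function.Surjective π) (h : HasOrthoPair R₁ R₂ W) :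
    Nonempty (OBasis R₁ R₂ W) := by
  obtain ⟨n, b, u, hb, hli, rfl⟩ := h
  have h1 := ortho_linearIndependent hπ hb hli
  refine ⟨⟨n, Module.Basis.span h1, u, fun i => ?_, hli⟩⟩
  rw [Module.Basis.span_apply]
  exact hb i

variable (B : OBasis R₁ R₂ W)

namespace OBasis

theorem sum_eq (z : W) : ∑ i, B.bas.repr z i • (B.bas i : F) = z := by
  conv_rhs => rw [← B.bas.sum_repr z]
  rw [Submodule.coe_sum]
  rfl

theorem repr_mem (hπ : Function.Surjective π) {z : W} {v : F₁ × F₂} (h : Red₂ R₁ R₂ (z : F) v)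
    (i : Fin B.n) : B.bas.repr z i ∈ A := by
  rw [← B.sum_eq z] at h
  exact ortho_coeff_mem hπ B.red B.li h i (Finset.mem_univ i)

theorem red_sum {z : W} (hz : ∀ i, B.bas.repr z i ∈ A) :
    Red₂ R₁ R₂ (z : F) (∑ i, π ⟨B.bas.repr z i, hz i⟩ • B.u i) := by
  have := ortho_red_sum B.red Finset.univ (fun i => B.bas.repr z i) hz
  rwa [B.sum_eq z] at this

theorem red_zero_iff (hπ : Function.Surjective π) {z : W} :
    Red₂ R₁ R₂ (z : F) 0 ↔ ∀ i, A.valuation (B.bas.repr z i) < 1 := by
  have hval : ∀ a : A, A.valuation (a : K) < 1 ↔ π a = 0 := by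
    intro a
    rw [← A.valuation_lt_one_iff a, IsLocalRing.mem_maximalIdeal, mem_nonunits_iff]
    constructor
    · exact res_eq_zero_of_not_isUnit hπ
    · intro h hu
      exact (hu.map π).ne_zero h
  constructor
  · intro h i
    have hA := B.repr_mem hπ h
    have h1 := Red₂.unique h (B.red_sum hA)
    have h2 := (Fintype.linearIndependent_iff.mp B.li) (fun i => π ⟨B.bas.repr z i, hA i⟩)
      h1.symm i
    exact (hval ⟨_, hA i⟩).mpr h2
  · intro h
    have hA : ∀ i, B.bas.repr z i ∈ A := fun i => by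
      rw [← A.valuation_le_one_iff]
      exact (h i).le
    have h1 := B.red_sum hA
    have h2 : ∑ i, π ⟨B.bas.repr z i, hA i⟩ • B.u i = 0 :=
      Finset.sum_eq_zero fun i _ => by rw [(hval ⟨_, hA i⟩).mp (h i), zero_smul]
    rwa [h2] at h1

end OBasis

end OrthoBasis

end Fermat.Agent.DR
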