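import Fermat.Agent.DR.Nodal.Parity
import Fermat.Agent.DR.Nodal.Ortho

set_option autoImplicit false
set_option linter.unusedSectionVars false

/-!
# The gluing function `γ` of a torsion class in the toric part

If `div f = m D` and `f` reduces to `(1, 1)`, the reductions of sections of `nE - D` are exactly the
pairs `(v₁, v₂)` with `v₂(P₂(s)) = γ_s v₁(P₁(s))` at all nodes `s`.
-/

noncomputable section

open AlgebraicCurve Fermat.Agent.RR Fermat.Agent.JRED WithZero

namespace Fermat.Agent.DR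

variable {K F k F₁ F₂ : Type*} [Field K] [Field F] [Algebra K F] [Field k] [Field F₁] [Field F₂]
  [Algebra k F₁] [Algebra k F₂] [IsAlgClosed K] [IsAlgClosed k] [FunctionField K F]
  [FunctionField k F₁] [FunctionField k F₂] {A : ValuationSubring K} {π : A →+* k}

variable (X : NodalDatum K F k F₁ F₂ A π)

/-- Reductions of integral sections of `nE - D`. -/
abbrev redL (hπ : Function.Surjective π) (D : Divisor K F) (n : ℕ) : Submodule k (F₁ × F₂) :=
  redPair X.R₁ X.R₂ hπ (riemannRochSpace (n • polesOf (K := K) X.x - D))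

/-- Pairs of functions glued through `γ`. -/
structure Glued (γ : Place k F₁ × Place k F₂ → k) (n : ℕ) (v : F₁ × F₂) : Prop where
  mem₁ : v.1 ∈ riemannRochSpace (n • polesOf (K := k) X.x₁)
  mem₂ : v.2 ∈ riemannRochSpace (n • polesOf (K := k) X.x₂)
  node : ∀ s ∈ X.nodes, ∃ c : k, Val s.1 v.1 c ∧ Val s.2 v.2 (γ s * c)

/-- `γ` is the gluing function of the divisor `D`. -/
structure IsGamma (hπ : Function.Surjective π) (D : Divisor K F)
    (γ : Place k F₁ × Place k F₂ → k) : Prop where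
  eq_glued : ∃ N : ℕ, ∀ n ≥ N, ∀ v, v ∈ redL X hπ D n ↔ Glued X γ n v
  exists_one : ∃ (n : ℕ) (w : F₂), ((1 : F₁), w) ∈ redL X hπ D n

variable {X} {m : ℕ} {D : Divisor K F} {f : F}

theorem mem_sub_nodeDiv₁ {n : ℕ} {v : F₁} (hv : v ∈ riemannRochSpace (n • polesOf (K := k) X.x₁)) :
    v ∈ riemannRochSpace (n • polesOf (K := k) X.x₁ - nodeDiv Prod.fst X.nodes) ↔
      ∀ s ∈ X.nodes, Val s.1 v 0 := by
  classical
  rw [mem_riemannRochSpace_iff] at hv ⊢
  constructor
  · intro h s hs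
    rw [Val.zero_iff]
    rcases h s.1 with h1 | h1
    · exact Or.inl h1
    · right
      rw [Finsupp.sub_apply, Finsupp.smul_apply, poles_node₁ hs,
        nodeDiv_apply_of_mem _ _ X.injOn_fst hs, smul_zero] at h1
      linarith
  · intro h P
    rcases hv P with h1 | h1
    · exact Or.inl h1
    · by_cases hP : ∃ s ∈ X.nodes, s.1 = P
      · obtain ⟨s, hs, rfl⟩ := hP
        rcases Val.zero_iff.mp (h s hs) with h2 | h2
        · exact Or.inl h2
        · right
          rw [Finsupp.sub_apply, Finsupp.smul_apply, poles_node₁ hs,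
            nodeDiv_apply_of_mem _ _ X.injOn_fst hs, smul_zero]
          linarith
      · push Not at hP
        right
        rw [Finsupp.sub_apply, nodeDiv_apply_of_notMem _ _ hP, sub_zero]
        exact h1

theorem mem_sub_nodeDiv₂ {n : ℕ} {v : F₂} (hv : v ∈ riemannRochSpace (n • polesOf (K := k) X.x₂)) :
    v ∈ riemannRochSpace (n • polesOf (K := k) X.x₂ - nodeDiv Prod.snd X.nodes) ↔
      ∀ s ∈ X.nodes, Val s.2 v 0 := by
  classical
  rw [mem_riemannRochSpace_iff] at hv ⊢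
  constructor
  · intro h s hs
    rw [Val.zero_iff]
    rcases h s.2 with h1 | h1
    · exact Or.inl h1
    · right
      rw [Finsupp.sub_apply, Finsupp.smul_apply, poles_node₂ hs,
        nodeDiv_apply_of_mem _ _ X.injOn_snd hs, smul_zero] at h1
      linarith
  · intro h P
    rcases hv P with h1 | h1
    · exact Or.inl h1
    · by_cases hP : ∃ s ∈ X.nodes, s.2 = P
      · obtain ⟨s, hs, rfl⟩ := hP
        rcases Val.zero_iff.mp (h s hs) with h2 | h2
        · exact Or.inl h2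
        · right
          rw [Finsupp.sub_apply, Finsupp.smul_apply, poles_node₂ hs,
            nodeDiv_apply_of_mem _ _ X.injOn_snd hs, smul_zero]
          linarith
      · push Not at hP
        right
        rw [Finsupp.sub_apply, nodeDiv_apply_of_notMem _ _ hP, sub_zero]
        exact h1

theorem ord_nonneg_node₁ {n : ℕ} {v : F₁}
    (hv : v ∈ riemannRochSpace (n • polesOf (K := k) X.x₁)) {s : Place k F₁ × Place k F₂}
    (hs : s ∈ X.nodes) : ∃ c : k, Val s.1 v c := by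
  apply Val.exists_of_ord
  rcases mem_riemannRochSpace_iff.mp hv s.1 with h | h
  · simp [h]
  · rwa [Finsupp.smul_apply, poles_node₁ hs, smul_zero, neg_zero] at h

theorem ord_nonneg_node₂ {n : ℕ} {v : F₂}
    (hv : v ∈ riemannRochSpace (n • polesOf (K := k) X.x₂)) {s : Place k F₁ × Place k F₂}
    (hs : s ∈ X.nodes) : ∃ c : k, Val s.2 v c := by
  apply Val.exists_of_ord
  rcases mem_riemannRochSpace_iff.mp hv s.2 with h | h
  · simp [h]
  · rwa [Finsupp.smul_apply, poles_node₂ hs, smul_zero, neg_zero] at h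

theorem redL_mono (hπ : Function.Surjective π) (D : Divisor K F) {n n' : ℕ} (h : n ≤ n') :
    redL X hπ D n ≤ redL X hπ D n' := by
  apply redPair_mono
  apply riemannRochSpace_mono
  apply sub_le_sub_right
  intro P
  rw [Finsupp.smul_apply, Finsupp.smul_apply, nsmul_eq_mul, nsmul_eq_mul]
  have h1 := polesOf_nonneg (K := K) X.x P
  rw [Finsupp.coe_zero, Pi.zero_apply] at h1
  have h2 : (n : ℤ) ≤ n' := by exact_mod_cast h
  exact mul_le_mul_of_nonneg_right h2 h1

section Exists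

variable (H : IsRootDiv X m D f (1, 1))
include H

theorem IsRootDiv.mem_L₁ (hπ : Function.Surjective π) {n : ℕ} {v : F₁ × F₂}
    (hv : v ∈ redL X hπ D n) : v.1 ∈ riemannRochSpace (n • polesOf (K := k) X.x₁) := by
  obtain ⟨h, hh, hv⟩ := hv
  rw [mem_riemannRochSpace_iff]
  intro P
  rcases H.bound₁ hπ hh hv P with h1 | h1
  · exact Or.inl h1
  · right
    rw [P.ord_one, ceilD_zero, zero_sub] at h1
    rwa [Finsupp.smul_apply, nsmul_eq_mul]

theorem IsRootDiv.mem_L₂ (hπ : Function.Surjective π) {n : ℕ} {v : F₁ × F₂}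
    (hv : v ∈ redL X hπ D n) : v.2 ∈ riemannRochSpace (n • polesOf (K := k) X.x₂) := by
  obtain ⟨h, hh, hv⟩ := hv
  rw [mem_riemannRochSpace_iff]
  intro P
  rcases H.bound₂ hπ hh hv P with h1 | h1
  · exact Or.inl h1
  · right
    rw [P.ord_one, ceilD_zero, zero_sub] at h1
    rwa [Finsupp.smul_apply, nsmul_eq_mul]

theorem IsRootDiv.val_zero_iff (hπ : Function.Surjective π) {n : ℕ} {v : F₁ × F₂}
    (hv : v ∈ redL X hπ D n) {s : Place k F₁ × Place k F₂} (hs : s ∈ X.nodes) :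
    Val s.1 v.1 0 ↔ Val s.2 v.2 0 := by
  obtain ⟨h, hh, hv⟩ := hv
  have h1 := H.node hπ hh hv hs
  simp only [Place.ord_one] at h1
  have hm : (0 : ℤ) < m := by exact_mod_cast H.pos
  rw [Val.zero_iff, Val.zero_iff]
  constructor
  · intro h2
    have h3 := h1.mp (h2.imp id fun h => mul_pos hm h)
    exact h3.imp id fun h => (pos_iff_pos_of_mul_pos h).mp hm
  · intro h2
    have h3 := h1.mpr (h2.imp id fun h => mul_pos hm h)
    exact h3.imp id fun h => (pos_iff_pos_of_mul_pos h).mp hm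

/-- Everything vanishing at the nodes is attained, and the first projection is onto. -/
theorem IsRootDiv.exists_bound (hπ : Function.Surjective π) : ∃ N : ℕ, ∀ n ≥ N,
    ((riemannRochSpace (n • polesOf (K := k) X.x₁ - nodeDiv Prod.fst X.nodes)).prod
      (riemannRochSpace (n • polesOf (K := k) X.x₂ - nodeDiv Prod.snd X.nodes)) ≤
        redL X hπ D n) ∧
    ∀ v₁ ∈ riemannRochSpace (n • polesOf (K := k) X.x₁), ∃ v₂, (v₁, v₂) ∈ redL X hπ D n := by
  set E := polesOf (K := K) X.x with hE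
  set E₁ := polesOf (K := k) X.x₁ with hE₁
  set E₂ := polesOf (K := k) X.x₂ with hE₂
  have he₁ : 1 ≤ Divisor.degree E₁ := polesOf_pos_of_transcendental X.transcendental₁
  have he₂ : 1 ≤ Divisor.degree E₂ := polesOf_pos_of_transcendental X.transcendental₂
  obtain ⟨n₁, hn₁⟩ := exists_nsmul_gt he₁ (2 * (genusFF k F₁ : ℤ) - 2 + X.nodes.card)
  obtain ⟨n₂, hn₂⟩ := exists_nsmul_gt he₂ (2 * (genusFF k F₂ : ℤ) - 2 + X.nodes.card)
  refine ⟨max n₁ n₂, fun n hn => ?_⟩
  have hb₁ := hn₁ n ((le_max_left _ _).trans hn)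
  have hb₂ := hn₂ n ((le_max_right _ _).trans hn)
  set V := redL X hπ D n with hV
  have hfinV : Module.Finite k V := (X.ortho _ inferInstance).finite_redPair hπ
  have hVrank : Module.finrank k V = Module.finrank K (riemannRochSpace (n • E - D)) :=
    (X.ortho _ inferInstance).finrank_redPair hπ
  have hge := finrank_riemannRochSpace_ge (n • E - D)
  rw [map_sub, map_nsmul, H.degree, sub_zero, nsmul_eq_mul, X.degree_eq, ← hVrank] at hge
  set L₁ := riemannRochSpace (n • E₁) with hL₁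
  set L₂ := riemannRochSpace (n • E₂) with hL₂
  set L₁' := riemannRochSpace (n • E₁ - nodeDiv Prod.fst X.nodes) with hL₁'
  set L₂' := riemannRochSpace (n • E₂ - nodeDiv Prod.snd X.nodes) with hL₂'
  have hle₁ : L₁' ≤ L₁ := riemannRochSpace_mono (sub_le_self _ (nodeDiv_nonneg _ _))
  have hV₁ : V ≤ L₁.comap (LinearMap.fst k F₁ F₂) := fun v hv => H.mem_L₁ hπ hv
  have hinf : V ⊓ L₁'.comap (LinearMap.fst k F₁ F₂) ≤ L₁'.prod L₂' := by
    rintro v ⟨hv, hv1⟩
    rw [SetLike.mem_coe, Submodule.mem_comap, LinearMap.fst_apply] at hv1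
    refine ⟨hv1, ?_⟩
    show v.2 ∈ L₂'
    rw [hL₂', mem_sub_nodeDiv₂ (H.mem_L₂ hπ hv)]
    intro s hs
    rw [← H.val_zero_iff hπ hv hs]
    exact (mem_sub_nodeDiv₁ (H.mem_L₁ hπ hv)).mp hv1 s hs
  have hdim1 := finrank_add_le_inf V (LinearMap.fst k F₁ F₂) _ _ hle₁ hV₁
  have hdim2 := Submodule.finrank_mono hinf
  have hdim3 := finrank_prod_le L₁' L₂'
  have hdegL₁ : Divisor.degree (n • E₁) = n * Divisor.degree E₁ := by
    rw [map_nsmul, nsmul_eq_mul]
  have hdegL₁' : Divisor.degree (n • E₁ - nodeDiv Prod.fst X.nodes) =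
      n * Divisor.degree E₁ - X.nodes.card := by
    rw [map_sub, hdegL₁, degree_nodeDiv]
  have hdegL₂' : Divisor.degree (n • E₂ - nodeDiv Prod.snd X.nodes) =
      n * Divisor.degree E₂ - X.nodes.card := by
    rw [map_sub, map_nsmul, nsmul_eq_mul, degree_nodeDiv]
  have r₁ := finrank_riemannRochSpace_eq (D := n • E₁) (by rw [hdegL₁]; linarith)
  have r₁' := finrank_riemannRochSpace_eq (D := n • E₁ - nodeDiv Prod.fst X.nodes)
    (by rw [hdegL₁']; linarith)
  have r₂' := finrank_riemannRochSpace_eq (D := n • E₂ - nodeDiv Prod.snd X.nodes)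
    (by rw [hdegL₂']; linarith)
  rw [hdegL₁] at r₁
  rw [hdegL₁'] at r₁'
  rw [hdegL₂'] at r₂'
  have hgen := X.genus_le
  have heq : V ⊓ L₁'.comap (LinearMap.fst k F₁ F₂) = L₁'.prod L₂' := by
    apply Submodule.eq_of_le_of_finrank_le hinf
    refine hdim3.trans ?_
    zify at hdim1 hdim2 hdim3 hgen ⊢
    linarith
  constructor
  · rw [← heq]
    exact inf_le_left
  · -- surjectivity of the first projection
    have hmap : V.map (LinearMap.fst k F₁ F₂) ≤ L₁ := Submodule.map_le_iff_le_comap.mpr hV₁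
    have hker : V ⊓ (⊥ : Submodule k F₁).comap (LinearMap.fst k F₁ F₂) ≤
        Submodule.map (LinearMap.inr k F₁ F₂) L₂' := by
      rintro v ⟨hv, hv1⟩
      have hv1' : v.1 = 0 := hv1
      refine ⟨v.2, ?_, Prod.ext (by simp [hv1']) (by simp)⟩
      rw [SetLike.mem_coe, hL₂', mem_sub_nodeDiv₂ (H.mem_L₂ hπ hv)]
      intro s hs
      rw [← H.val_zero_iff hπ hv hs, hv1']
      exact Val.zero
    have hk0 := finrank_add_le_inf V (LinearMap.fst k F₁ F₂) (V.map (LinearMap.fst k F₁ F₂)) ⊥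
      bot_le (Submodule.le_comap_map _ _)
    have hk1 := Submodule.finrank_mono hker
    have hk2 := Submodule.finrank_map_le (LinearMap.inr k F₁ F₂) L₂'
    have hbot : Module.finrank k (⊥ : Submodule k F₁) = 0 := finrank_bot k F₁
    have heq2 : V.map (LinearMap.fst k F₁ F₂) = L₁ := by
      apply Submodule.eq_of_le_of_finrank_le hmap
      zify at hk0 hk1 hk2 hgen hbot ⊢
      linarith
    intro v₁ hv₁
    have hv₁' : v₁ ∈ V.map (LinearMap.fst k F₁ F₂) := by
      rw [heq2]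
      exact hv₁
    obtain ⟨v, hv, rfl⟩ := hv₁'
    exact ⟨v.2, hv⟩

/-- Existence of the gluing function. -/
theorem IsRootDiv.exists_gamma (hπ : Function.Surjective π) :
    ∃ γ : Place k F₁ × Place k F₂ → k, (∀ s ∈ X.nodes, γ s ^ m = 1) ∧ IsGamma X hπ D γ := by
  classical
  obtain ⟨N, hN⟩ := H.exists_bound hπ
  have hone : ∀ n : ℕ, (1 : F₁) ∈ riemannRochSpace (n • polesOf (K := k) X.x₁) := fun n =>
    one_mem_riemannRochSpace (nsmul_nonneg (polesOf_nonneg _) n)
  obtain ⟨w, hw⟩ := (hN N le_rfl).2 1 (hone N)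
  have hval : ∀ s ∈ X.nodes, ∃ c : k, Val s.2 w c := fun s hs =>
    ord_nonneg_node₂ (H.mem_L₂ hπ hw) hs
  choose! γ hγ using hval
  have hwn : ∀ n ≥ N, ((1 : F₁), w) ∈ redL X hπ D n := fun n hn => redL_mono hπ D hn hw
  have key : ∀ n ≥ N, ∀ v ∈ redL X hπ D n, ∀ s ∈ X.nodes,
      ∃ c : k, Val s.1 v.1 c ∧ Val s.2 v.2 (γ s * c) := by
    intro n hn v hv s hs
    obtain ⟨c, hc⟩ := ord_nonneg_node₁ (H.mem_L₁ hπ hv) hs
    refine ⟨c, hc, ?_⟩
    have h1 : v - c • ((1 : F₁), w) ∈ redL X hπ D n :=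
      Submodule.sub_mem _ hv (Submodule.smul_mem _ _ (hwn n hn))
    have h2 : Val s.1 (v - c • ((1 : F₁), w)).1 0 := by
      have := hc.sub (Val.smul c (Val.one (P := s.1)))
      rw [mul_one, sub_self] at this
      exact this
    have h3 := ((H.val_zero_iff hπ h1 hs).mp h2).add (Val.smul c (hγ s hs))
    have h4 : (v - c • ((1 : F₁), w)).2 + c • w = v.2 := by
      simp
    rw [h4, zero_add, mul_comm] at h3
    exact h3
  refine ⟨γ, ?_, ⟨N, fun n hn v => ⟨fun hv => ⟨H.mem_L₁ hπ hv, H.mem_L₂ hπ hv, key n hn v hv⟩,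
    fun hv => ?_⟩⟩, ⟨N, w, hw⟩⟩
  · intro s hs
    obtain ⟨h, hh, hv⟩ := hw
    obtain ⟨h1, h2⟩ := H.key hπ hh hv
    obtain ⟨c, hc1, hc2⟩ := X.glue _ _ _ h1 h2 s hs
    simp only [one_pow, div_one] at hc1 hc2
    have h3 : c = 1 := hc1.unique Val.one
    have h4 := hc2.unique ((hγ s hs).pow m)
    rw [← h4, h3]
  · obtain ⟨v₂, hv₂⟩ := (hN n hn).2 v.1 hv.mem₁
    have h1 : ((0 : F₁), v.2 - v₂) ∈ redL X hπ D n := by
      apply (hN n hn).1
      refine ⟨Submodule.zero_mem _, ?_⟩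
      show v.2 - v₂ ∈ _
      have h2 : v.2 - v₂ ∈ riemannRochSpace (n • polesOf (K := k) X.x₂) :=
        Submodule.sub_mem _ hv.mem₂ (H.mem_L₂ hπ hv₂)
      rw [SetLike.mem_coe, mem_sub_nodeDiv₂ h2]
      intro s hs
      obtain ⟨c, hc1, hc2⟩ := hv.node s hs
      obtain ⟨c', hc1', hc2'⟩ := key n hn _ hv₂ s hs
      simp only at hc1' hc2'
      have h3 : c = c' := hc1.unique hc1'
      have h4 := hc2.sub hc2'
      rw [h3, sub_self] at h4
      exact h4
    have h5 := Submodule.add_mem _ hv₂ h1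
    have h6 : ((v.1, v₂) : F₁ × F₂) + (0, v.2 - v₂) = v := by
      apply Prod.ext <;> simp
    rwa [h6] at h5

end Exists

section Gamma

variable {hπ : Function.Surjective π} {D' : Divisor K F}
  {γ γ' : Place k F₁ × Place k F₂ → k}

theorem IsGamma.val_of_one (h : IsGamma X hπ D γ) {n : ℕ} {w : F₂}
    (hw : ((1 : F₁), w) ∈ redL X hπ D n) {s : Place k F₁ × Place k F₂} (hs : s ∈ X.nodes) :
    Val s.2 w (γ s) := by
  obtain ⟨N, hN⟩ := h.eq_glued
  obtain ⟨c, hc1, hc2⟩ := ((hN (max n N) (le_max_right _ _) _).mp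
    (redL_mono hπ D (le_max_left _ _) hw)).node s hs
  rw [hc1.unique Val.one, mul_one] at hc2
  exact hc2

theorem IsGamma.unique (h : IsGamma X hπ D γ) (h' : IsGamma X hπ D γ')
    {s : Place k F₁ × Place k F₂} (hs : s ∈ X.nodes) : γ s = γ' s := by
  obtain ⟨n, w, hw⟩ := h.exists_one
  exact (h.val_of_one hw hs).unique (h'.val_of_one hw hs)

theorem IsGamma.congr (h : IsGamma X hπ D γ) (hγ : ∀ s ∈ X.nodes, γ s = γ' s) :
    IsGamma X hπ D γ' := by
  obtain ⟨N, hN⟩ := h.eq_glued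
  refine ⟨⟨N, fun n hn v => (hN n hn v).trans ⟨fun hv => ⟨hv.mem₁, hv.mem₂, fun s hs => ?_⟩,
    fun hv => ⟨hv.mem₁, hv.mem₂, fun s hs => ?_⟩⟩⟩, h.exists_one⟩
  · rw [← hγ s hs]; exact hv.node s hs
  · rw [hγ s hs]; exact hv.node s hs

theorem mul_mem_redL {n n' : ℕ} {v v' : F₁ × F₂} (hv : v ∈ redL X hπ D n)
    (hv' : v' ∈ redL X hπ D' n') : v * v' ∈ redL X hπ (D + D') (n + n') := by
  obtain ⟨h, hh, hv⟩ := hv
  obtain ⟨h', hh', hv'⟩ := hv'
  refine ⟨h * h', ?_, hv.mul hv'⟩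
  rw [mem_riemannRochSpace_iff] at hh hh' ⊢
  intro P
  rcases eq_or_ne h 0 with h0 | h0
  · left; rw [h0, zero_mul]
  rcases eq_or_ne h' 0 with h0' | h0'
  · left; rw [h0', mul_zero]
  right
  have h1 := (hh P).resolve_left h0
  have h2 := (hh' P).resolve_left h0'
  rw [P.ord_mul h0 h0']
  simp only [Finsupp.sub_apply, Finsupp.smul_apply, Finsupp.add_apply, nsmul_eq_mul] at h1 h2 ⊢
  push_cast
  linarith

theorem IsGamma.mul {γ'' : Place k F₁ × Place k F₂ → k} (h : IsGamma X hπ D γ)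
    (h' : IsGamma X hπ D' γ') (h'' : IsGamma X hπ (D + D') γ'')
    {s : Place k F₁ × Place k F₂} (hs : s ∈ X.nodes) : γ'' s = γ s * γ' s := by
  obtain ⟨n, w, hw⟩ := h.exists_one
  obtain ⟨n', w', hw'⟩ := h'.exists_one
  have h1 := mul_mem_redL hw hw'
  have h2 : ((1 : F₁), w) * (1, w') = (1, w * w') := by simp
  rw [h2] at h1
  exact (h''.val_of_one h1 hs).unique ((h.val_of_one hw hs).mul (h'.val_of_one hw' hs))

/-- A principal divisor has constant gluing function. -/
theorem IsGamma.of_principal {g : F} {c : k}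
    (hred : Red₂ X.R₁ X.R₂ g (1, algebraMap k F₂ c)) (hD : ∀ P, D P = P.ord g)
    (h : IsGamma X hπ D γ) {s : Place k F₁ × Place k F₂} (hs : s ∈ X.nodes) : γ s = c := by
  have h1 : ((1 : F₁), algebraMap k F₂ c) ∈ redL X hπ D 0 := by
    refine ⟨g, ?_, hred⟩
    rw [mem_riemannRochSpace_iff]
    intro P
    right
    rw [zero_nsmul, zero_sub, Finsupp.neg_apply, hD, neg_neg]
  exact (h.val_of_one h1 hs).unique (Val.const c)

end Gamma

end Fermat.Agent.DR
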