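import Fermat.Agent.DR.Nodal.Gamma

set_option autoImplicit false
set_option linter.unusedSectionVars false

/-!
# A torsion divisor class in the toric part with trivial gluing function is zero
-/

noncomputable section

open AlgebraicCurve Fermat.Agent.RR Fermat.Agent.JRED WithZero

namespace Fermat.Agent.DR

section RR

variable {k E : Type*} [Field k] [Field E] [Algebra k E] [IsAlgClosed k] [FunctionField k E]

theorem mem_nsmul_poles_iff {x v : E} {n : ℕ} :
    v ∈ riemannRochSpace (n • polesOf (K := k) x) ↔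
      ∀ P : Place k E, v = 0 ∨ -(n * max (-P.ord x) 0) ≤ P.ord v := by
  rw [mem_riemannRochSpace_iff]
  simp only [Finsupp.smul_apply, nsmul_eq_mul, polesOf_apply]

theorem mul_mem_poles {x v w : E} {n n' : ℕ} (hv : v ∈ riemannRochSpace (n • polesOf (K := k) x))
    (hw : w ∈ riemannRochSpace (n' • polesOf (K := k) x)) :
    v * w ∈ riemannRochSpace ((n + n') • polesOf (K := k) x) := by
  rw [mem_nsmul_poles_iff] at *
  intro P
  rcases eq_or_ne v 0 with h0 | h0
  · left; rw [h0, zero_mul]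
  rcases eq_or_ne w 0 with h0' | h0'
  · left; rw [h0', mul_zero]
  right
  have h1 := (hv P).resolve_left h0
  have h2 := (hw P).resolve_left h0'
  rw [P.ord_mul h0 h0']
  push_cast
  linarith

theorem mem_poles_mono {x v : E} {n n' : ℕ} (h : n ≤ n')
    (hv : v ∈ riemannRochSpace (n • polesOf (K := k) x)) :
    v ∈ riemannRochSpace (n' • polesOf (K := k) x) := by
  rw [mem_nsmul_poles_iff] at *
  intro P
  refine (hv P).imp id fun h1 => le_trans ?_ h1
  have h2 : (n : ℤ) ≤ n' := by exact_mod_cast h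
  have h3 : 0 ≤ max (-P.ord x) 0 := le_max_right _ _
  nlinarith

theorem pow_mem_poles (x : E) (n : ℕ) :
    x ^ n ∈ riemannRochSpace (n • polesOf (K := k) x) := by
  rw [mem_nsmul_poles_iff]
  intro P
  right
  rw [ord_pow]
  have h3 : -P.ord x ≤ max (-P.ord x) 0 := le_max_left _ _
  have h4 : (0 : ℤ) ≤ n := Int.natCast_nonneg n
  nlinarith

/-- If `v` has poles only at poles of `x` and `x ^ M v ∈ L((M + n) (x)_∞)` then
`v ∈ L(n (x)_∞)`. -/
theorem mem_of_pow_mul {x v : E} {N' M n : ℕ}
    (hv : v ∈ riemannRochSpace (N' • polesOf (K := k) x))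
    (hxv : x ^ M * v ∈ riemannRochSpace ((M + n) • polesOf (K := k) x)) :
    v ∈ riemannRochSpace (n • polesOf (K := k) x) := by
  rw [mem_nsmul_poles_iff] at *
  intro P
  rcases eq_or_ne v 0 with h0 | h0
  · exact Or.inl h0
  right
  have h1 := (hv P).resolve_left h0
  rcases lt_or_ge (P.ord x) 0 with hx | hx
  · have hx0 : x ≠ 0 := by
      rintro rfl
      simp at hx
    have h2 := (hxv P).resolve_left (mul_ne_zero (pow_ne_zero _ hx0) h0)
    rw [P.ord_mul (pow_ne_zero _ hx0) h0, ord_pow, max_eq_left (by linarith)] at h2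
    rw [max_eq_left (by linarith)]
    push_cast at h2
    linarith
  · rw [max_eq_right (by linarith)] at h1 ⊢
    linarith

end RR

variable {K F k F₁ F₂ : Type*} [Field K] [Field F] [Algebra K F] [Field k] [Field F₁] [Field F₂]
  [Algebra k F₁] [Algebra k F₂] [IsAlgClosed K] [IsAlgClosed k] [FunctionField K F]
  [FunctionField k F₁] [FunctionField k F₂] {A : ValuationSubring K} {π : A →+* k}

variable {X : NodalDatum K F k F₁ F₂ A π} {m : ℕ} {D : Divisor K F} {f : F}

/-- An integral function reducing to something regular everywhere reduces to a constant. -/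
theorem eq_const_of_forall {N : ℕ} {a : F} {v : F₁ × F₂}
    (ha : a ∈ riemannRochSpace (N • polesOf (K := K) X.x)) (hv : Red₂ X.R₁ X.R₂ a v)
    (h₁ : ∀ P : Place k F₁, 0 ≤ P.ord v.1) (h₂ : ∀ P : Place k F₂, 0 ≤ P.ord v.2) :
    ∃ c : k, v = algebraMap k (F₁ × F₂) c := by
  obtain ⟨c₁, hc₁⟩ := exists_const_of_forall_ord_nonneg (K := k) h₁
  obtain ⟨c₂, hc₂⟩ := exists_const_of_forall_ord_nonneg (K := k) h₂
  obtain ⟨s, hs⟩ := X.nodes_nonempty
  obtain ⟨c, hc1, hc2⟩ := X.glue _ _ _ ha hv s hs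
  rw [hc₁] at hc1
  rw [hc₂] at hc2
  have e1 : c₁ = c := (Val.const c₁).unique hc1
  have e2 : c₂ = c := (Val.const c₂).unique hc2
  refine ⟨c, Prod.ext ?_ ?_⟩
  · rw [hc₁, e1]; rfl
  · rw [hc₂, e2]; rfl

theorem val_lt_one_iff (hπ : Function.Surjective π) (a : A) : A.valuation (a : K) < 1 ↔ π a = 0 := by
  rw [← A.valuation_lt_one_iff a, IsLocalRing.mem_maximalIdeal, mem_nonunits_iff]
  constructor
  · exact res_eq_zero_of_not_isUnit hπ
  · intro h hu
    exact (hu.map π).ne_zero h

theorem IsRootDiv.const_mul (H : IsRootDiv X m D f (1, 1)) {μ : A}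
    (hμ : π μ = 1) : IsRootDiv X m D (algebraMap K F μ * f) (1, 1) := by
  have hμ0 : (μ : K) ≠ 0 := by
    intro h0
    have : μ = 0 := Subtype.ext h0
    rw [this, map_zero] at hμ
    exact zero_ne_one hμ
  refine ⟨H.pos, mul_ne_zero (by simpa using hμ0) H.ne_zero, fun P => ?_, ?_, H.ne₁, H.ne₂⟩
  · rw [P.ord_mul (by simpa using hμ0) H.ne_zero, ord_algebraMap, zero_add]
    exact H.div_eq P
  · have h1 := (Red₂.const (R₁ := X.R₁) (R₂ := X.R₂) μ).mul H.red
    rw [hμ, map_one, one_mul] at h1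
    exact h1

/-- The difference map `(h, h') ↦ xⁿ h - h'`. -/
def diffMap (X : NodalDatum K F k F₁ F₂ A π) (D : Divisor K F) (n : ℕ) :
    (riemannRochSpace (n • polesOf (K := K) X.x - D) ×
      riemannRochSpace (n • polesOf (K := K) X.x - D)) →ₗ[K]
      riemannRochSpace ((2 * n) • polesOf (K := K) X.x - D) where
  toFun w := ⟨X.x ^ n * (w.1 : F) - (w.2 : F), by
    apply Submodule.sub_mem
    · have h1 := pow_mem_poles (k := K) X.x n
      have h2 := w.1.2
      rw [mem_riemannRochSpace_iff] at h1 h2 ⊢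
      intro P
      rcases h2 P with h3 | h3
      · left; rw [h3, mul_zero]
      rcases h1 P with h4 | h4
      · left; rw [h4, zero_mul]
      rcases eq_or_ne (X.x ^ n) 0 with h5 | h5
      · left; rw [h5, zero_mul]
      rcases eq_or_ne (w.1 : F) 0 with h6 | h6
      · left; rw [h6, mul_zero]
      right
      rw [P.ord_mul h5 h6]
      simp only [Finsupp.sub_apply, Finsupp.smul_apply, nsmul_eq_mul] at h3 h4 ⊢
      push_cast
      linarith
    · refine riemannRochSpace_mono ?_ w.2.2
      apply sub_le_sub_right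
      intro P
      rw [Finsupp.smul_apply, Finsupp.smul_apply, nsmul_eq_mul, nsmul_eq_mul]
      have h1 := polesOf_nonneg (K := K) X.x P
      rw [Finsupp.coe_zero, Pi.zero_apply] at h1
      push_cast
      nlinarith⟩
  map_add' w w' := by
    apply Subtype.ext
    show X.x ^ n * ((w.1 : F) + (w'.1 : F)) - ((w.2 : F) + (w'.2 : F)) =
      (X.x ^ n * (w.1 : F) - (w.2 : F)) + (X.x ^ n * (w'.1 : F) - (w'.2 : F))
    ring
  map_smul' c w := by
    apply Subtype.ext
    show X.x ^ n * (c • (w.1 : F)) - c • (w.2 : F) = c • (X.x ^ n * (w.1 : F) - (w.2 : F))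
    rw [smul_sub, mul_smul_comm]

@[simp]
theorem coe_diffMap (D : Divisor K F) (n : ℕ)
    (w : riemannRochSpace (n • polesOf (K := K) X.x - D) ×
      riemannRochSpace (n • polesOf (K := K) X.x - D)) :
    (diffMap X D n w : F) = X.x ^ n * (w.1 : F) - (w.2 : F) := rfl

/-- The power `xⁿ` reduces to a glued pair. -/
theorem glued_pow (n : ℕ) : Glued X (fun _ => 1) n ((X.x₁, X.x₂) ^ n) := by
  have h1 := pow_mem_poles (k := K) X.x n
  have h2 : Red₂ X.R₁ X.R₂ (X.x ^ n) ((X.x₁, X.x₂) ^ n) := Red₂.pow ⟨X.red₁, X.red₂⟩ n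
  refine ⟨X.mem₁ n _ _ h1 h2, X.mem₂ n _ _ h1 h2, fun s hs => ?_⟩
  simp only [one_mul]
  exact X.glue n _ _ h1 h2 s hs

theorem glued_one (n : ℕ) : Glued X (fun _ => 1) n 1 :=
  ⟨one_mem_riemannRochSpace (nsmul_nonneg (polesOf_nonneg _) n),
    one_mem_riemannRochSpace (nsmul_nonneg (polesOf_nonneg _) n),
    fun _ _ => ⟨1, Val.one, by simpa using Val.one⟩⟩

/-- If `h ∈ L(nE - D)` and `xⁿ h ∈ L(nE - D)` and `h ≠ 0`, `deg D = 0` then `D = div h`. -/
theorem isPrincipal_of_diff_zero {n : ℕ} {h h' : F}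
    (hh : h ∈ riemannRochSpace (n • polesOf (K := K) X.x - D))
    (hh' : h' ∈ riemannRochSpace (n • polesOf (K := K) X.x - D)) (h0 : h ≠ 0)
    (heq : X.x ^ n * h = h') (hdeg : Divisor.degree D = 0) : Divisor.IsPrincipal D := by
  have hx0 : X.x ≠ 0 := by
    intro h0
    have := X.red₁
    rw [h0] at this
    have h1 := X.R₁.unique this X.R₁.zero
    have h2 := X.transcendental₁
    rw [h1] at h2
    exact h2 isAlgebraic_zero
  have hle : D ≤ divOf (K := K) h := by
    intro P
    rw [divOf_apply]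
    have h1 := (mem_riemannRochSpace_iff.mp hh P).resolve_left h0
    rw [← heq] at hh'
    have h2 := (mem_riemannRochSpace_iff.mp hh' P).resolve_left
      (mul_ne_zero (pow_ne_zero _ hx0) h0)
    rw [P.ord_mul (pow_ne_zero _ hx0) h0, ord_pow] at h2
    simp only [Finsupp.sub_apply, Finsupp.smul_apply, nsmul_eq_mul, polesOf_apply] at h1 h2
    rcases lt_or_ge (P.ord X.x) 0 with hx | hx
    · rw [max_eq_left (by linarith)] at h2
      linarith
    · rw [max_eq_right (by linarith)] at h1
      linarith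
  have hd : Divisor.degree (divOf (K := K) h - D) = 0 := by
    rw [map_sub, degree_divOf, hdeg, sub_zero]
  have heq' : divOf (K := K) h - D = 0 := by
    have hnn : 0 ≤ divOf (K := K) h - D := sub_nonneg.mpr hle
    rw [degree_eq_sum] at hd
    ext P
    by_contra hne
    have hmem : P ∈ (divOf (K := K) h - D).support := Finsupp.mem_support_iff.mpr hne
    have h3 := (Finset.sum_eq_zero_iff_of_nonneg (fun P _ => hnn P)).mp hd P hmem
    exact hne h3
  refine ⟨h, h0, fun P => ?_⟩
  have := congrArg (fun Z : Divisor K F => Z P) heq'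
  simp only [Finsupp.sub_apply, divOf_apply, Finsupp.coe_zero, Pi.zero_apply] at this
  linarith

/-- **Injectivity.** A class of order prime to the residue characteristic in the toric part with
trivial gluing function is trivial. -/
theorem IsRootDiv.isPrincipal_of_gamma_one (hπ : Function.Surjective π) (hmk : (m : k) ≠ 0)
    (H : IsRootDiv X m D f (1, 1)) (hγ : IsGamma X hπ D (fun _ => 1)) :
    Divisor.IsPrincipal D := by
  classical
  obtain ⟨N, hN⟩ := hγ.eq_glued
  set n := N with hn
  have hVn := hN n le_rfl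
  have hV2n := hN (2 * n) (by omega)
  -- initial sections
  obtain ⟨h₀, hh₀, hr₀⟩ : (1 : F₁ × F₂) ∈ redL X hπ D n := (hVn _).mpr (glued_one n)
  obtain ⟨h₀', hh₀', hr₀'⟩ : ((X.x₁, X.x₂) : F₁ × F₂) ^ n ∈ redL X hπ D n :=
    (hVn _).mpr (glued_pow n)
  set xx : F₁ × F₂ := (X.x₁, X.x₂) with hxx
  have hrx : Red₂ X.R₁ X.R₂ X.x xx := ⟨X.red₁, X.red₂⟩
  -- orthonormal bases
  obtain ⟨B⟩ := (X.ortho (riemannRochSpace (n • polesOf (K := K) X.x - D))
    inferInstance).nonempty hπ
  obtain ⟨BY⟩ := (X.ortho (riemannRochSpace ((2 * n) • polesOf (K := K) X.x - D))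
    inferInstance).nonempty hπ
  set bW := B.bas.prod B.bas with hbW
  obtain ⟨w, hw, t, ht, hmin⟩ := exists_min_basis A bW BY.bas (diffMap X D n)
    (⟨h₀, hh₀⟩, ⟨h₀', hh₀'⟩) (by
      rintro (i | i)
      · rw [hbW, Module.Basis.prod_repr_inl]
        exact B.repr_mem hπ hr₀ i
      · rw [hbW, Module.Basis.prod_repr_inr]
        exact B.repr_mem hπ hr₀' i)
  -- closeness in terms of reductions
  have hclose : ∀ w' : (riemannRochSpace (n • polesOf (K := K) X.x - D)) ×
      (riemannRochSpace (n • polesOf (K := K) X.x - D)),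
      (∀ i, A.valuation (bW.repr w' i - bW.repr (⟨h₀, hh₀⟩, ⟨h₀', hh₀'⟩) i) < 1) ↔
        (Red₂ X.R₁ X.R₂ (w'.1 : F) 1 ∧ Red₂ X.R₁ X.R₂ (w'.2 : F) (xx ^ n)) := by
    intro w'
    have e1 : (∀ i, A.valuation (bW.repr w' i - bW.repr (⟨h₀, hh₀⟩, ⟨h₀', hh₀'⟩) i) < 1) ↔
        (Red₂ X.R₁ X.R₂ ((w'.1 - ⟨h₀, hh₀⟩ : riemannRochSpace _) : F) 0 ∧
          Red₂ X.R₁ X.R₂ ((w'.2 - ⟨h₀', hh₀'⟩ : riemannRochSpace _) : F) 0) := by
      rw [B.red_zero_iff hπ, B.red_zero_iff hπ]
      constructor
      · intro h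
        constructor
        · intro i
          have := h (Sum.inl i)
          rw [hbW, Module.Basis.prod_repr_inl, Module.Basis.prod_repr_inl] at this
          rwa [map_sub, Finsupp.sub_apply]
        · intro i
          have := h (Sum.inr i)
          rw [hbW, Module.Basis.prod_repr_inr, Module.Basis.prod_repr_inr] at this
          rwa [map_sub, Finsupp.sub_apply]
      · rintro ⟨h1, h2⟩ (i | i)
        · rw [hbW, Module.Basis.prod_repr_inl, Module.Basis.prod_repr_inl]
          have := h1 i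
          rwa [map_sub, Finsupp.sub_apply] at this
        · rw [hbW, Module.Basis.prod_repr_inr, Module.Basis.prod_repr_inr]
          have := h2 i
          rwa [map_sub, Finsupp.sub_apply] at this
    rw [e1]
    constructor
    · rintro ⟨h1, h2⟩
      constructor
      · have := h1.add hr₀
        rw [Submodule.coe_sub, sub_add_cancel, zero_add] at this
        exact this
      · have := h2.add hr₀'
        rw [Submodule.coe_sub, sub_add_cancel, zero_add] at this
        exact this
    · rintro ⟨h1, h2⟩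
      constructor
      · have := h1.sub hr₀
        rw [sub_self] at this
        exact this
      · have := h2.sub hr₀'
        rw [sub_self] at this
        exact this
  obtain ⟨hw1, hw2⟩ := (hclose w).mp hw
  set h : F := (w.1 : F) with hh
  set h' : F := (w.2 : F) with hh'
  have hhne : h ≠ 0 := hw1.ne_zero one_ne_zero
  by_cases ht0 : t = 0
  · -- the minimum is zero
    have hT0 : diffMap X D n w = 0 := by
      have : BY.bas.repr (diffMap X D n w) = 0 := by
        ext j
        have h1 := ht j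
        rw [ht0, map_zero, le_zero_iff, Valuation.zero_iff] at h1
        simpa using h1
      simpa using this
    have h1 : X.x ^ n * h - h' = 0 := by
      rw [hh, hh', ← coe_diffMap, hT0]; rfl
    exact isPrincipal_of_diff_zero w.1.2 w.2.2 hhne (sub_eq_zero.mp h1) H.degree
  · exfalso
    -- the difference reduces to zero
    have hTred : Red₂ X.R₁ X.R₂ (diffMap X D n w : F) 0 := by
      have := ((hrx.pow n).mul hw1).sub hw2
      rw [mul_one, sub_self] at this
      exact this
    have hTlt := (BY.red_zero_iff hπ).mp hTred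
    have htlt : A.valuation t < 1 := by
      obtain ⟨j, hj⟩ := hmin ht0 w hw
      exact lt_of_le_of_lt hj (hTlt j)
    have htA : t ∈ A := by
      rw [← A.valuation_le_one_iff]; exact htlt.le
    have hπt : π ⟨t, htA⟩ = 0 := (val_lt_one_iff hπ ⟨t, htA⟩).mp htlt
    have hvt : A.valuation t ≠ 0 := (Valuation.ne_zero_iff _).mpr ht0
    -- the normalised difference
    set y : riemannRochSpace ((2 * n) • polesOf (K := K) X.x - D) :=
      t⁻¹ • diffMap X D n w with hy
    have hyA : ∀ j, BY.bas.repr y j ∈ A := by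
      intro j
      rw [hy, map_smul, Finsupp.smul_apply, smul_eq_mul, ← A.valuation_le_one_iff, map_mul,
        map_inv₀]
      calc (A.valuation t)⁻¹ * A.valuation (BY.bas.repr (diffMap X D n w) j)
          ≤ (A.valuation t)⁻¹ * A.valuation t := by gcongr; exact ht j
        _ = 1 := inv_mul_cancel₀ hvt
    obtain ⟨ybar, hyred⟩ : ∃ v, Red₂ X.R₁ X.R₂ (y : F) v := ⟨_, BY.red_sum hyA⟩
    have hty : X.x ^ n * h - h' = algebraMap K F t * (y : F) := by
      rw [hy, Submodule.coe_smul, coe_diffMap, ← Algebra.smul_def, smul_smul,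
        mul_inv_cancel₀ ht0, one_smul]
    have hyG : Glued X (fun _ => 1) (2 * n) ybar := (hV2n _).mp ⟨y, y.2, hyred⟩
    -- a functional on `Z = L(mnE)` normalised at `1`
    obtain ⟨BZ⟩ := (X.ortho (riemannRochSpace ((m * n) • polesOf (K := K) X.x))
      inferInstance).nonempty hπ
    have h1Z : (1 : F) ∈ riemannRochSpace ((m * n) • polesOf (K := K) X.x) :=
      one_mem_riemannRochSpace (nsmul_nonneg (polesOf_nonneg _) _)
    set oneZ : riemannRochSpace ((m * n) • polesOf (K := K) X.x) := ⟨1, h1Z⟩ with honeZ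
    have h1red : Red₂ X.R₁ X.R₂ (oneZ : F) 1 := Red₂.one
    have hαA : ∀ i, BZ.bas.repr oneZ i ∈ A := BZ.repr_mem hπ h1red
    obtain ⟨i₀, hi₀⟩ : ∃ i, π ⟨BZ.bas.repr oneZ i, hαA i⟩ ≠ 0 := by
      by_contra hcon
      push Not at hcon
      have h1 := Red₂.unique h1red (BZ.red_sum hαA)
      rw [Finset.sum_eq_zero fun i _ => by rw [hcon i, zero_smul]] at h1
      exact one_ne_zero h1
    set α : A := ⟨BZ.bas.repr oneZ i₀, hαA i₀⟩ with hα
    have hα0 : (α : K) ≠ 0 := by
      intro h0
      apply hi₀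
      have : α = 0 := Subtype.ext h0
      rw [this, map_zero]
    have hvα : A.valuation (α : K) = 1 := by
      refine le_antisymm ((A.valuation_le_one_iff _).mpr α.2) ?_
      by_contra hcon
      exact hi₀ ((val_lt_one_iff hπ α).mp (not_le.mp hcon))
    -- normalise `f`
    obtain ⟨hkey1, hkey2⟩ := H.key hπ w.1.2 hw1
    rw [← hh] at hkey1 hkey2
    have hkey2' : Red₂ X.R₁ X.R₂ (h ^ m / f) 1 := by
      have h2 : Red₂ X.R₁ X.R₂ (h ^ m / f) ((1 : F₁), (1 : F₂)) := by simpa using hkey2
      exact h2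
    set q : riemannRochSpace ((m * n) • polesOf (K := K) X.x) := ⟨h ^ m / f, hkey1⟩ with hq
    set μ₀ : K := BZ.bas.repr q i₀ / α with hμ₀
    have hμ1 : A.valuation (μ₀ - 1) < 1 := by
      have h2 : Red₂ X.R₁ X.R₂ ((q - oneZ : riemannRochSpace _) : F) 0 := by
        have := hkey2'.sub h1red
        rw [sub_self] at this
        exact this
      have h3 := (BZ.red_zero_iff hπ).mp h2 i₀
      have h4 : μ₀ - 1 = (BZ.bas.repr (q - oneZ) i₀) / α := by
        rw [map_sub, Finsupp.sub_apply, sub_div, hμ₀]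
        congr 1
        exact (div_self hα0).symm
      rw [h4, map_div₀, hvα, div_one]
      exact h3
    have hμA : μ₀ ∈ A := by
      have h5 : μ₀ - 1 ∈ A := by rw [← A.valuation_le_one_iff]; exact hμ1.le
      have := A.add_mem _ _ h5 A.one_mem
      rwa [sub_add_cancel] at this
    set μ : A := ⟨μ₀, hμA⟩ with hμ
    have hπμ : π μ = 1 := by
      have h5 : A.valuation ((μ - 1 : A) : K) < 1 := hμ1
      rw [val_lt_one_iff hπ, map_sub, map_one, sub_eq_zero] at h5
      exact h5
    have hμ0 : μ₀ ≠ 0 := by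
      intro h0
      have : μ = 0 := Subtype.ext h0
      rw [this, map_zero] at hπμ
      exact zero_ne_one hπμ
    have H' := H.const_mul hπμ
    set f' : F := algebraMap K F μ * f with hf'
    have hf'ne : f' ≠ 0 := H'.ne_zero
    have hf'inv : Red₂ X.R₁ X.R₂ f'⁻¹ 1 := by
      have h2 : Red₂ X.R₁ X.R₂ f'⁻¹ ((1 : F₁), (1 : F₂)) := by
        simpa using Red₂.inv hπ H'.red H'.ne₁ H'.ne₂
      exact h2
    obtain ⟨hk1, hk2⟩ := H'.key hπ w.1.2 hw1
    obtain ⟨hk1', hk2'⟩ := H'.key hπ w.2.2 hw2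
    rw [← hh] at hk1
    rw [← hh'] at hk1'
    -- the two errors
    set a : F := h ^ m * f'⁻¹ - 1 with ha
    set b : F := h' ^ m * f'⁻¹ - X.x ^ (m * n) with hb
    have haZ : a ∈ riemannRochSpace ((m * n) • polesOf (K := K) X.x) := by
      apply Submodule.sub_mem _ _ h1Z
      rw [← div_eq_mul_inv]; exact hk1
    have hbZ : b ∈ riemannRochSpace ((m * n) • polesOf (K := K) X.x) := by
      apply Submodule.sub_mem _ _ (pow_mem_poles _ _)
      rw [← div_eq_mul_inv]; exact hk1'
    -- the cofactor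
    set S : F := ∑ i ∈ Finset.range m, (X.x ^ n * h) ^ i * h' ^ (m - 1 - i) with hS
    set uu : F := S * f'⁻¹ with huu
    have hred_uu : Red₂ X.R₁ X.R₂ uu ((m : F₁ × F₂) * xx ^ (n * (m - 1))) := by
      have h2 : Red₂ X.R₁ X.R₂ S (∑ i ∈ Finset.range m, (xx ^ n * 1) ^ i * (xx ^ n) ^ (m - 1 - i)) :=
        Red₂.sum fun i _ => (((hrx.pow n).mul hw1).pow i).mul (hw2.pow _)
      have h3 : ∑ i ∈ Finset.range m, (xx ^ n * 1) ^ i * (xx ^ n) ^ (m - 1 - i) =
          (m : F₁ × F₂) * xx ^ (n * (m - 1)) := by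
        rw [Finset.sum_congr rfl (g := fun _ => xx ^ (n * (m - 1)))]
        · rw [Finset.sum_const, Finset.card_range, nsmul_eq_mul]
        · intro i hi
          rw [Finset.mem_range] at hi
          rw [mul_one, ← pow_mul, ← pow_mul, ← pow_add, ← mul_add]
          congr 2
          omega
      rw [h3] at h2
      have := h2.mul hf'inv
      rwa [mul_one] at this
    have hident : X.x ^ (m * n) * a - b = algebraMap K F t * ((y : F) * uu) := by
      have h2 : S * (X.x ^ n * h - h') = (X.x ^ n * h) ^ m - h' ^ m := by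
        rw [hS, geom_sum₂_mul]
      rw [hty] at h2
      rw [ha, hb, huu]
      have h3 : X.x ^ (m * n) = (X.x ^ n) ^ m := by rw [← pow_mul, mul_comm]
      have h4 : (X.x ^ n * h) ^ m = X.x ^ (m * n) * h ^ m := by rw [mul_pow, h3]
      rw [h4] at h2
      linear_combination (-f'⁻¹) * h2
    -- `a` is divisible by `t`
    have hφa : ∀ c : K, BZ.bas.repr (c • (⟨a, haZ⟩ : riemannRochSpace _)) i₀ = 0 := by
      intro c
      have h2 : (⟨a, haZ⟩ : riemannRochSpace ((m * n) • polesOf (K := K) X.x)) =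
          μ₀⁻¹ • q - oneZ := by
        apply Subtype.ext
        show a = μ₀⁻¹ • (h ^ m / f) - 1
        rw [ha, hf', mul_inv, ← map_inv₀, div_eq_mul_inv, Algebra.smul_def]
        ring
      rw [map_smul, h2, Finsupp.smul_apply, map_sub, Finsupp.sub_apply, map_smul,
        Finsupp.smul_apply]
      have h3 : BZ.bas.repr q i₀ = μ₀ * α := by
        rw [hμ₀, div_mul_cancel₀ _ hα0]
      have h4 : BZ.bas.repr oneZ i₀ = α := rfl
      rw [h3, h4, smul_eq_mul, smul_eq_mul, inv_mul_cancel_left₀ hμ0, sub_self, mul_zero]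
    obtain ⟨rbar, hr⟩ : ∃ v, Red₂ X.R₁ X.R₂ (t⁻¹ • a) v := by
      by_cases ha0 : a = 0
      · exact ⟨0, by rw [ha0, smul_zero]; exact Red₂.zero⟩
      obtain ⟨c₁, hc₁, abar, habar, hac⟩ := Red₂.normalize (R₁ := X.R₁) (R₂ := X.R₂) ha0
      by_cases hct : A.valuation (c₁ * t) < 1
      · exfalso
        have hctA : c₁ * t ∈ A := by rw [← A.valuation_le_one_iff]; exact hct.le
        have hπct : π ⟨c₁ * t, hctA⟩ = 0 := (val_lt_one_iff hπ ⟨_, hctA⟩).mp hct
        -- `c₁ • b` reduces to `xx ^ (mn) * abar`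
        have hbred : Red₂ X.R₁ X.R₂ (c₁ • b) (xx ^ (m * n) * abar) := by
          have h2 := ((hrx.pow (m * n)).mul hac).sub
            (Red₂.smul hctA (hyred.mul hred_uu))
          rw [hπct, zero_smul, sub_zero] at h2
          convert h2 using 1
          rw [Algebra.smul_def, Algebra.smul_def, Algebra.smul_def, map_mul]
          linear_combination (-algebraMap K F c₁) * hident
        have haZ' : c₁ • a ∈ riemannRochSpace ((m * n) • polesOf (K := K) X.x) :=
          Submodule.smul_mem _ _ haZ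
        have hbZ' : c₁ • b ∈ riemannRochSpace ((m * n) • polesOf (K := K) X.x) :=
          Submodule.smul_mem _ _ hbZ
        have k1 := mem_of_pow_mul (n := 0) (X.mem₁ _ _ _ haZ' hac)
          (by simpa using X.mem₁ _ _ _ hbZ' hbred)
        have k2 := mem_of_pow_mul (n := 0) (X.mem₂ _ _ _ haZ' hac)
          (by simpa using X.mem₂ _ _ _ hbZ' hbred)
        have o1 : ∀ P : Place k F₁, 0 ≤ P.ord abar.1 := by
          intro P
          rcases mem_nsmul_poles_iff.mp k1 P with h2 | h2
          · simp [h2]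
          · simpa using h2
        have o2 : ∀ P : Place k F₂, 0 ≤ P.ord abar.2 := by
          intro P
          rcases mem_nsmul_poles_iff.mp k2 P with h2 | h2
          · simp [h2]
          · simpa using h2
        obtain ⟨c, hc⟩ := eq_const_of_forall haZ' hac o1 o2
        obtain ⟨cc, rfl⟩ := hπ c
        -- use the functional
        set z₁ : riemannRochSpace ((m * n) • polesOf (K := K) X.x) :=
          c₁ • (⟨a, haZ⟩ : riemannRochSpace _) - (cc : K) • oneZ with hz₁
        have h2 : Red₂ X.R₁ X.R₂ (z₁ : F) 0 := by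
          have h3 := hac.sub (Red₂.smul (R₁ := X.R₁) (R₂ := X.R₂) cc.2 Red₂.one)
          have h4 : abar - π cc • (1 : F₁ × F₂) = 0 := by
            rw [hc, Algebra.algebraMap_eq_smul_one, sub_self]
          rw [show (⟨(cc : K), cc.2⟩ : A) = cc from rfl, h4] at h3
          exact h3
        have h3 := (BZ.red_zero_iff hπ).mp h2 i₀
        rw [hz₁, map_sub, Finsupp.sub_apply, hφa, map_smul, Finsupp.smul_apply, zero_sub,
          Valuation.map_neg, smul_eq_mul, map_mul] at h3
        have h4 : A.valuation (BZ.bas.repr oneZ i₀) = 1 := hvα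
        rw [h4, mul_one, val_lt_one_iff hπ] at h3
        rw [h3, map_zero] at hc
        exact habar hc
      · have h2 : (c₁ * t)⁻¹ ∈ A := by
          rw [← A.valuation_le_one_iff, map_inv₀]
          exact inv_le_one_of_one_le₀ (not_lt.mp hct)
        refine ⟨π ⟨_, h2⟩ • abar, ?_⟩
        have h3 := Red₂.smul (R₁ := X.R₁) (R₂ := X.R₂) h2 hac
        rw [smul_smul] at h3
        have h4 : (c₁ * t)⁻¹ * c₁ = t⁻¹ := by field_simp
        rw [h4] at h3
        exact h3
    have hrZ : t⁻¹ • a ∈ riemannRochSpace ((m * n) • polesOf (K := K) X.x) :=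
      Submodule.smul_mem _ _ haZ
    have hrZ' : t⁻¹ • b ∈ riemannRochSpace ((m * n) • polesOf (K := K) X.x) :=
      Submodule.smul_mem _ _ hbZ
    have hrb : Red₂ X.R₁ X.R₂ (t⁻¹ • b)
        (xx ^ (m * n) * rbar - ybar * ((m : F₁ × F₂) * xx ^ (n * (m - 1)))) := by
      have h2 := ((hrx.pow (m * n)).mul hr).sub (hyred.mul hred_uu)
      convert h2 using 1
      rw [Algebra.smul_def, Algebra.smul_def]
      have h3 : algebraMap K F t⁻¹ * algebraMap K F t = 1 := by
        rw [← map_mul, inv_mul_cancel₀ ht0, map_one]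
      linear_combination (-algebraMap K F t⁻¹) * hident - ((y : F) * uu) * h3
    -- the corrections
    set zbar : F₁ × F₂ := (m : k)⁻¹ • rbar with hzbar
    set zbar' : F₁ × F₂ := xx ^ n * zbar - ybar with hzbar'
    have hmz : (m : F₁ × F₂) * zbar = rbar := by
      rw [hzbar, Algebra.smul_def, ← mul_assoc, ← map_natCast (algebraMap k (F₁ × F₂)), ← map_mul,
        mul_inv_cancel₀ hmk, map_one, one_mul]
    have hrb' : xx ^ (m * n) * rbar - ybar * ((m : F₁ × F₂) * xx ^ (n * (m - 1))) =
        (m : k) • (xx ^ (n * (m - 1)) * zbar') := by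
      have h2 : xx ^ (m * n) = xx ^ (n * (m - 1)) * xx ^ n := by
        rw [← pow_add]
        congr 1
        obtain ⟨m', hm'⟩ : ∃ m', m = m' + 1 := ⟨m - 1, by have := H.pos; omega⟩
        rw [hm']
        simp only [Nat.add_sub_cancel]
        ring
      rw [hzbar', ← hmz, h2, Algebra.smul_def, map_natCast]
      ring
    rw [hrb'] at hrb
    have hsmul_mem₁ : ∀ (M : ℕ) (v : F₁), (m : k) • v ∈
        riemannRochSpace (M • polesOf (K := k) X.x₁) →
        v ∈ riemannRochSpace (M • polesOf (K := k) X.x₁) := fun M v hv =>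
      (Submodule.smul_mem_iff _ hmk).mp hv
    have hsmul_mem₂ : ∀ (M : ℕ) (v : F₂), (m : k) • v ∈
        riemannRochSpace (M • polesOf (K := k) X.x₂) →
        v ∈ riemannRochSpace (M • polesOf (K := k) X.x₂) := fun M v hv =>
      (Submodule.smul_mem_iff _ hmk).mp hv
    have hmn : n * (m - 1) + n = m * n := by
      obtain ⟨m', hm'⟩ : ∃ m', m = m' + 1 := ⟨m - 1, by have := H.pos; omega⟩
      rw [hm']
      simp only [Nat.add_sub_cancel]
      ring
    -- `zbar` is glued at level `n`
    have hr1 := X.mem₁ _ _ _ hrZ hr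
    have hr2 := X.mem₂ _ _ _ hrZ hr
    have hb1 := hsmul_mem₁ _ _ (X.mem₁ _ _ _ hrZ' hrb)
    have hb2 := hsmul_mem₂ _ _ (X.mem₂ _ _ _ hrZ' hrb)
    have hz1 : zbar.1 ∈ riemannRochSpace ((m * n) • polesOf (K := k) X.x₁) :=
      Submodule.smul_mem _ _ hr1
    have hz2 : zbar.2 ∈ riemannRochSpace ((m * n) • polesOf (K := k) X.x₂) :=
      Submodule.smul_mem _ _ hr2
    have hxn1 : (xx ^ n).1 ∈ riemannRochSpace (n • polesOf (K := k) X.x₁) := (glued_pow n).mem₁
    have hxn2 : (xx ^ n).2 ∈ riemannRochSpace (n • polesOf (K := k) X.x₂) := (glued_pow n).mem₂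
    have hz1' : zbar'.1 ∈ riemannRochSpace ((m * n + n) • polesOf (K := k) X.x₁) := by
      apply Submodule.sub_mem
      · rw [Prod.fst_mul]
        have := mul_mem_poles hxn1 hz1
        rwa [add_comm] at this
      · refine mem_poles_mono ?_ hyG.mem₁
        have := H.pos
        nlinarith
    have hz2' : zbar'.2 ∈ riemannRochSpace ((m * n + n) • polesOf (K := k) X.x₂) := by
      apply Submodule.sub_mem
      · rw [Prod.snd_mul]
        have := mul_mem_poles hxn2 hz2
        rwa [add_comm] at this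
      · refine mem_poles_mono ?_ hyG.mem₂
        have := H.pos
        nlinarith
    have hz1'n : zbar'.1 ∈ riemannRochSpace (n • polesOf (K := k) X.x₁) := by
      refine mem_of_pow_mul (M := n * (m - 1)) hz1' ?_
      rw [hmn]
      exact hb1
    have hz2'n : zbar'.2 ∈ riemannRochSpace (n • polesOf (K := k) X.x₂) := by
      refine mem_of_pow_mul (M := n * (m - 1)) hz2' ?_
      rw [hmn]
      exact hb2
    have hxz : xx ^ n * zbar = zbar' + ybar := by rw [hzbar']; ring
    have hz1n : zbar.1 ∈ riemannRochSpace (n • polesOf (K := k) X.x₁) := by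
      refine mem_of_pow_mul (M := n) hz1 ?_
      have h2 : X.x₁ ^ n * zbar.1 = zbar'.1 + ybar.1 := by
        have := congrArg Prod.fst hxz
        simpa [hxx] using this
      rw [h2, ← two_mul]
      exact Submodule.add_mem _ (mem_poles_mono (by omega) hz1'n) hyG.mem₁
    have hz2n : zbar.2 ∈ riemannRochSpace (n • polesOf (K := k) X.x₂) := by
      refine mem_of_pow_mul (M := n) hz2 ?_
      have h2 : X.x₂ ^ n * zbar.2 = zbar'.2 + ybar.2 := by
        have := congrArg Prod.snd hxz
        simpa [hxx] using this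
      rw [h2, ← two_mul]
      exact Submodule.add_mem _ (mem_poles_mono (by omega) hz2'n) hyG.mem₂
    have hnode_z : ∀ s ∈ X.nodes, ∃ c : k, Val s.1 zbar.1 c ∧ Val s.2 zbar.2 c := by
      intro s hs
      obtain ⟨c, hc1, hc2⟩ := X.glue _ _ _ hrZ hr s hs
      exact ⟨(m : k)⁻¹ * c, Val.smul _ hc1, Val.smul _ hc2⟩
    have hzG : Glued X (fun _ => 1) n zbar := ⟨hz1n, hz2n, fun s hs => by
      obtain ⟨c, hc1, hc2⟩ := hnode_z s hs
      exact ⟨c, hc1, by simpa using hc2⟩⟩
    have hzG' : Glued X (fun _ => 1) n zbar' := ⟨hz1'n, hz2'n, fun s hs => by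
      obtain ⟨c, hc1, hc2⟩ := hnode_z s hs
      obtain ⟨c', hc1', hc2'⟩ := (glued_pow (X := X) n).node s hs
      obtain ⟨c'', hc1'', hc2''⟩ := hyG.node s hs
      simp only [one_mul] at hc2' hc2''
      refine ⟨c' * c - c'', (hc1'.mul hc1).sub hc1'', ?_⟩
      rw [one_mul]
      exact (hc2'.mul hc2).sub hc2''⟩
    obtain ⟨z, hzL, hzr⟩ : zbar ∈ redL X hπ D n := (hVn _).mpr hzG
    obtain ⟨z', hzL', hzr'⟩ : zbar' ∈ redL X hπ D n := (hVn _).mpr hzG'
    -- a better pair
    set w₁ : (riemannRochSpace (n • polesOf (K := K) X.x - D)) ×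
      (riemannRochSpace (n • polesOf (K := K) X.x - D)) :=
      w - t • (⟨z, hzL⟩, ⟨z', hzL'⟩) with hw₁
    have hc1 : Red₂ X.R₁ X.R₂ (w₁.1 : F) 1 := by
      have h2 := hw1.sub (Red₂.smul htA hzr)
      rw [hπt, zero_smul, sub_zero] at h2
      exact h2
    have hc2 : Red₂ X.R₁ X.R₂ (w₁.2 : F) (xx ^ n) := by
      have h2 := hw2.sub (Red₂.smul htA hzr')
      rw [hπt, zero_smul, sub_zero] at h2
      exact h2
    obtain ⟨j, hj⟩ := hmin ht0 w₁ ((hclose w₁).mpr ⟨hc1, hc2⟩)
    set e : riemannRochSpace ((2 * n) • polesOf (K := K) X.x - D) :=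
      y - diffMap X D n (⟨z, hzL⟩, ⟨z', hzL'⟩) with he
    have hered : Red₂ X.R₁ X.R₂ (e : F) 0 := by
      have h2 := hyred.sub (((hrx.pow n).mul hzr).sub hzr')
      have h3 : ybar - (xx ^ n * zbar - zbar') = 0 := by rw [hzbar']; ring
      rw [h3] at h2
      exact h2
    have hlt := (BY.red_zero_iff hπ).mp hered j
    have hTe : diffMap X D n w₁ = t • e := by
      rw [hw₁, he, map_sub, map_smul, smul_sub, hy, smul_smul, mul_inv_cancel₀ ht0, one_smul]
    rw [hTe, map_smul, Finsupp.smul_apply, smul_eq_mul, map_mul] at hj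
    have h2 : A.valuation t * A.valuation (BY.bas.repr e j) < A.valuation t * 1 :=
      (mul_lt_mul_iff_right₀ (lt_of_le_of_ne zero_le (Ne.symm hvt))).mpr hlt
    rw [mul_one] at h2
    exact absurd hj (not_le.mpr h2)

end Fermat.Agent.DR
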