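import Fermat.Agent.DR.Nodal.Basic

set_option autoImplicit false
set_option linter.unusedSectionVars false

/-!
# Parity theorem

For `f` with `div f = m D` and reductions `u₁, u₂ ≠ 0`: `m ∣ ord_P(u_i)` for every place `P` which is
not a node, and at a node `m ∣ ord u₁ ↔ m ∣ ord u₂`.
-/

noncomputable section

open AlgebraicCurve Fermat.Agent.RR Fermat.Agent.JRED WithZero

namespace Fermat.Agent.DR

section LinAlg

variable {k M E E₁ E₂ : Type*} [Field k] [AddCommGroup M] [Module k M] [AddCommGroup E]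
  [Module k E] [AddCommGroup E₁] [Module k E₁] [AddCommGroup E₂] [Module k E₂]

theorem finrank_add_le_inf (V : Submodule k M) [Module.Finite k V] (g : M →ₗ[k] E)
    (L L' : Submodule k E) [Module.Finite k L] (hL : L' ≤ L) (hV : V ≤ L.comap g) :
    Module.finrank k V + Module.finrank k L' ≤
      Module.finrank k (V ⊓ L'.comap g : Submodule k M) + Module.finrank k L := by
  let φ₀ : V →ₗ[k] L := (g ∘ₗ V.subtype).codRestrict L (fun v => hV v.2)
  let φ : V →ₗ[k] L ⧸ L'.submoduleOf L := (L'.submoduleOf L).mkQ ∘ₗ φ₀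
  have h1 := LinearMap.finrank_range_add_finrank_ker φ
  have h2 : Module.finrank k (LinearMap.range φ) ≤ Module.finrank k (L ⧸ L'.submoduleOf L) :=
    Submodule.finrank_le _
  have h3 := Submodule.finrank_quotient_add_finrank (L'.submoduleOf L)
  have h4 : Module.finrank k (L'.submoduleOf L) = Module.finrank k L' :=
    (Submodule.submoduleOfEquivOfLe hL).finrank_eq
  have h5 : (LinearMap.ker φ).map V.subtype = V ⊓ L'.comap g := by
    ext v
    simp only [Submodule.mem_map, LinearMap.mem_ker, Submodule.subtype_apply, Subtype.exists,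
      exists_and_right, exists_eq_right, Submodule.mem_inf, Submodule.mem_comap]
    constructor
    · rintro ⟨hv, h⟩
      refine ⟨hv, ?_⟩
      have h6 : φ₀ ⟨v, hv⟩ ∈ L'.submoduleOf L := (Submodule.Quotient.mk_eq_zero _).mp h
      exact h6
    · rintro ⟨hv, h⟩
      exact ⟨hv, (Submodule.Quotient.mk_eq_zero _).mpr h⟩
  have h6 : Module.finrank k (V ⊓ L'.comap g : Submodule k M) =
      Module.finrank k (LinearMap.ker φ) := by
    rw [← h5, Submodule.finrank_map_subtype_eq]
  omega

theorem finrank_prod_le (L₁ : Submodule k E₁) (L₂ : Submodule k E₂) [Module.Finite k L₁]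
    [Module.Finite k L₂] :
    Module.finrank k (L₁.prod L₂) ≤ Module.finrank k L₁ + Module.finrank k L₂ := by
  rw [← Module.finrank_prod]
  let φ : L₁.prod L₂ →ₗ[k] L₁ × L₂ :=
    LinearMap.prod
      (((LinearMap.fst k E₁ E₂) ∘ₗ (L₁.prod L₂).subtype).codRestrict L₁ (fun v => v.2.1))
      (((LinearMap.snd k E₁ E₂) ∘ₗ (L₁.prod L₂).subtype).codRestrict L₂ (fun v => v.2.2))
  apply LinearMap.finrank_le_finrank_of_injective (f := φ)
  intro v w h
  apply Subtype.ext
  apply Prod.ext
  · exact congrArg (fun z : L₁ × L₂ => (z.1 : E₁)) h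
  · exact congrArg (fun z : L₁ × L₂ => (z.2 : E₂)) h

instance finite_prod (L₁ : Submodule k E₁) (L₂ : Submodule k E₂) [Module.Finite k L₁]
    [Module.Finite k L₂] : Module.Finite k (L₁.prod L₂) := by
  let φ : L₁.prod L₂ →ₗ[k] L₁ × L₂ :=
    LinearMap.prod
      (((LinearMap.fst k E₁ E₂) ∘ₗ (L₁.prod L₂).subtype).codRestrict L₁ (fun v => v.2.1))
      (((LinearMap.snd k E₁ E₂) ∘ₗ (L₁.prod L₂).subtype).codRestrict L₂ (fun v => v.2.2))
  apply Module.Finite.of_injective φ
  intro v w h
  apply Subtype.ext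
  apply Prod.ext
  · exact congrArg (fun z : L₁ × L₂ => (z.1 : E₁)) h
  · exact congrArg (fun z : L₁ × L₂ => (z.2 : E₂)) h

end LinAlg

section NodeDiv

variable {k F₁ F₂ : Type*} [Field k] [Field F₁] [Field F₂] [Algebra k F₁] [Algebra k F₂]

/-- the divisor `∑_{s ∈ S} g s` for a map `g` to places. -/
def nodeDiv {ι : Type*} (g : ι → Place k F₁) (S : Finset ι) : Divisor k F₁ :=
  ∑ s ∈ S, Finsupp.single (g s) 1

variable {ι : Type*} (g : ι → Place k F₁) (S : Finset ι)

theorem degree_nodeDiv [IsAlgClosed k] [FunctionField k F₁] :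
    Divisor.degree (nodeDiv g S) = S.card := by
  rw [nodeDiv, map_sum]
  simp [deg_eq_one]

theorem nodeDiv_nonneg : 0 ≤ nodeDiv g S := by
  apply Finset.sum_nonneg
  intro s _ P
  classical
  rw [Finsupp.single_apply]
  split_ifs <;> simp

theorem nodeDiv_apply_of_notMem {P : Place k F₁} (h : ∀ s ∈ S, g s ≠ P) :
    nodeDiv g S P = 0 := by
  classical
  rw [nodeDiv, Finsupp.finsetSum_apply]
  apply Finset.sum_eq_zero
  intro s hs
  rw [Finsupp.single_apply, if_neg (h s hs)]

theorem nodeDiv_apply_of_mem (hg : Set.InjOn g (S : Set ι)) {s : ι} (hs : s ∈ S) :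
    nodeDiv g S (g s) = 1 := by
  classical
  rw [nodeDiv, Finsupp.finsetSum_apply, Finset.sum_eq_single s]
  · rw [Finsupp.single_eq_same]
  · intro t ht hts
    rw [Finsupp.single_apply, if_neg]
    intro h
    exact hts (hg (Finset.mem_coe.mpr ht) (Finset.mem_coe.mpr hs) h)
  · intro h
    exact absurd hs h

end NodeDiv

section Ceil

/-- `⌈a / m⌉` -/
def ceilD (m : ℕ) (a : ℤ) : ℤ := -((-a) / (m : ℤ))

theorem ceilD_zero (m : ℕ) : ceilD m 0 = 0 := by simp [ceilD]

theorem ceilD_le_iff {m : ℕ} (hm : 0 < m) {a b : ℤ} : ceilD m a ≤ b ↔ a ≤ m * b := by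
  unfold ceilD
  have hm' : (0 : ℤ) < m := by exact_mod_cast hm
  rw [neg_le, Int.le_ediv_iff_mul_le hm']
  constructor <;> intro h <;> nlinarith

theorem mul_ceilD_of_dvd {m : ℕ} {a : ℤ} (h : (m : ℤ) ∣ a) : m * ceilD m a = a := by
  unfold ceilD
  have h1 : (m : ℤ) ∣ -a := (dvd_neg).mpr h
  rw [mul_neg, Int.mul_ediv_cancel' h1, neg_neg]

theorem ceilD_add_ceilD_neg {m : ℕ} (hm : 0 < m) (a : ℤ) :
    ceilD m a + ceilD m (-a) = if (m : ℤ) ∣ a then 0 else 1 := by
  unfold ceilD
  have hm' : (0 : ℤ) < m := by exact_mod_cast hm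
  rw [neg_neg]
  split_ifs with h
  · obtain ⟨b, rfl⟩ := h
    rw [← mul_neg, Int.mul_ediv_cancel_left _ hm'.ne', Int.mul_ediv_cancel_left _ hm'.ne']
    ring
  · have h1 := Int.emod_nonneg a hm'.ne'
    have h2 := Int.emod_lt_of_pos a hm'
    have h3 := Int.mul_ediv_add_emod a m
    have h4 : a % (m : ℤ) ≠ 0 := fun h0 => h (Int.dvd_of_emod_eq_zero h0)
    have h5 : (-a) / (m : ℤ) = -(a / m) - 1 :=
      ((Int.ediv_emod_unique (r := m - a % m) hm').mpr ⟨by linear_combination -h3, by linarith,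
        by linarith [lt_of_le_of_ne h1 (Ne.symm h4)]⟩).1
    rw [h5]
    ring

end Ceil

section Main

variable {K F k F₁ F₂ : Type*} [Field K] [Field F] [Algebra K F] [Field k] [Field F₁] [Field F₂]
  [Algebra k F₁] [Algebra k F₂] [IsAlgClosed K] [IsAlgClosed k] [FunctionField K F]
  [FunctionField k F₁] [FunctionField k F₂] {A : ValuationSubring K} {π : A →+* k}

omit [IsAlgClosed K] in
theorem polesOf_pos_of_transcendental {k E : Type*} [Field k] [Field E] [Algebra k E]
    [IsAlgClosed k] [FunctionField k E] {x : E} (hx : Transcendental k x) :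
    1 ≤ Divisor.degree (polesOf (K := k) x) := by
  by_contra hcon
  have h0 : Divisor.degree (polesOf (K := k) x) = 0 :=
    le_antisymm (by omega) (degree_nonneg (polesOf_nonneg x))
  have h1 : ∀ v : Place k E, 0 ≤ v.ord x := by
    intro v
    by_contra hv
    have h2 : Finsupp.single v 1 ≤ polesOf (K := k) x := by
      classical
      intro w
      rw [Finsupp.single_apply]
      split_ifs with h
      · subst h
        rw [polesOf_apply]
        exact le_max_of_le_left (by omega)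
      · exact polesOf_nonneg x w
    have h3 := degree_mono h2
    rw [degree_single_one, h0] at h3
    omega
  obtain ⟨c, rfl⟩ := exists_const_of_forall_ord_nonneg (K := k) h1
  exact hx (isAlgebraic_algebraMap c)

theorem exists_nsmul_gt {e : ℤ} (he : 1 ≤ e) (c : ℤ) : ∃ n₀ : ℕ, ∀ n ≥ n₀, c < n * e := by
  refine ⟨(c + 1).toNat, fun n hn => ?_⟩
  have h1 : c + 1 ≤ n := by
    have := Int.self_le_toNat (c + 1)
    have h2 : ((c + 1).toNat : ℤ) ≤ n := by exact_mod_cast hn
    linarith
  nlinarith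

variable (X : NodalDatum K F k F₁ F₂ A π)

/-- `f` has divisor `m D` and reduces to `u`. -/
structure IsRootDiv (m : ℕ) (D : Divisor K F) (f : F) (u : F₁ × F₂) : Prop where
  pos : 0 < m
  ne_zero : f ≠ 0
  div_eq : ∀ P, (m : ℤ) * D P = P.ord f
  red : Red₂ X.R₁ X.R₂ f u
  ne₁ : u.1 ≠ 0
  ne₂ : u.2 ≠ 0

variable {X} {m : ℕ} {D : Divisor K F} {f : F} {u : F₁ × F₂}

omit [IsAlgClosed K] in
theorem IsRootDiv.degree (H : IsRootDiv X m D f u) : Divisor.degree D = 0 := by
  have h1 : m • D = divOf f := by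
    ext P
    rw [Finsupp.smul_apply, nsmul_eq_mul, H.div_eq, divOf_apply]
  have h2 : (m : ℤ) * Divisor.degree D = 0 := by
    rw [← nsmul_eq_mul, ← map_nsmul, h1, degree_divOf]
  have h3 := H.pos
  rcases mul_eq_zero.mp h2 with h | h
  · omega
  · exact h

omit [IsAlgClosed K] in
theorem IsRootDiv.inv (hπ : Function.Surjective π) (H : IsRootDiv X m D f u) :
    IsRootDiv X m (-D) f⁻¹ (u.1⁻¹, u.2⁻¹) where
  pos := H.pos
  ne_zero := inv_ne_zero H.ne_zero
  div_eq := fun P => by
    rw [Finsupp.neg_apply, P.ord_inv, ← H.div_eq]; ring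
  red := Red₂.inv hπ H.red H.ne₁ H.ne₂
  ne₁ := inv_ne_zero H.ne₁
  ne₂ := inv_ne_zero H.ne₂

/-- The key point: `h ∈ L(nE - D)` implies `h ^ m / f ∈ L(mnE)`. -/
theorem IsRootDiv.key (hπ : Function.Surjective π) (H : IsRootDiv X m D f u) {n : ℕ} {h : F}
    (hh : h ∈ riemannRochSpace (n • polesOf (K := K) X.x - D)) {v : F₁ × F₂}
    (hv : Red₂ X.R₁ X.R₂ h v) :
    h ^ m / f ∈ riemannRochSpace ((m * n) • polesOf (K := K) X.x) ∧
      Red₂ X.R₁ X.R₂ (h ^ m / f) (v.1 ^ m / u.1, v.2 ^ m / u.2) := by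
  constructor
  · rw [mem_riemannRochSpace_iff] at hh ⊢
    intro P
    rcases hh P with rfl | h1
    · left
      rw [zero_pow H.pos.ne', zero_div]
    · rcases eq_or_ne h 0 with rfl | h0
      · left
        rw [zero_pow H.pos.ne', zero_div]
      right
      rw [ord_div P (pow_ne_zero _ h0) H.ne_zero, ord_pow, ← H.div_eq]
      rw [Finsupp.sub_apply, Finsupp.smul_apply, nsmul_eq_mul] at h1
      rw [Finsupp.smul_apply, nsmul_eq_mul]
      push_cast
      have h2 : (0 : ℤ) ≤ m := by positivity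
      nlinarith
  · exact Red₂.div hπ (hv.pow m) H.red H.ne₁ H.ne₂

theorem IsRootDiv.bound₁ (hπ : Function.Surjective π) (H : IsRootDiv X m D f u) {n : ℕ} {h : F}
    (hh : h ∈ riemannRochSpace (n • polesOf (K := K) X.x - D)) {v : F₁ × F₂}
    (hv : Red₂ X.R₁ X.R₂ h v) (P : Place k F₁) :
    v.1 = 0 ∨ ceilD m (P.ord u.1) - n * polesOf (K := k) X.x₁ P ≤ P.ord v.1 := by
  obtain ⟨h1, h2⟩ := H.key hπ hh hv
  have h3 := mem_riemannRochSpace_iff.mp (X.mem₁ _ _ _ h1 h2) P
  simp only at h3
  rcases eq_or_ne v.1 0 with h0 | h0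
  · exact Or.inl h0
  · right
    have h4 := h3.resolve_left (div_ne_zero (pow_ne_zero _ h0) H.ne₁)
    rw [ord_div P (pow_ne_zero _ h0) H.ne₁, ord_pow, Finsupp.smul_apply, nsmul_eq_mul] at h4
    have h5 : ceilD m (P.ord u.1) ≤ P.ord v.1 + n * polesOf (K := k) X.x₁ P := by
      rw [ceilD_le_iff H.pos]
      push_cast at h4
      linarith
    linarith

theorem IsRootDiv.bound₂ (hπ : Function.Surjective π) (H : IsRootDiv X m D f u) {n : ℕ} {h : F}
    (hh : h ∈ riemannRochSpace (n • polesOf (K := K) X.x - D)) {v : F₁ × F₂}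
    (hv : Red₂ X.R₁ X.R₂ h v) (P : Place k F₂) :
    v.2 = 0 ∨ ceilD m (P.ord u.2) - n * polesOf (K := k) X.x₂ P ≤ P.ord v.2 := by
  obtain ⟨h1, h2⟩ := H.key hπ hh hv
  have h3 := mem_riemannRochSpace_iff.mp (X.mem₂ _ _ _ h1 h2) P
  simp only at h3
  rcases eq_or_ne v.2 0 with h0 | h0
  · exact Or.inl h0
  · right
    have h4 := h3.resolve_left (div_ne_zero (pow_ne_zero _ h0) H.ne₂)
    rw [ord_div P (pow_ne_zero _ h0) H.ne₂, ord_pow, Finsupp.smul_apply, nsmul_eq_mul] at h4
    have h5 : ceilD m (P.ord u.2) ≤ P.ord v.2 + n * polesOf (K := k) X.x₂ P := by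
      rw [ceilD_le_iff H.pos]
      push_cast at h4
      linarith
    linarith

omit [IsAlgClosed K] [IsAlgClosed k] in
theorem poles_node₁ {s : Place k F₁ × Place k F₂} (hs : s ∈ X.nodes) :
    polesOf (K := k) X.x₁ s.1 = 0 := by
  rw [polesOf_apply, X.ord_x₁ s hs]; simp

omit [IsAlgClosed K] [IsAlgClosed k] in
theorem poles_node₂ {s : Place k F₁ × Place k F₂} (hs : s ∈ X.nodes) :
    polesOf (K := k) X.x₂ s.2 = 0 := by
  rw [polesOf_apply, X.ord_x₂ s hs]; simp

omit [IsAlgClosed k] [IsAlgClosed K] [FunctionField K F] [FunctionField k F₁]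
  [FunctionField k F₂] in
theorem val_zero_aux {k E : Type*} [Field k] [Field E] [Algebra k E] {m : ℕ} (hm : 0 < m)
    (P : Place k E) {v u : E} {c : k} (hu : u ≠ 0) (hval : Val P (v ^ m / u) c) :
    (v = 0 ∨ P.ord u < m * P.ord v) ↔ c = 0 := by
  rcases eq_or_ne v 0 with rfl | hv0
  · rw [zero_pow hm.ne', zero_div] at hval
    simp only [true_or, true_iff]
    exact hval.unique Val.zero
  · have h3 : v ^ m / u ≠ 0 := div_ne_zero (pow_ne_zero _ hv0) hu
    have h4 : P.ord (v ^ m / u) = m * P.ord v - P.ord u := by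
      rw [ord_div P (pow_ne_zero _ hv0) hu, ord_pow]
    constructor
    · rintro (h5 | h5)
      · exact absurd h5 hv0
      · refine hval.unique (Val.zero_iff.mpr (Or.inr ?_))
        rw [h4]; linarith
    · rintro rfl
      right
      have h6 := (Val.zero_iff.mp hval).resolve_left h3
      rw [h4] at h6
      linarith

/-- vanishing of `v₁^m/u₁` and `v₂^m/u₂` at the two branches of a node is equivalent. -/
theorem IsRootDiv.node (hπ : Function.Surjective π) (H : IsRootDiv X m D f u) {n : ℕ} {h : F}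
    (hh : h ∈ riemannRochSpace (n • polesOf (K := K) X.x - D)) {v : F₁ × F₂}
    (hv : Red₂ X.R₁ X.R₂ h v) {s : Place k F₁ × Place k F₂} (hs : s ∈ X.nodes) :
    (v.1 = 0 ∨ s.1.ord u.1 < m * s.1.ord v.1) ↔ (v.2 = 0 ∨ s.2.ord u.2 < m * s.2.ord v.2) := by
  obtain ⟨h1, h2⟩ := H.key hπ hh hv
  obtain ⟨c, hc1, hc2⟩ := X.glue _ _ _ h1 h2 s hs
  simp only at hc1 hc2
  rw [val_zero_aux H.pos s.1 H.ne₁ hc1, val_zero_aux H.pos s.2 H.ne₂ hc2]

/-- ceiling divisor -/
def ceilDiv {k E : Type*} [Field k] [Field E] [Algebra k E] [HasPrincipalDivisors k E] (m : ℕ)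
    (u : E) : Divisor k E :=
  Finsupp.mapRange (ceilD m) (ceilD_zero m) (divOf u)

@[simp]
theorem ceilDiv_apply {k E : Type*} [Field k] [Field E] [Algebra k E] [HasPrincipalDivisors k E]
    (m : ℕ) (u : E) (P : Place k E) : ceilDiv (k := k) m u P = ceilD m (P.ord u) := by
  simp [ceilDiv]

open Classical in
/-- the nodes where `m` divides the order on a given set of branches -/
def nodesOf (X : NodalDatum K F k F₁ F₂ A π) (m : ℕ) (u : F₁ × F₂) (b₁ b₂ : Prop) :
    Finset (Place k F₁ × Place k F₂) :=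
  X.nodes.filter fun s => (((m : ℤ) ∣ s.1.ord u.1) ↔ b₁) ∧ (((m : ℤ) ∣ s.2.ord u.2) ↔ b₂)

theorem mem_nodesOf {X : NodalDatum K F k F₁ F₂ A π} {m : ℕ} {u : F₁ × F₂} {b₁ b₂ : Prop}
    {s : Place k F₁ × Place k F₂} :
    s ∈ nodesOf X m u b₁ b₂ ↔ s ∈ X.nodes ∧ (((m : ℤ) ∣ s.1.ord u.1) ↔ b₁) ∧
      (((m : ℤ) ∣ s.2.ord u.2) ↔ b₂) := by
  simp [nodesOf]

theorem IsRootDiv.count (hπ : Function.Surjective π) (H : IsRootDiv X m D f u) :
    Divisor.degree (ceilDiv (k := k) m u.1) + Divisor.degree (ceilDiv (k := k) m u.2) +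
      (nodesOf X m u True False).card + (nodesOf X m u False True).card +
      (nodesOf X m u True True).card ≤ X.nodes.card := by
  classical
  set E := polesOf (K := K) X.x with hE
  set E₁ := polesOf (K := k) X.x₁ with hE₁
  set E₂ := polesOf (K := k) X.x₂ with hE₂
  set C₁ := ceilDiv (k := k) m u.1 with hC₁
  set C₂ := ceilDiv (k := k) m u.2 with hC₂
  set S₁ := nodesOf X m u True False with hS₁
  set S₂ := nodesOf X m u False True with hS₂
  set S₃ := nodesOf X m u True True with hS₃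
  have he₁ : 1 ≤ Divisor.degree E₁ := polesOf_pos_of_transcendental X.transcendental₁
  have he₂ : 1 ≤ Divisor.degree E₂ := polesOf_pos_of_transcendental X.transcendental₂
  obtain ⟨n₁, hn₁⟩ := exists_nsmul_gt he₁ (2 * (genusFF k F₁ : ℤ) - 2 + Divisor.degree C₁ +
    S₁.card + S₃.card)
  obtain ⟨n₂, hn₂⟩ := exists_nsmul_gt he₂ (2 * (genusFF k F₂ : ℤ) - 2 + Divisor.degree C₂ +
    S₂.card + S₃.card)
  set n := max n₁ n₂ with hn
  have hb₁ := hn₁ n (le_max_left _ _)
  have hb₂ := hn₂ n (le_max_right _ _)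
  set V := redPair X.R₁ X.R₂ hπ (riemannRochSpace (n • E - D)) with hV
  have hfinV : Module.Finite k V := (X.ortho _ inferInstance).finite_redPair hπ
  have hVrank : Module.finrank k V = Module.finrank K (riemannRochSpace (n • E - D)) :=
    (X.ortho _ inferInstance).finrank_redPair hπ
  have hge := finrank_riemannRochSpace_ge (n • E - D)
  rw [map_sub, map_nsmul, H.degree, sub_zero, nsmul_eq_mul, X.degree_eq, ← hVrank] at hge
  -- node divisors
  have inj₁ : ∀ S ⊆ X.nodes, Set.InjOn Prod.fst (S : Set (Place k F₁ × Place k F₂)) :=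
    fun S hS => X.injOn_fst.mono (by exact_mod_cast hS)
  have inj₂ : ∀ S ⊆ X.nodes, Set.InjOn Prod.snd (S : Set (Place k F₁ × Place k F₂)) :=
    fun S hS => X.injOn_snd.mono (by exact_mod_cast hS)
  have hsub : ∀ b₁ b₂, nodesOf X m u b₁ b₂ ⊆ X.nodes := fun b₁ b₂ s hs => (mem_nodesOf.mp hs).1
  set D₁ : Divisor k F₁ := n • E₁ - C₁ - nodeDiv Prod.fst S₁ with hD₁
  set D₂ : Divisor k F₂ := n • E₂ - C₂ - nodeDiv Prod.snd S₂ with hD₂
  -- V lies in L(D₁) × L(D₂)
  have hm' : (0 : ℤ) < m := by exact_mod_cast H.pos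
  have hV₁ : V ≤ (riemannRochSpace D₁).comap (LinearMap.fst k F₁ F₂) := by
    rintro v ⟨h, hh, hv⟩
    rw [Submodule.mem_comap, LinearMap.fst_apply, mem_riemannRochSpace_iff]
    intro P
    rcases H.bound₁ hπ hh hv P with h0 | h1
    · exact Or.inl h0
    · by_cases hP : ∃ s ∈ S₁, s.1 = P
      · obtain ⟨s, hs, rfl⟩ := hP
        obtain ⟨hs0, hs1, hs2⟩ := mem_nodesOf.mp hs
        rw [iff_true] at hs1
        rw [iff_false] at hs2
        rcases eq_or_ne v.1 0 with h0 | h0
        · exact Or.inl h0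
        right
        rw [hD₁, Finsupp.sub_apply, Finsupp.sub_apply, Finsupp.smul_apply, nsmul_eq_mul,
          nodeDiv_apply_of_mem _ _ (inj₁ _ (hsub _ _)) hs, hC₁, ceilDiv_apply, poles_node₁ hs0]
        rw [poles_node₁ hs0] at h1
        -- second branch vanishes automatically
        have h2 : v.2 = 0 ∨ s.2.ord u.2 < m * s.2.ord v.2 := by
          rcases H.bound₂ hπ hh hv s.2 with h3 | h3
          · exact Or.inl h3
          · right
            rw [poles_node₂ hs0, mul_zero, sub_zero, ceilD_le_iff H.pos] at h3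
            exact lt_of_le_of_ne h3 fun h4 => hs2 ⟨_, h4⟩
        have h4 := ((H.node hπ hh hv hs0).mpr h2).resolve_left h0
        have h5 := mul_ceilD_of_dvd hs1
        rw [← h5] at h4
        have h6 := lt_of_mul_lt_mul_left h4 hm'.le
        linarith
      · push Not at hP
        right
        rw [hD₁, Finsupp.sub_apply, Finsupp.sub_apply, Finsupp.smul_apply, nsmul_eq_mul,
          nodeDiv_apply_of_notMem _ _ hP, hC₁, ceilDiv_apply]
        linarith
  have hV₂ : V ≤ (riemannRochSpace D₂).comap (LinearMap.snd k F₁ F₂) := by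
    rintro v ⟨h, hh, hv⟩
    rw [Submodule.mem_comap, LinearMap.snd_apply, mem_riemannRochSpace_iff]
    intro P
    rcases H.bound₂ hπ hh hv P with h0 | h1
    · exact Or.inl h0
    · by_cases hP : ∃ s ∈ S₂, s.2 = P
      · obtain ⟨s, hs, rfl⟩ := hP
        obtain ⟨hs0, hs1, hs2⟩ := mem_nodesOf.mp hs
        rw [iff_false] at hs1
        rw [iff_true] at hs2
        rcases eq_or_ne v.2 0 with h0 | h0
        · exact Or.inl h0
        right
        rw [hD₂, Finsupp.sub_apply, Finsupp.sub_apply, Finsupp.smul_apply, nsmul_eq_mul,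
          nodeDiv_apply_of_mem _ _ (inj₂ _ (hsub _ _)) hs, hC₂, ceilDiv_apply, poles_node₂ hs0]
        rw [poles_node₂ hs0] at h1
        have h2 : v.1 = 0 ∨ s.1.ord u.1 < m * s.1.ord v.1 := by
          rcases H.bound₁ hπ hh hv s.1 with h3 | h3
          · exact Or.inl h3
          · right
            rw [poles_node₁ hs0, mul_zero, sub_zero, ceilD_le_iff H.pos] at h3
            exact lt_of_le_of_ne h3 fun h4 => hs1 ⟨_, h4⟩
        have h4 := ((H.node hπ hh hv hs0).mp h2).resolve_left h0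
        have h5 := mul_ceilD_of_dvd hs2
        rw [← h5] at h4
        have h6 := lt_of_mul_lt_mul_left h4 hm'.le
        linarith
      · push Not at hP
        right
        rw [hD₂, Finsupp.sub_apply, Finsupp.sub_apply, Finsupp.smul_apply, nsmul_eq_mul,
          nodeDiv_apply_of_notMem _ _ hP, hC₂, ceilDiv_apply]
        linarith
  -- the subspace vanishing (to one more order) on the first branches of S₃
  set D₁' : Divisor k F₁ := D₁ - nodeDiv Prod.fst S₃ with hD₁'
  set D₂' : Divisor k F₂ := D₂ - nodeDiv Prod.snd S₃ with hD₂'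
  have hle₁ : riemannRochSpace D₁' ≤ riemannRochSpace D₁ :=
    riemannRochSpace_mono (by rw [hD₁']; exact sub_le_self _ (nodeDiv_nonneg _ _))
  have hinf : V ⊓ (riemannRochSpace D₁').comap (LinearMap.fst k F₁ F₂) ≤
      (riemannRochSpace D₁').prod (riemannRochSpace D₂') := by
    rintro v ⟨hvV, hv1⟩
    rw [SetLike.mem_coe, Submodule.mem_comap, LinearMap.fst_apply] at hv1
    refine ⟨hv1, ?_⟩
    have hv2 := hV₂ hvV
    rw [Submodule.mem_comap, LinearMap.snd_apply] at hv2
    obtain ⟨h, hh, hv⟩ := hvV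
    show v.2 ∈ riemannRochSpace D₂'
    rw [mem_riemannRochSpace_iff]
    intro P
    rcases mem_riemannRochSpace_iff.mp hv2 P with h0 | h1
    · exact Or.inl h0
    · by_cases hP : ∃ s ∈ S₃, s.2 = P
      · obtain ⟨s, hs, rfl⟩ := hP
        obtain ⟨hs0, hs1, hs2⟩ := mem_nodesOf.mp hs
        rw [iff_true] at hs1 hs2
        rcases eq_or_ne v.2 0 with h0 | h0
        · exact Or.inl h0
        right
        have hnot : ∀ t ∈ S₂, t.2 ≠ s.2 := by
          intro t ht hts
          obtain ⟨ht0, ht1, ht2⟩ := mem_nodesOf.mp ht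
          have : t = s := X.injOn_snd ht0 hs0 hts
          rw [this, iff_false] at ht1
          exact ht1 hs1
        have hnot₁ : ∀ t ∈ S₁, t.1 ≠ s.1 := by
          intro t ht hts
          obtain ⟨ht0, ht1, ht2⟩ := mem_nodesOf.mp ht
          have : t = s := X.injOn_fst ht0 hs0 hts
          rw [this, iff_false] at ht2
          exact ht2 hs2
        rw [hD₂', Finsupp.sub_apply, hD₂, Finsupp.sub_apply, Finsupp.sub_apply,
          Finsupp.smul_apply, nsmul_eq_mul, nodeDiv_apply_of_notMem _ _ hnot,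
          nodeDiv_apply_of_mem _ _ (inj₂ _ (hsub _ _)) hs, hC₂, ceilDiv_apply, poles_node₂ hs0]
        have h2 : v.1 = 0 ∨ s.1.ord u.1 < m * s.1.ord v.1 := by
          rcases mem_riemannRochSpace_iff.mp hv1 s.1 with h3 | h3
          · exact Or.inl h3
          · right
            rw [hD₁', Finsupp.sub_apply, hD₁, Finsupp.sub_apply, Finsupp.sub_apply,
              Finsupp.smul_apply, nsmul_eq_mul, nodeDiv_apply_of_notMem _ _ hnot₁,
              nodeDiv_apply_of_mem _ _ (inj₁ _ (hsub _ _)) hs, hC₁, ceilDiv_apply,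
              poles_node₁ hs0] at h3
            have h5 := mul_ceilD_of_dvd hs1
            nlinarith
        have h4 := ((H.node hπ hh hv hs0).mp h2).resolve_left h0
        have h5 := mul_ceilD_of_dvd hs2
        rw [← h5] at h4
        have h6 := lt_of_mul_lt_mul_left h4 hm'.le
        linarith
      · push Not at hP
        right
        rw [hD₂', Finsupp.sub_apply, nodeDiv_apply_of_notMem _ _ hP]
        linarith
  -- dimensions
  have hdim1 := finrank_add_le_inf V (LinearMap.fst k F₁ F₂) _ _ hle₁ hV₁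
  have hdim2 := Submodule.finrank_mono hinf
  have hdim3 := finrank_prod_le (riemannRochSpace D₁') (riemannRochSpace D₂')
  have hdegD₁ : Divisor.degree D₁ = n * Divisor.degree E₁ - Divisor.degree C₁ - S₁.card := by
    rw [hD₁, map_sub, map_sub, map_nsmul, degree_nodeDiv, nsmul_eq_mul]
  have hdegD₁' : Divisor.degree D₁' =
      n * Divisor.degree E₁ - Divisor.degree C₁ - S₁.card - S₃.card := by
    rw [hD₁', map_sub, hdegD₁, degree_nodeDiv]
  have hdegD₂' : Divisor.degree D₂' =
      n * Divisor.degree E₂ - Divisor.degree C₂ - S₂.card - S₃.card := by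
    rw [hD₂', hD₂, map_sub, map_sub, map_sub, map_nsmul, degree_nodeDiv, degree_nodeDiv,
      nsmul_eq_mul]
  have r₁ := finrank_riemannRochSpace_eq (D := D₁) (by rw [hdegD₁]; linarith)
  have r₁' := finrank_riemannRochSpace_eq (D := D₁') (by rw [hdegD₁']; linarith)
  have r₂' := finrank_riemannRochSpace_eq (D := D₂') (by rw [hdegD₂']; linarith)
  have hgen := X.genus_le
  rw [hdegD₁] at r₁
  rw [hdegD₁'] at r₁'
  rw [hdegD₂'] at r₂'
  zify at hdim1 hdim2 hdim3 hgen ⊢
  linarith

open Classical in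
/-- the places where `m` does not divide the order of `u` -/
def badPlaces {k E : Type*} [Field k] [Field E] [Algebra k E] [HasPrincipalDivisors k E] (m : ℕ)
    (u : E) : Finset (Place k E) :=
  (divOf (K := k) u).support.filter fun P => ¬ (m : ℤ) ∣ P.ord u

theorem mem_badPlaces {k E : Type*} [Field k] [Field E] [Algebra k E] [HasPrincipalDivisors k E]
    {m : ℕ} {u : E} {P : Place k E} : P ∈ badPlaces m u ↔ ¬ (m : ℤ) ∣ P.ord u := by
  simp only [badPlaces, Finset.mem_filter, Finsupp.mem_support_iff, divOf_apply, ne_eq,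
    and_iff_right_iff_imp]
  intro h h0
  exact h (h0 ▸ dvd_zero _)

theorem degree_ceilDiv_add {k E : Type*} [Field k] [Field E] [Algebra k E] [IsAlgClosed k]
    [FunctionField k E] {m : ℕ} (hm : 0 < m) (u : E) :
    Divisor.degree (ceilDiv (k := k) m u) + Divisor.degree (ceilDiv (k := k) m u⁻¹) =
      (badPlaces (k := k) m u).card := by
  classical
  have h1 : ceilDiv (k := k) m u + ceilDiv m u⁻¹ = nodeDiv id (badPlaces m u) := by
    ext P
    rw [Finsupp.add_apply, ceilDiv_apply, ceilDiv_apply, P.ord_inv, ceilD_add_ceilD_neg hm]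
    split_ifs with h
    · rw [nodeDiv_apply_of_notMem]
      rintro s hs rfl
      exact (mem_badPlaces.mp hs) h
    · exact (nodeDiv_apply_of_mem id _ (Set.injOn_id _) (mem_badPlaces.mpr h)).symm
  rw [← map_add, h1, degree_nodeDiv]

/-- **Parity theorem.** -/
theorem IsRootDiv.parity (hπ : Function.Surjective π) (H : IsRootDiv X m D f u) :
    (∀ P : Place k F₁, (∀ s ∈ X.nodes, s.1 ≠ P) → (m : ℤ) ∣ P.ord u.1) ∧
    (∀ P : Place k F₂, (∀ s ∈ X.nodes, s.2 ≠ P) → (m : ℤ) ∣ P.ord u.2) ∧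
    (∀ s ∈ X.nodes, ((m : ℤ) ∣ s.1.ord u.1 ↔ (m : ℤ) ∣ s.2.ord u.2)) := by
  classical
  have c1 := H.count hπ
  have c2 := (H.inv hπ).count hπ
  have hnodes : ∀ b₁ b₂ : Prop, nodesOf X m (u.1⁻¹, u.2⁻¹) b₁ b₂ = nodesOf X m u b₁ b₂ := by
    intro b₁ b₂
    ext s
    rw [mem_nodesOf, mem_nodesOf]
    simp only [Place.ord_inv, dvd_neg]
  rw [hnodes, hnodes, hnodes] at c2
  have d1 := degree_ceilDiv_add (k := k) H.pos u.1
  have d2 := degree_ceilDiv_add (k := k) H.pos u.2
  set S₁ := nodesOf X m u True False with hS₁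
  set S₂ := nodesOf X m u False True with hS₂
  set S₃ := nodesOf X m u True True with hS₃
  set S₄ := nodesOf X m u False False with hS₄
  simp only at c2
  -- partition of the nodes
  have hpart : X.nodes = (S₁ ∪ S₂) ∪ (S₃ ∪ S₄) := by
    ext s
    simp only [hS₁, hS₂, hS₃, hS₄, Finset.mem_union, mem_nodesOf]
    by_cases h1 : (m : ℤ) ∣ s.1.ord u.1 <;> by_cases h2 : (m : ℤ) ∣ s.2.ord u.2 <;>
      simp [h1, h2]
  have hcard : X.nodes.card ≤ S₁.card + S₂.card + (S₃.card + S₄.card) := by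
    rw [hpart]
    exact (Finset.card_union_le _ _).trans
      (add_le_add (Finset.card_union_le _ _) (Finset.card_union_le _ _))
  -- bad places
  have hB₁ : (S₂ ∪ S₄).image Prod.fst ⊆ badPlaces (k := k) m u.1 := by
    intro P hP
    obtain ⟨s, hs, rfl⟩ := Finset.mem_image.mp hP
    rw [mem_badPlaces]
    rcases Finset.mem_union.mp hs with hs | hs
    · have := (mem_nodesOf.mp hs).2.1
      rwa [iff_false] at this
    · have := (mem_nodesOf.mp hs).2.1
      rwa [iff_false] at this
  have hB₂ : (S₁ ∪ S₄).image Prod.snd ⊆ badPlaces (k := k) m u.2 := by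
    intro P hP
    obtain ⟨s, hs, rfl⟩ := Finset.mem_image.mp hP
    rw [mem_badPlaces]
    rcases Finset.mem_union.mp hs with hs | hs
    · have := (mem_nodesOf.mp hs).2.2
      rwa [iff_false] at this
    · have := (mem_nodesOf.mp hs).2.2
      rwa [iff_false] at this
  have hsub : ∀ b₁ b₂, nodesOf X m u b₁ b₂ ⊆ X.nodes := fun b₁ b₂ s hs => (mem_nodesOf.mp hs).1
  have hdis₂ : Disjoint S₂ S₄ := by
    rw [Finset.disjoint_left]
    intro s hs hs'
    have h1 := (mem_nodesOf.mp hs).2.2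
    have h2 := (mem_nodesOf.mp hs').2.2
    rw [iff_true] at h1
    rw [iff_false] at h2
    exact h2 h1
  have hdis₁ : Disjoint S₁ S₄ := by
    rw [Finset.disjoint_left]
    intro s hs hs'
    have h1 := (mem_nodesOf.mp hs).2.1
    have h2 := (mem_nodesOf.mp hs').2.1
    rw [iff_true] at h1
    rw [iff_false] at h2
    exact h2 h1
  have hi₁ : ((S₂ ∪ S₄).image Prod.fst).card = S₂.card + S₄.card := by
    rw [Finset.card_image_of_injOn, Finset.card_union_of_disjoint hdis₂]
    exact X.injOn_fst.mono (by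
      exact_mod_cast Finset.union_subset (hsub _ _) (hsub _ _))
  have hi₂ : ((S₁ ∪ S₄).image Prod.snd).card = S₁.card + S₄.card := by
    rw [Finset.card_image_of_injOn, Finset.card_union_of_disjoint hdis₁]
    exact X.injOn_snd.mono (by
      exact_mod_cast Finset.union_subset (hsub _ _) (hsub _ _))
  have hle₁ := Finset.card_le_card hB₁
  have hle₂ := Finset.card_le_card hB₂
  rw [hi₁] at hle₁
  rw [hi₂] at hle₂
  have e1 : S₁.card = 0 := by omega
  have e2 : S₂.card = 0 := by omega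
  have e3 : (badPlaces (k := k) m u.1).card ≤ ((S₂ ∪ S₄).image Prod.fst).card := by
    rw [hi₁]; omega
  have e4 : (badPlaces (k := k) m u.2).card ≤ ((S₁ ∪ S₄).image Prod.snd).card := by
    rw [hi₂]; omega
  have f1 := Finset.eq_of_subset_of_card_le hB₁ e3
  have f2 := Finset.eq_of_subset_of_card_le hB₂ e4
  have g1 := Finset.card_eq_zero.mp e1
  have g2 := Finset.card_eq_zero.mp e2
  refine ⟨?_, ?_, ?_⟩
  · intro P hP
    by_contra hcon
    have h1 := mem_badPlaces.mpr hcon
    rw [← f1] at h1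
    obtain ⟨s, hs, rfl⟩ := Finset.mem_image.mp h1
    exact hP s (Finset.union_subset (hsub _ _) (hsub _ _) hs) rfl
  · intro P hP
    by_contra hcon
    have h1 := mem_badPlaces.mpr hcon
    rw [← f2] at h1
    obtain ⟨s, hs, rfl⟩ := Finset.mem_image.mp h1
    exact hP s (Finset.union_subset (hsub _ _) (hsub _ _) hs) rfl
  · intro s hs
    constructor
    · intro h
      by_contra h'
      have : s ∈ S₁ := mem_nodesOf.mpr ⟨hs, by simpa using h, by simpa using h'⟩
      rw [g1] at this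
      exact absurd this (Finset.notMem_empty s)
    · intro h
      by_contra h'
      have : s ∈ S₂ := mem_nodesOf.mpr ⟨hs, by simpa using h', by simpa using h⟩
      rw [g2] at this
      exact absurd this (Finset.notMem_empty s)

end Main

end Fermat.Agent.DR
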